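/-
S27 / (RED) cell R2 (= linear-algebra core of (GOOD) G8): reduction of a finite-dimensional
subspace of `ι → K` modulo a valuation subring.  Mathlib only.
-/
import Mathlib

set_option autoImplicit false

namespace Fermat.Agent.S27

open Module

section field

variable {κ : Type*} [Field κ] {ι : Type*} [Fintype ι]

/-- Splitting off a vector with a coordinate equal to `1`. -/
theorem s27l_finrank_eq_succ (U : Submodule κ (ι → κ)) (w : ι → κ) (hw : w ∈ U) (s : ι)
    (hws : w s = 1) :
    finrank κ U = finrank κ ↥(U ⊓ LinearMap.ker (LinearMap.proj (R := κ) (φ := fun _ : ι => κ) s)) + 1 := by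
  classical
  set U' := U ⊓ LinearMap.ker (LinearMap.proj (R := κ) (φ := fun _ : ι => κ) s) with hU'
  have hw0 : w ≠ 0 := by
    intro h
    rw [h] at hws
    simp at hws
  have hsup : U' ⊔ Submodule.span κ {w} = U := by
    apply le_antisymm
    · refine sup_le inf_le_left ?_
      rw [Submodule.span_le]
      intro x hx
      rw [Set.mem_singleton_iff] at hx
      rw [hx]
      exact hw
    · intro u hu
      rw [Submodule.mem_sup]
      refine ⟨u - u s • w, ?_, u s • w, Submodule.smul_mem _ _ (Submodule.mem_span_singleton_self w),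
        by abel⟩
      refine ⟨U.sub_mem hu (U.smul_mem _ hw), ?_⟩
      rw [SetLike.mem_coe, LinearMap.mem_ker, LinearMap.proj_apply]
      simp [hws]
  have hinf : U' ⊓ Submodule.span κ {w} = ⊥ := by
    rw [Submodule.eq_bot_iff]
    rintro u ⟨⟨_, hu2⟩, hu3⟩
    rw [SetLike.mem_coe, LinearMap.mem_ker, LinearMap.proj_apply] at hu2
    obtain ⟨a, rfl⟩ := Submodule.mem_span_singleton.1 hu3
    have : a = 0 := by simpa [hws] using hu2
    rw [this, zero_smul]
  have h := Submodule.finrank_sup_add_finrank_inf_eq U' (Submodule.span κ {w})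
  rw [hsup, hinf, finrank_bot, finrank_span_singleton hw0] at h
  omega

end field

section core

variable {K : Type*} [Field K] (O : ValuationSubring K) {k : Type*} [Field k]
  (r0 : O →+* k) (hr0 : Function.Surjective r0) {ι : Type*}

/-- Coordinatewise inclusion `O^ι → K^ι`. -/
def s27l_coe (u : ι → O) : ι → K := fun i => (u i : K)

/-- Coordinatewise reduction `O^ι → k^ι`. -/
def s27l_redv (u : ι → O) : ι → k := fun i => r0 (u i)

/-- The reduction of a `K`-subspace `W ≤ K^ι`: all reductions of vectors of `W ∩ O^ι`. -/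
def s27l_red (W : Submodule K (ι → K)) : Submodule k (ι → k) where
  carrier := {z | ∃ u : ι → O, s27l_coe O u ∈ W ∧ s27l_redv O r0 u = z}
  add_mem' := by
    rintro _ _ ⟨u, hu, rfl⟩ ⟨u', hu', rfl⟩
    refine ⟨u + u', ?_, ?_⟩
    · have : s27l_coe O (u + u') = s27l_coe O u + s27l_coe O u' := by
        funext i; simp [s27l_coe]
      rw [this]
      exact W.add_mem hu hu'
    · funext i; simp [s27l_redv]
  zero_mem' := by
    refine ⟨0, ?_, ?_⟩
    · have : s27l_coe O (0 : ι → O) = 0 := by funext i; simp [s27l_coe]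
      rw [this]
      exact W.zero_mem
    · funext i; simp [s27l_redv]
  smul_mem' := by
    rintro γ _ ⟨u, hu, rfl⟩
    obtain ⟨c, rfl⟩ := hr0 γ
    refine ⟨fun i => c * u i, ?_, ?_⟩
    · have : s27l_coe O (fun i => c * u i) = (c : K) • s27l_coe O u := by
        funext i; simp [s27l_coe]
      rw [this]
      exact W.smul_mem _ hu
    · funext i; simp [s27l_redv]

theorem s27l_mem_red {W : Submodule K (ι → K)} {z : ι → k} :
    z ∈ s27l_red O r0 hr0 W ↔ ∃ u : ι → O, s27l_coe O u ∈ W ∧ s27l_redv O r0 u = z := Iff.rfl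

theorem s27l_red_mono {W W' : Submodule K (ι → K)} (h : W ≤ W') :
    s27l_red O r0 hr0 W ≤ s27l_red O r0 hr0 W' := by
  rintro z ⟨u, hu, rfl⟩
  exact ⟨u, h hu, rfl⟩

include hr0 in
/-- `r0` kills exactly the non-units. -/
theorem s27l_r0_eq_zero_iff (a : O) : r0 a = 0 ↔ ¬ IsUnit a := by
  have hmax : (RingHom.ker r0).IsMaximal := RingHom.ker_isMaximal_of_surjective r0 hr0
  have hker : RingHom.ker r0 = IsLocalRing.maximalIdeal O := IsLocalRing.eq_maximalIdeal hmax
  rw [← RingHom.mem_ker, hker, IsLocalRing.mem_maximalIdeal, mem_nonunits_iff]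

/-- A nonzero vector has a pivot coordinate: after dividing by it, all coordinates lie in `O`. -/
theorem s27l_exists_pivot [Finite ι] (w : ι → K) (hw : w ≠ 0) :
    ∃ s, w s ≠ 0 ∧ ∀ i, w i / w s ∈ O := by
  classical
  cases nonempty_fintype ι
  have hne : (Finset.univ : Finset ι).Nonempty := by
    by_contra h
    rw [Finset.not_nonempty_iff_eq_empty, Finset.univ_eq_empty_iff] at h
    exact hw (funext fun i => (h.false i).elim)
  obtain ⟨s, -, hs⟩ := Finset.exists_max_image Finset.univ (fun i => O.valuation (w i)) hne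
  have hs0 : w s ≠ 0 := by
    intro h0
    apply hw
    funext i
    have := hs i (Finset.mem_univ i)
    rw [h0, map_zero] at this
    simpa using this
  refine ⟨s, hs0, fun i => ?_⟩
  rw [← ValuationSubring.valuation_le_one_iff, map_div₀]
  have hv : O.valuation (w s) ≠ 0 := (O.valuation.ne_zero_iff).2 hs0
  exact div_le_one_of_le₀ (hs i (Finset.mem_univ i)) zero_le

/-- The kernel of the `s`-th coordinate on `red W` is the reduction of the kernel on `W`,
provided `W` contains an integral vector with `s`-th coordinate `1`. -/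
theorem s27l_red_inf_ker (W : Submodule K (ι → K)) (w : ι → O) (hw : s27l_coe O w ∈ W) (s : ι)
    (hws : w s = 1) :
    s27l_red O r0 hr0 W ⊓ LinearMap.ker (LinearMap.proj (R := k) (φ := fun _ : ι => k) s) =
      s27l_red O r0 hr0
        (W ⊓ LinearMap.ker (LinearMap.proj (R := K) (φ := fun _ : ι => K) s)) := by
  apply le_antisymm
  · rintro z ⟨⟨u, hu, rfl⟩, hz⟩
    rw [SetLike.mem_coe, LinearMap.mem_ker, LinearMap.proj_apply] at hz
    refine ⟨fun i => u i - u s * w i, ⟨?_, ?_⟩, ?_⟩
    · have : s27l_coe O (fun i => u i - u s * w i) = s27l_coe O u - (u s : K) • s27l_coe O w := by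
        funext i; simp [s27l_coe]
      rw [this]
      exact W.sub_mem hu (W.smul_mem _ hw)
    · rw [SetLike.mem_coe, LinearMap.mem_ker, LinearMap.proj_apply]
      simp [s27l_coe, hws]
    · funext i
      have hz' : r0 (u s) = 0 := hz
      simp [s27l_redv, hz']
  · rintro z ⟨u, ⟨hu, hu0⟩, rfl⟩
    refine ⟨⟨u, hu, rfl⟩, ?_⟩
    rw [SetLike.mem_coe, LinearMap.mem_ker, LinearMap.proj_apply] at hu0 ⊢
    have : u s = 0 := by
      apply Subtype.ext
      simpa [s27l_coe] using hu0
    simp [s27l_redv, this]

/-- **(R2)** The reduction of a subspace has the same dimension. -/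
theorem s27l_finrank_red [Finite ι] (W : Submodule K (ι → K)) :
    finrank k (s27l_red O r0 hr0 W) = finrank K W := by
  classical
  cases nonempty_fintype ι
  induction hn : finrank K W generalizing W with
  | zero =>
    have hW : W = ⊥ := Submodule.finrank_eq_zero.1 hn
    have : s27l_red O r0 hr0 W = ⊥ := by
      rw [Submodule.eq_bot_iff]
      rintro z ⟨u, hu, rfl⟩
      rw [hW, Submodule.mem_bot] at hu
      funext i
      have : (u i : K) = 0 := congrFun hu i
      have : u i = 0 := Subtype.ext (by simpa using this)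
      simp [s27l_redv, this]
    rw [this, finrank_bot]
  | succ n ih =>
    have hW : W ≠ ⊥ := by
      intro h
      rw [h, finrank_bot] at hn
      omega
    obtain ⟨w0, hw0W, hw0⟩ := Submodule.exists_mem_ne_zero_of_ne_bot hW
    obtain ⟨s, hs0, hs⟩ := s27l_exists_pivot O w0 hw0
    set w : ι → O := fun i => ⟨w0 i / w0 s, hs i⟩ with hwdef
    have hwW : s27l_coe O w ∈ W := by
      have : s27l_coe O w = (w0 s)⁻¹ • w0 := by
        funext i; simp [s27l_coe, hwdef, div_eq_inv_mul]
      rw [this]
      exact W.smul_mem _ hw0W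
    have hws : w s = 1 := Subtype.ext (by simp [hwdef, div_self hs0])
    have h1 := s27l_finrank_eq_succ W (s27l_coe O w) hwW s (by simp [s27l_coe, hws])
    have hwb : s27l_redv O r0 w ∈ s27l_red O r0 hr0 W := ⟨w, hwW, rfl⟩
    have h2 := s27l_finrank_eq_succ (s27l_red O r0 hr0 W) (s27l_redv O r0 w) hwb s
      (by simp [s27l_redv, hws])
    rw [s27l_red_inf_ker O r0 hr0 W w hwW s hws] at h2
    rw [h2, ih _ (by omega)]

section lift

variable {J : Type*} [Fintype J]

include hr0 in
/-- A primitive combination of vectors with independent reductions has nonzero reduction. -/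
theorem s27l_primitive_red_ne_zero (u : J → ι → O)
    (hu : LinearIndependent k (fun j => s27l_redv O r0 (u j))) (c : J → O) (j0 : J)
    (hc : IsUnit (c j0)) : ∃ i, IsUnit (∑ j, c j * u j i) := by
  by_contra hcon
  push Not at hcon
  have hsum : ∑ j, r0 (c j) • s27l_redv O r0 (u j) = 0 := by
    funext i
    have := (s27l_r0_eq_zero_iff O r0 hr0 _).2 (hcon i)
    rw [map_sum] at this
    simpa [s27l_redv, Finset.sum_apply] using this
  have := (Fintype.linearIndependent_iff.1 hu) (fun j => r0 (c j)) hsum j0
  exact ((s27l_r0_eq_zero_iff O r0 hr0 _).1 this) hc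

include hr0 in
/-- Vectors of `O^ι` with `k`-independent reductions are `K`-independent. -/
theorem s27l_linearIndependent_of_red (u : J → ι → O)
    (hu : LinearIndependent k (fun j => s27l_redv O r0 (u j))) :
    LinearIndependent K (fun j => s27l_coe O (u j)) := by
  classical
  rw [Fintype.linearIndependent_iff]
  intro g hg
  by_contra hcon
  have hg0 : g ≠ 0 := by
    intro h
    apply hcon
    intro j
    rw [h]
    rfl
  obtain ⟨j0, hj0, hj⟩ := s27l_exists_pivot O g hg0
  obtain ⟨i, hi⟩ := s27l_primitive_red_ne_zero O r0 hr0 u hu (fun j => ⟨g j / g j0, hj j⟩) j0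
    (by
      have : (⟨g j0 / g j0, hj j0⟩ : O) = 1 := Subtype.ext (by simp [div_self hj0])
      rw [this]
      exact isUnit_one)
  have hz : (∑ j, (⟨g j / g j0, hj j⟩ : O) * u j i) = 0 := by
    apply Subtype.ext
    have h1 : ∑ j, g j * (u j i : K) = 0 := by
      have := congrFun hg i
      simpa [s27l_coe, Finset.sum_apply] using this
    have h2 : ∑ j, g j / g j0 * (u j i : K) = (g j0)⁻¹ * ∑ j, g j * (u j i : K) := by
      rw [Finset.mul_sum]
      refine Finset.sum_congr rfl fun j _ => ?_
      field_simp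
    push_cast
    rw [h2, h1, mul_zero]
  rw [hz] at hi
  exact not_isUnit_zero hi

include hr0 in
/-- Vectors of `O^ι` with `k`-independent reductions are orthonormal: a `K`-combination is
integral iff all its coefficients are. -/
theorem s27l_orthonormal_of_red (u : J → ι → O)
    (hu : LinearIndependent k (fun j => s27l_redv O r0 (u j))) (g : J → K)
    (hg : ∀ i, ∑ j, g j * (u j i : K) ∈ O) : ∀ j, g j ∈ O := by
  classical
  by_contra hcon
  push Not at hcon
  obtain ⟨j1, hj1⟩ := hcon
  have hg0 : g ≠ 0 := by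
    intro h
    apply hj1
    rw [h]
    exact O.zero_mem
  obtain ⟨j0, hj0, hj⟩ := s27l_exists_pivot O g hg0
  have hj0O : g j0 ∉ O := by
    intro h
    apply hj1
    have : g j1 = g j1 / g j0 * g j0 := by field_simp
    rw [this]
    exact O.mul_mem _ _ (hj j1) h
  have hinv : (g j0)⁻¹ ∈ O := (O.mem_or_inv_mem (g j0)).resolve_left hj0O
  have hnu : ¬ IsUnit (⟨(g j0)⁻¹, hinv⟩ : O) := by
    intro h
    obtain ⟨b, hb⟩ := h.exists_right_inv
    apply hj0O
    have hb' : (g j0)⁻¹ * (b : K) = 1 := by
      have := congrArg (Subtype.val) hb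
      simpa using this
    have : (b : K) = g j0 := by
      field_simp at hb'
      exact hb'
    rw [← this]
    exact b.2
  obtain ⟨i, hi⟩ := s27l_primitive_red_ne_zero O r0 hr0 u hu (fun j => ⟨g j / g j0, hj j⟩) j0
    (by
      have : (⟨g j0 / g j0, hj j0⟩ : O) = 1 := Subtype.ext (by simp [div_self hj0])
      rw [this]
      exact isUnit_one)
  have hz : (∑ j, (⟨g j / g j0, hj j⟩ : O) * u j i) =
      ⟨(g j0)⁻¹, hinv⟩ * ⟨∑ j, g j * (u j i : K), hg i⟩ := by
    apply Subtype.ext
    have h2 : ∑ j, g j / g j0 * (u j i : K) = (g j0)⁻¹ * ∑ j, g j * (u j i : K) := by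
      rw [Finset.mul_sum]
      refine Finset.sum_congr rfl fun j _ => ?_
      field_simp
    push_cast
    rw [h2]
  rw [hz] at hi
  exact hnu (isUnit_of_mul_isUnit_left hi)

end lift

/-- **(R2), adapted basis.** Every subspace `W ≤ K^ι` has a `K`-basis of integral vectors whose
reductions are a `k`-basis of `red W`, and which is orthonormal (`W ∩ O^ι = ⊕ O u_j`). -/
theorem s27l_exists_adapted [Finite ι] (W : Submodule K (ι → K)) :
    ∃ u : Fin (finrank K W) → ι → O,
      (∀ j, s27l_coe O (u j) ∈ W) ∧
      LinearIndependent k (fun j => s27l_redv O r0 (u j)) ∧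
      Submodule.span k (Set.range fun j => s27l_redv O r0 (u j)) = s27l_red O r0 hr0 W ∧
      LinearIndependent K (fun j => s27l_coe O (u j)) ∧
      Submodule.span K (Set.range fun j => s27l_coe O (u j)) = W ∧
      ∀ g : Fin (finrank K W) → K, (∀ i, ∑ j, g j * (u j i : K) ∈ O) → ∀ j, g j ∈ O := by
  classical
  cases nonempty_fintype ι
  have hd := s27l_finrank_red O r0 hr0 W
  let β : Basis (Fin (finrank K W)) k (s27l_red O r0 hr0 W) :=
    (Module.finBasis k (s27l_red O r0 hr0 W)).reindex (finCongr hd)
  have hβ : ∀ j, ∃ u : ι → O, s27l_coe O u ∈ W ∧ s27l_redv O r0 u = (β j : ι → k) :=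
    fun j => (β j).2
  choose u huW hured using hβ
  have hfam : (fun j => s27l_redv O r0 (u j)) = (Submodule.subtype _) ∘ β := by
    funext j
    exact hured j
  have hindk : LinearIndependent k (fun j => s27l_redv O r0 (u j)) := by
    rw [hfam]
    exact β.linearIndependent.map' _ (Submodule.ker_subtype _)
  have hindK := s27l_linearIndependent_of_red O r0 hr0 u hindk
  refine ⟨u, huW, hindk, ?_, hindK, ?_, s27l_orthonormal_of_red O r0 hr0 u hindk⟩
  · rw [hfam, Set.range_comp, ← Submodule.map_span, β.span_eq, Submodule.map_top,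
      Submodule.range_subtype]
  · let b' : Fin (finrank K W) → W := fun j => ⟨s27l_coe O (u j), huW j⟩
    have hb' : LinearIndependent K b' := LinearIndependent.of_comp W.subtype hindK
    have htop := hb'.span_eq_top_of_card_eq_finrank' (by simp)
    have hfam' : (fun j => s27l_coe O (u j)) = W.subtype ∘ b' := rfl
    rw [hfam', Set.range_comp, ← Submodule.map_span, htop, Submodule.map_top,
      Submodule.range_subtype]

end core

end Fermat.Agent.S27
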