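import Mathlib
import Fermat.Agent.JT3.Riemann.Main

/-!
# S27 / (RED): interface

Constant reductions of a function field `F / K` in place/valuation language, with ABSTRACT residue
fields (`k`, `Fb` arbitrary fields, given by surjective ring homs), the hypotheses (GOOD) consumed
by the reduction theorem, and the reduction of a `K`-subspace of `F`.

* `s27r_Red K F k Fb` : valuation subrings `O ⊂ K`, `V ⊂ F`, `V ∩ K = O`, residue maps `r0`, `r`.
* `s27r_IsGenus K F g` : `g` is the Riemann genus of `F / K` (the `g` of `rt_exists_genus`).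
* `s27r_Good R x` : what (RED) consumes from (GOOD).
* `s27r_redSub R L` : the reduction `r (L ∩ V)` of a `K`-subspace `L` of `F`, a `k`-subspace.
-/

set_option autoImplicit false

namespace Fermat.Agent.S27

open AlgebraicCurve IntermediateField Polynomial Fermat.Agent.JT3

universe u v u' v'
variable {K : Type u} {F : Type v} [Field K] [Field F] [Algebra K F]
variable {k : Type u'} {Fb : Type v'} [Field k] [Field Fb] [Algebra k Fb]

/-- (DATA) a constant reduction of `F/K`: valuation subrings `O ⊂ K`, `V ⊂ F` with `V ∩ K = O`,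
and abstract residue fields `k`, `Fb` given by surjective ring homs, compatible with the
structure maps. -/
structure s27r_Red (K : Type u) (F : Type v) (k : Type u') (Fb : Type v')
    [Field K] [Field F] [Algebra K F] [Field k] [Field Fb] [Algebra k Fb] where
  /-- the valuation ring of the constant field -/
  O : ValuationSubring K
  /-- the valuation ring of the function field -/
  V : ValuationSubring F
  /-- residue map of `O` -/
  r0 : O →+* k
  /-- residue map of `V` -/
  r : V →+* Fb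
  r0_surj : Function.Surjective r0
  r_surj : Function.Surjective r
  mem_iff : ∀ a : K, algebraMap K F a ∈ V ↔ a ∈ O
  comp : ∀ (a : K) (ha : a ∈ O),
    r ⟨algebraMap K F a, (mem_iff a).2 ha⟩ = algebraMap k Fb (r0 ⟨a, ha⟩)

/-- Riemann genus (the `g` of `rt_exists_genus`). -/
def s27r_IsGenus (K : Type u) (F : Type v) [Field K] [Field F] [Algebra K F] (g : ℕ) : Prop :=
  (∀ A : Divisor K F,
      Divisor.degree A + 1 - g ≤ (Module.finrank K ↥(riemannRochSpace A) : ℤ)) ∧
    ∃ A₀ : Divisor K F,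
      Divisor.degree A₀ + 1 - g = (Module.finrank K ↥(riemannRochSpace A₀) : ℤ)

theorem s27r_isGenus_unique {g g' : ℕ} (h : s27r_IsGenus K F g) (h' : s27r_IsGenus K F g') :
    g = g' := by
  obtain ⟨h1, A, hA⟩ := h
  obtain ⟨h1', A', hA'⟩ := h'
  have e1 := h1 A'
  have e2 := h1' A
  omega

theorem s27r_exists_isGenus [IsAlgClosed K] {x : F} (hx : rt_IsSepGen K x) :
    ∃ g : ℕ, s27r_IsGenus K F g :=
  rt_exists_genus hx

/-- (GOOD) what (RED) consumes. -/
structure s27r_Good (R : s27r_Red K F k Fb) (x : F) : Prop where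
  x_mem : x ∈ R.V
  sepK : rt_IsSepGen K x
  sepk : rt_IsSepGen k (R.r ⟨x, x_mem⟩)
  deg_eq : Module.finrank K⟮x⟯ F = Module.finrank k⟮R.r ⟨x, x_mem⟩⟯ Fb
  genus_le : ∀ gK gk : ℕ, s27r_IsGenus K F gK → s27r_IsGenus k Fb gk → gK ≤ gk

namespace s27r_Red

variable (R : s27r_Red K F k Fb)

theorem algebraMap_mem {a : K} (ha : a ∈ R.O) : algebraMap K F a ∈ R.V :=
  (R.mem_iff a).2 ha

theorem mem_of_algebraMap_mem {a : K} (ha : algebraMap K F a ∈ R.V) : a ∈ R.O :=
  (R.mem_iff a).1 ha

/-- `r f = 0` iff `f` is not a unit of `V`. -/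
theorem r_eq_zero_iff (f : R.V) : R.r f = 0 ↔ ¬ IsUnit f := by
  constructor
  · intro h hu
    have := hu.map R.r
    rw [h] at this
    exact not_isUnit_zero this
  · intro h
    have hmax : (RingHom.ker R.r).IsMaximal := RingHom.ker_isMaximal_of_surjective R.r R.r_surj
    have heq : RingHom.ker R.r = IsLocalRing.maximalIdeal R.V :=
      IsLocalRing.eq_maximalIdeal hmax
    have : f ∈ RingHom.ker R.r := by
      rw [heq]
      exact (IsLocalRing.mem_maximalIdeal f).2 h
    exact this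

theorem r_ne_zero_iff (f : R.V) : R.r f ≠ 0 ↔ IsUnit f := by
  rw [Ne, r_eq_zero_iff, not_not]

/-- `r0 a = 0` iff `a` is not a unit of `O`. -/
theorem r0_eq_zero_iff (a : R.O) : R.r0 a = 0 ↔ ¬ IsUnit a := by
  constructor
  · intro h hu
    have := hu.map R.r0
    rw [h] at this
    exact not_isUnit_zero this
  · intro h
    have hmax : (RingHom.ker R.r0).IsMaximal :=
      RingHom.ker_isMaximal_of_surjective R.r0 R.r0_surj
    have heq : RingHom.ker R.r0 = IsLocalRing.maximalIdeal R.O :=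
      IsLocalRing.eq_maximalIdeal hmax
    have : a ∈ RingHom.ker R.r0 := by
      rw [heq]
      exact (IsLocalRing.mem_maximalIdeal a).2 h
    exact this

theorem r0_ne_zero_iff (a : R.O) : R.r0 a ≠ 0 ↔ IsUnit a := by
  rw [Ne, r0_eq_zero_iff, not_not]

/-- A `V`-unit in terms of the underlying elements of `F`. -/
theorem isUnit_iff (f : R.V) : IsUnit f ↔ (f : F) ≠ 0 ∧ (f : F)⁻¹ ∈ R.V := by
  constructor
  · rintro ⟨u, rfl⟩
    refine ⟨fun h => ?_, ?_⟩
    · have : (u : R.V) = 0 := Subtype.ext h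
      exact u.ne_zero this
    · have h1 : ((u : R.V) : F) * (((u⁻¹ : (R.V)ˣ) : R.V) : F) = 1 := by
        have := congrArg (fun z : R.V => (z : F)) (Units.mul_inv u)
        simpa only [MulMemClass.coe_mul, OneMemClass.coe_one] using this
      rw [inv_eq_of_mul_eq_one_right h1]
      exact Subtype.property _
  · rintro ⟨h0, hinv⟩
    refine ⟨⟨f, ⟨(f : F)⁻¹, hinv⟩, ?_, ?_⟩, rfl⟩
    · exact Subtype.ext (by simp [h0])
    · exact Subtype.ext (by simp [h0])

end s27r_Red

/-- The reduction `r (L ∩ V)` of a `K`-subspace `L` of `F`: a `k`-subspace of `Fb`. -/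
def s27r_redSub (R : s27r_Red K F k Fb) (L : Submodule K F) : Submodule k Fb where
  carrier := {y | ∃ f : F, ∃ hf : f ∈ R.V, f ∈ L ∧ R.r ⟨f, hf⟩ = y}
  zero_mem' := ⟨0, R.V.zero_mem, L.zero_mem, map_zero _⟩
  add_mem' := by
    rintro _ _ ⟨f, hf, hfL, rfl⟩ ⟨g, hg, hgL, rfl⟩
    exact ⟨f + g, R.V.add_mem _ _ hf hg, L.add_mem hfL hgL, map_add R.r ⟨f, hf⟩ ⟨g, hg⟩⟩
  smul_mem' := by
    rintro c _ ⟨f, hf, hfL, rfl⟩
    obtain ⟨⟨a, ha⟩, rfl⟩ := R.r0_surj c
    refine ⟨algebraMap K F a * f, R.V.mul_mem _ _ ((R.mem_iff a).2 ha) hf, ?_, ?_⟩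
    · rw [← Algebra.smul_def]; exact L.smul_mem a hfL
    · rw [Algebra.smul_def, ← R.comp a ha, ← map_mul]; rfl

theorem s27r_mem_redSub {R : s27r_Red K F k Fb} {L : Submodule K F} {y : Fb} :
    y ∈ s27r_redSub R L ↔ ∃ f : F, ∃ hf : f ∈ R.V, f ∈ L ∧ R.r ⟨f, hf⟩ = y :=
  Iff.rfl

theorem s27r_redSub_mono (R : s27r_Red K F k Fb) {L L' : Submodule K F} (h : L ≤ L') :
    s27r_redSub R L ≤ s27r_redSub R L' := by
  rintro _ ⟨f, hf, hfL, rfl⟩
  exact ⟨f, hf, h hfL, rfl⟩

end Fermat.Agent.S27
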