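/-
S27 lottery, (RED) cell R6 (helper5; prefix `s27r6_`): THE COROLLARIES OF THE REDUCTION THEOREM `s27r_red`
(Steps (7), (8) and `L_le` of helper12's plan), derived from its STATEMENT, which enters as hypotheses:

* `red : Place K F → Place k Fb`,
* `hdiv : ∀ f ∈ V, r f ≠ 0 → mapDomain red (div f) = div (r f)`    (property (R)),
* `hcu  : ∀ f ≠ 0, ∃ c ∈ K^×, ∃ u ∈ V, r u ≠ 0 ∧ f = c * u`        (R1's `s27r_exists_const_mul_unit`).

Results:
* `s27r6_mapDomain_apply/_nonneg/_mono/_neg/_sub`, `s27r6_degree_mapDomain` : `red_*` on divisors preserves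
  degree, effectivity, order;
* `s27r6_ord_red_eq_sum` : `ord_Q (r f) = ∑_{red P = Q} ord_P f`; `s27r6_ord_red_nonneg`, `s27r6_ord_red_pos`,
  `s27r6_exists_zero`, `s27r6_exists_pole` : regular on the residue disc ⇒ regular reduction, etc.;
* `s27r6_mapDomain_isPrincipal` : principal ↦ principal;
* `s27r6_pic0Hom`, `s27r6_pic0Hom_mk`, `s27r6_pic0` : the homomorphism `Pic0 K F →+ Pic0 k Fb`;
  `s27r6_pic0Hom_eq_zero_iff`, `s27r6_ker_repr` : its kernel is `{[D] : red_* D = 0}`;
* `s27r6_mapDomain_surjective`, `s27r6_pic0Hom_surjective` : onto, when `red` is onto on places;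
* `s27r6_redSub_L_le` : `red (L(D)) ≤ L(red_* D)` for every `D`; `s27r6_finrank_redSub_le`;
* `s27r6_eval` : values at points reduce to values at the reduced points.
-/
import Mathlib
import Fermat.Agent.S27.Red.Defs

set_option autoImplicit false
set_option linter.unusedSectionVars false
set_option linter.unusedVariables false
set_option linter.style.haveILetI false

noncomputable section

namespace Fermat.Agent.S27

open AlgebraicCurve IntermediateField Polynomial Fermat.Agent.JT3 Fermat.Agent.S24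

universe u v u' v'
variable {K : Type u} {F : Type v} [Field K] [Field F] [Algebra K F]
variable {k : Type u'} {Fb : Type v'} [Field k] [Field Fb] [Algebra k Fb]

/-! ### `mapDomain red` on divisors -/

section mapDomain

variable (red : Place K F → Place k Fb)

theorem s27r6_mapDomain_apply [DecidableEq (Place k Fb)] (D : Divisor K F) (Q : Place k Fb) :
    Finsupp.mapDomain red D Q = ∑ P ∈ D.support, if red P = Q then D P else 0 := by
  rw [Finsupp.mapDomain, Finsupp.sum, Finsupp.finsetSum_apply]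
  refine Finset.sum_congr rfl fun P _ => ?_
  rw [Finsupp.single_apply]

theorem s27r6_mapDomain_nonneg {D : Divisor K F} (hD : 0 ≤ D) :
    0 ≤ Finsupp.mapDomain red D := by
  classical
  rw [Finsupp.le_def]
  intro Q
  rw [s27r6_mapDomain_apply, Finsupp.zero_apply]
  refine Finset.sum_nonneg fun P _ => ?_
  split_ifs
  · exact Finsupp.le_def.mp hD P
  · exact le_rfl

theorem s27r6_mapDomain_neg (D : Divisor K F) :
    Finsupp.mapDomain red (-D) = -Finsupp.mapDomain red D :=
  map_neg (Finsupp.mapDomain.addMonoidHom red) D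

theorem s27r6_mapDomain_sub (D D' : Divisor K F) :
    Finsupp.mapDomain red (D - D') = Finsupp.mapDomain red D - Finsupp.mapDomain red D' :=
  map_sub (Finsupp.mapDomain.addMonoidHom red) D D'

theorem s27r6_mapDomain_mono {D D' : Divisor K F} (h : D ≤ D') :
    Finsupp.mapDomain red D ≤ Finsupp.mapDomain red D' := by
  have h1 : 0 ≤ D' - D := sub_nonneg.mpr h
  have h2 := s27r6_mapDomain_nonneg red h1
  rw [s27r6_mapDomain_sub] at h2
  exact sub_nonneg.mp h2

theorem s27r6_degree_mapDomain [IsAlgClosed K] [IsAlgClosed k] {x : F} (hx : rt_IsSepGen K x)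
    {xb : Fb} (hxb : rt_IsSepGen k xb) (D : Divisor K F) :
    Divisor.degree (Finsupp.mapDomain red D) = Divisor.degree D := by
  induction D using Finsupp.induction with
  | zero => simp
  | single_add P n D _ _ ih =>
    rw [Finsupp.mapDomain_add, map_add, map_add, ih, Finsupp.mapDomain_single,
      rt_degree_single hxb, rt_degree_single hx]

end mapDomain

/-! ### consequences of property (R) -/

section red

variable [IsAlgClosed K] [IsAlgClosed k] (R : s27r_Red K F k Fb) {x : F} (h : s27r_Good R x)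
  (red : Place K F → Place k Fb)
  (hdiv : ∀ (f : F) (hf : f ∈ R.V), R.r ⟨f, hf⟩ ≠ 0 →
      Finsupp.mapDomain red (rt_div h.sepK f) = rt_div h.sepk (R.r ⟨f, hf⟩))

include hdiv in
/-- `ord_Q (r f) = ∑_{red P = Q} ord_P f`. -/
theorem s27r6_ord_red_eq_sum [DecidableEq (Place k Fb)] {f : F} (hf : f ∈ R.V) (hr : R.r ⟨f, hf⟩ ≠ 0) (Q : Place k Fb) :
    Q.ord (R.r ⟨f, hf⟩) =
      ∑ P ∈ (rt_div h.sepK f).support, if red P = Q then P.ord f else 0 := by
  have e := DFunLike.congr_fun (hdiv f hf hr) Q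
  rw [s27r6_mapDomain_apply, rt_div_apply] at e
  rw [← e]
  refine Finset.sum_congr rfl fun P _ => ?_
  rw [rt_div_apply]

include hdiv in
/-- if `f` has no pole in the residue disc of `Q`, then `r f` is regular at `Q`. -/
theorem s27r6_ord_red_nonneg {f : F} (hf : f ∈ R.V) (hr : R.r ⟨f, hf⟩ ≠ 0) (Q : Place k Fb)
    (hreg : ∀ P : Place K F, red P = Q → 0 ≤ P.ord f) : 0 ≤ Q.ord (R.r ⟨f, hf⟩) := by
  classical
  rw [s27r6_ord_red_eq_sum R h red hdiv hf hr Q]
  refine Finset.sum_nonneg fun P _ => ?_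
  split_ifs with hP
  · exact hreg P hP
  · exact le_rfl

include hdiv in
/-- if `f` has no pole in the residue disc of `Q` and a zero at some point of it, then `r f`
vanishes at `Q`; more precisely `ord_P f ≤ ord_Q (r f)`. -/
theorem s27r6_ord_le_ord_red {f : F} (hf : f ∈ R.V) (hr : R.r ⟨f, hf⟩ ≠ 0) (Q : Place k Fb)
    (hreg : ∀ P : Place K F, red P = Q → 0 ≤ P.ord f) {P₀ : Place K F} (hP₀ : red P₀ = Q) :
    P₀.ord f ≤ Q.ord (R.r ⟨f, hf⟩) := by
  classical
  rw [s27r6_ord_red_eq_sum R h red hdiv hf hr Q]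
  by_cases h0 : P₀.ord f = 0
  · rw [h0]
    refine Finset.sum_nonneg fun P _ => ?_
    split_ifs with hP
    · exact hreg P hP
    · exact le_rfl
  · have hmem : P₀ ∈ (rt_div h.sepK f).support := by
      rw [Finsupp.mem_support_iff, rt_div_apply]; exact h0
    have := Finset.single_le_sum (f := fun P => if red P = Q then P.ord f else 0)
      (s := (rt_div h.sepK f).support) (fun P _ => by
        show 0 ≤ (if red P = Q then P.ord f else 0)
        split_ifs with hP
        · exact hreg P hP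
        · exact le_rfl) hmem
    simpa [hP₀] using this

include hdiv in
theorem s27r6_ord_red_pos {f : F} (hf : f ∈ R.V) (hr : R.r ⟨f, hf⟩ ≠ 0) (Q : Place k Fb)
    (hreg : ∀ P : Place K F, red P = Q → 0 ≤ P.ord f) {P₀ : Place K F} (hP₀ : red P₀ = Q)
    (hpos : 0 < P₀.ord f) : 0 < Q.ord (R.r ⟨f, hf⟩) :=
  lt_of_lt_of_le hpos (s27r6_ord_le_ord_red R h red hdiv hf hr Q hreg hP₀)

include hdiv in
/-- a zero of `r f` at `Q` comes from a zero of `f` in the residue disc of `Q`. -/
theorem s27r6_exists_zero {f : F} (hf : f ∈ R.V) (hr : R.r ⟨f, hf⟩ ≠ 0) (Q : Place k Fb)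
    (hpos : 0 < Q.ord (R.r ⟨f, hf⟩)) : ∃ P : Place K F, red P = Q ∧ 0 < P.ord f := by
  classical
  by_contra hcon
  push Not at hcon
  rw [s27r6_ord_red_eq_sum R h red hdiv hf hr Q] at hpos
  have : (∑ P ∈ (rt_div h.sepK f).support, if red P = Q then P.ord f else 0) ≤ 0 := by
    refine Finset.sum_nonpos fun P _ => ?_
    split_ifs with hP
    · exact hcon P hP
    · exact le_rfl
  omega

include hdiv in
/-- a pole of `r f` at `Q` comes from a pole of `f` in the residue disc of `Q`. -/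
theorem s27r6_exists_pole {f : F} (hf : f ∈ R.V) (hr : R.r ⟨f, hf⟩ ≠ 0) (Q : Place k Fb)
    (hneg : Q.ord (R.r ⟨f, hf⟩) < 0) : ∃ P : Place K F, red P = Q ∧ P.ord f < 0 := by
  by_contra hcon
  push Not at hcon
  have := s27r6_ord_red_nonneg R h red hdiv hf hr Q hcon
  omega

/-! ### `red (L(D)) ≤ L(red_* D)` -/

include hdiv in
/-- **semicontinuity**: the reduction of `L(D)` lies in `L(red_* D)`, for EVERY divisor `D`. -/
theorem s27r6_redSub_L_le (D : Divisor K F) :
    s27r_redSub R (riemannRochSpace D) ≤ riemannRochSpace (Finsupp.mapDomain red D) := by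
  rintro _ ⟨f, hf, hfL, rfl⟩
  by_cases hr : R.r ⟨f, hf⟩ = 0
  · rw [hr]; exact zero_mem _
  · have hf0 : f ≠ 0 := by
      rintro rfl
      exact hr (map_zero R.r)
    rw [rt_mem_L_iff hr]
    intro Q
    have h1 : -D ≤ rt_div h.sepK f := by
      rw [Finsupp.le_def]
      intro P
      rw [Finsupp.neg_apply, rt_div_apply]
      exact (rt_mem_L_iff hf0).1 hfL P
    have h2 := s27r6_mapDomain_mono red h1
    rw [s27r6_mapDomain_neg, hdiv f hf hr] at h2
    have h3 := Finsupp.le_def.mp h2 Q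
    rwa [Finsupp.neg_apply, rt_div_apply] at h3

include hdiv in
theorem s27r6_finrank_redSub_le (D : Divisor K F) :
    Module.finrank k (s27r_redSub R (riemannRochSpace D)) ≤
      Module.finrank k (riemannRochSpace (Finsupp.mapDomain red D)) := by
  haveI := rt_L_finite h.sepk (Finsupp.mapDomain red D)
  exact Submodule.finrank_mono (s27r6_redSub_L_le R h red hdiv D)

/-! ### principal divisors, `Pic0` -/

variable (hcu : ∀ f : F, f ≠ 0 → ∃ c : K, c ≠ 0 ∧ ∃ (u : F) (hu : u ∈ R.V),
    R.r ⟨u, hu⟩ ≠ 0 ∧ f = algebraMap K F c * u)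

include hdiv hcu in
/-- `red_*` maps principal divisors to principal divisors; more precisely
`red_* (div f) = div (r u)` for `f = c u`. -/
theorem s27r6_mapDomain_isPrincipal {D : Divisor K F} (hD : Divisor.IsPrincipal D) :
    Divisor.IsPrincipal (Finsupp.mapDomain red D) := by
  obtain ⟨f, hf0, hfD⟩ := hD
  have hD' : D = rt_div h.sepK f := rt_eq_div_of_forall h.sepK hfD
  obtain ⟨c, hc0, u, hu, hru, rfl⟩ := hcu f hf0
  have hu0 : u ≠ 0 := by
    rintro rfl
    exact hru (map_zero R.r)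
  have hc' : algebraMap K F c ≠ 0 := by simpa using hc0
  rw [hD', rt_div_mul h.sepK hc' hu0, rt_div_algebraMap, zero_add, hdiv u hu hru]
  exact rt_div_isPrincipal h.sepk hru

/-- `red_*` on divisors of degree zero. -/
def s27r6_degZeroHom {x : F} (hx : rt_IsSepGen K x) {xb : Fb} (hxb : rt_IsSepGen k xb)
    (red : Place K F → Place k Fb) :
    Divisor.degZero (K := K) (F := F) →+ Divisor.degZero (K := k) (F := Fb) :=
  ((Finsupp.mapDomain.addMonoidHom red).comp
    (Divisor.degZero (K := K) (F := F)).subtype).codRestrict _ (fun D => by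
      rw [Divisor.mem_degZero]
      show Divisor.degree (Finsupp.mapDomain red (D : Divisor K F)) = 0
      rw [s27r6_degree_mapDomain red hx hxb]
      exact D.2)

@[simp] theorem s27r6_degZeroHom_coe {x : F} (hx : rt_IsSepGen K x) {xb : Fb}
    (hxb : rt_IsSepGen k xb) (red : Place K F → Place k Fb)
    (D : Divisor.degZero (K := K) (F := F)) :
    (s27r6_degZeroHom hx hxb red D : Divisor k Fb) = Finsupp.mapDomain red (D : Divisor K F) :=
  rfl

/-- **the reduction homomorphism on `Pic0`**. -/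
def s27r6_pic0Hom : Pic0 K F →+ Pic0 k Fb :=
  QuotientAddGroup.map _ _ (s27r6_degZeroHom h.sepK h.sepk red) (by
    intro D hD
    rw [AddSubgroup.mem_comap, AddSubgroup.mem_addSubgroupOf]
    rw [AddSubgroup.mem_addSubgroupOf] at hD
    exact s27r6_mapDomain_isPrincipal R h red hdiv hcu hD)

theorem s27r6_pic0Hom_mk (D : Divisor.degZero (K := K) (F := F)) :
    s27r6_pic0Hom R h red hdiv hcu (Pic0.mk D) =
      Pic0.mk (s27r6_degZeroHom h.sepK h.sepk red D) :=
  rfl

include hdiv hcu in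
/-- the `(phi, hphi)` binders of `s27h_hens`. -/
theorem s27r6_pic0 : ∃ φ : Pic0 K F →+ Pic0 k Fb,
    ∀ (D : Divisor K F) (hD : D ∈ Divisor.degZero (K := K) (F := F)),
      ∃ hD' : Finsupp.mapDomain red D ∈ Divisor.degZero (K := k) (F := Fb),
        φ (Pic0.mk ⟨D, hD⟩) = Pic0.mk ⟨Finsupp.mapDomain red D, hD'⟩ :=
  ⟨s27r6_pic0Hom R h red hdiv hcu, fun D hD =>
    ⟨(s27r6_degZeroHom h.sepK h.sepk red ⟨D, hD⟩).2, rfl⟩⟩

theorem s27r6_pic0Hom_eq_zero_iff (D : Divisor.degZero (K := K) (F := F)) :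
    s27r6_pic0Hom R h red hdiv hcu (Pic0.mk D) = 0 ↔
      Divisor.IsPrincipal (Finsupp.mapDomain red (D : Divisor K F)) := by
  rw [s27r6_pic0Hom_mk, Pic0.mk, QuotientAddGroup.eq_zero_iff, AddSubgroup.mem_addSubgroupOf]
  rfl

/-- **the kernel of the reduction on `Pic0`** consists of the classes of divisors `D` of degree `0`
with `red_* D = 0`  (Step (1e) of (HENS)). -/
theorem s27r6_ker_repr (c : Pic0 K F) (hc : s27r6_pic0Hom R h red hdiv hcu c = 0) :
    ∃ (D : Divisor K F) (hD : D ∈ Divisor.degZero (K := K) (F := F)),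
      c = Pic0.mk ⟨D, hD⟩ ∧ Finsupp.mapDomain red D = 0 := by
  obtain ⟨D, rfl⟩ := Pic0.mk_surjective c
  rw [s27r6_pic0Hom_eq_zero_iff] at hc
  obtain ⟨g, hg0, hg⟩ := hc
  have hgD : Finsupp.mapDomain red (D : Divisor K F) = rt_div h.sepk g :=
    rt_eq_div_of_forall h.sepk hg
  obtain ⟨⟨f, hf⟩, rfl⟩ := R.r_surj g
  have hf0 : f ≠ 0 := by
    rintro rfl
    exact hg0 (map_zero R.r)
  have hdeg : (D : Divisor K F) - rt_div h.sepK f ∈ Divisor.degZero (K := K) (F := F) := by
    rw [Divisor.mem_degZero, map_sub, rt_degree_div, sub_zero]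
    exact D.2
  refine ⟨(D : Divisor K F) - rt_div h.sepK f, hdeg, ?_, ?_⟩
  · rw [Pic0.mk, Pic0.mk, QuotientAddGroup.eq, AddSubgroup.mem_addSubgroupOf]
    have : ((-D + ⟨(D : Divisor K F) - rt_div h.sepK f, hdeg⟩ :
        Divisor.degZero (K := K) (F := F)) : Divisor K F) = -rt_div h.sepK f := by
      show -(D : Divisor K F) + ((D : Divisor K F) - rt_div h.sepK f) = _
      abel
    rw [this]
    exact (Divisor.principal (K := K) (F := F)).neg_mem (rt_div_isPrincipal h.sepK hf0)
  · rw [s27r6_mapDomain_sub, hdiv f hf hg0, hgD, sub_self]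

/-! ### surjectivity (from the surjectivity of `red` on places) -/

/-- `red_*` is onto on divisors when `red` is onto on places. -/
theorem s27r6_mapDomain_surjective (hsurj : Function.Surjective red) (Db : Divisor k Fb) :
    ∃ D : Divisor K F, Finsupp.mapDomain red D = Db := by
  refine ⟨Finsupp.mapDomain (Function.surjInv hsurj) Db, ?_⟩
  rw [← Finsupp.mapDomain_comp]
  have : red ∘ Function.surjInv hsurj = id := by
    funext Q
    exact Function.surjInv_eq hsurj Q
  rw [this, Finsupp.mapDomain_id]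

/-- **the reduction homomorphism on `Pic0` is surjective** (given that `red` is onto on places). -/
theorem s27r6_pic0Hom_surjective (hsurj : Function.Surjective red) :
    Function.Surjective (s27r6_pic0Hom R h red hdiv hcu) := by
  intro cb
  obtain ⟨⟨Db, hDb⟩, rfl⟩ := Pic0.mk_surjective cb
  obtain ⟨D, hD⟩ := s27r6_mapDomain_surjective red hsurj Db
  have hdeg : D ∈ Divisor.degZero (K := K) (F := F) := by
    rw [Divisor.mem_degZero, ← s27r6_degree_mapDomain red h.sepK h.sepk, hD]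
    exact hDb
  refine ⟨Pic0.mk ⟨D, hdeg⟩, ?_⟩
  rw [s27r6_pic0Hom_mk]
  congr 1
  exact Subtype.ext hD

end red

/-! ### values at points -/

section eval

variable [IsAlgClosed K] [IsAlgClosed k] (R : s27r_Red K F k Fb) {x : F} (h : s27r_Good R x)
  (red : Place K F → Place k Fb)
  (hdiv : ∀ (f : F) (hf : f ∈ R.V), R.r ⟨f, hf⟩ ≠ 0 →
      Finsupp.mapDomain red (rt_div h.sepK f) = rt_div h.sepk (R.r ⟨f, hf⟩))

/-- `0 ≤ ord (f - c)` when `f` is regular. -/
theorem s27r6_ord_sub_const_nonneg (P : Place K F) {f : F} (hreg : f ∈ P.toValuationSubring)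
    (c : K) : 0 ≤ P.ord (f - algebraMap K F c) := by
  by_cases h0 : f - algebraMap K F c = 0
  · rw [h0, Place.ord_zero]
  · exact (hw_mem_iff_ord_nonneg P h0).1
      (sub_mem hreg (P.algebraMap_mem' c))

include hdiv in
/-- **Step (8), values reduce to values**: let `f ∈ V` be regular on the residue disc of
`Q = red P` and `f(P) = c` (i.e. `f - c` vanishes at `P`). Then `c ∈ O`, and `(r f)(Q) = r0 c`,
i.e. `r f - r0 c` is zero or vanishes at `Q`. -/
theorem s27r6_eval {f : F} (hf : f ∈ R.V) (P : Place K F)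
    (hreg : ∀ P' : Place K F, red P' = red P → f ∈ P'.toValuationSubring) {c : K}
    (hc : 0 < P.ord (f - algebraMap K F c)) :
    ∃ hcO : c ∈ R.O, R.r ⟨f, hf⟩ = algebraMap k Fb (R.r0 ⟨c, hcO⟩) ∨
      0 < (red P).ord (R.r ⟨f, hf⟩ - algebraMap k Fb (R.r0 ⟨c, hcO⟩)) := by
  have hne : f - algebraMap K F c ≠ 0 := by
    intro h0
    rw [h0, Place.ord_zero] at hc
    exact lt_irrefl _ hc
  -- Step A: `c ∈ O`
  have hcO : c ∈ R.O := by
    by_contra hcO
    have hc0 : c ≠ 0 := by
      rintro rfl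
      exact hcO R.O.zero_mem
    have hci : c⁻¹ ∈ R.O := (R.O.mem_or_inv_mem c).resolve_left hcO
    have hnu : ¬ IsUnit (⟨c⁻¹, hci⟩ : R.O) := by
      rintro ⟨u, hu⟩
      have h1 : ((u : R.O) : K) * (((u⁻¹ : (R.O)ˣ) : R.O) : K) = 1 := by
        have := congrArg (fun z : R.O => (z : K)) (Units.mul_inv u)
        simpa only [MulMemClass.coe_mul, OneMemClass.coe_one] using this
      rw [hu] at h1
      have h2 : (((u⁻¹ : (R.O)ˣ) : R.O) : K) = c := by
        have := eq_inv_of_mul_eq_one_right h1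
        rw [this, inv_inv]
      exact hcO (h2 ▸ Subtype.property _)
    have hr0 : R.r0 ⟨c⁻¹, hci⟩ = 0 := (R.r0_eq_zero_iff _).2 hnu
    -- `g = c⁻¹ f - 1`
    have hciV : algebraMap K F c⁻¹ ∈ R.V := R.algebraMap_mem hci
    have hgV : algebraMap K F c⁻¹ * f - 1 ∈ R.V :=
      sub_mem (R.V.mul_mem _ _ hciV hf) R.V.one_mem
    have hrg : R.r ⟨algebraMap K F c⁻¹ * f - 1, hgV⟩ = -1 := by
      have e : (⟨algebraMap K F c⁻¹ * f - 1, hgV⟩ : R.V) =
          ⟨algebraMap K F c⁻¹, hciV⟩ * ⟨f, hf⟩ - 1 := rfl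
      rw [e, map_sub, map_mul, map_one, R.comp c⁻¹ hci, hr0, map_zero, zero_mul, zero_sub]
    have hrg0 : R.r ⟨algebraMap K F c⁻¹ * f - 1, hgV⟩ ≠ 0 := by
      rw [hrg]; exact neg_ne_zero.2 one_ne_zero
    have hg_eq : algebraMap K F c⁻¹ * f - 1 = algebraMap K F c⁻¹ * (f - algebraMap K F c) := by
      rw [mul_sub, ← map_mul, inv_mul_cancel₀ hc0, map_one]
    have hci0 : algebraMap K F c⁻¹ ≠ 0 := by simpa using hc0
    have hpos := s27r6_ord_red_pos R h red hdiv hgV hrg0 (red P) (fun P' hP' => by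
        rw [hg_eq, P'.ord_mul hci0 hne, hw_ord_algebraMap, zero_add]
        exact s27r6_ord_sub_const_nonneg P' (hreg P' hP') c) rfl (by
        rw [hg_eq, P.ord_mul hci0 hne, hw_ord_algebraMap, zero_add]
        exact hc)
    rw [hrg, hw_ord_neg, Place.ord_one] at hpos
    exact lt_irrefl _ hpos
  refine ⟨hcO, ?_⟩
  -- Step B
  have hcV : algebraMap K F c ∈ R.V := R.algebraMap_mem hcO
  have hgV : f - algebraMap K F c ∈ R.V := sub_mem hf hcV
  have hrg : R.r ⟨f - algebraMap K F c, hgV⟩ =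
      R.r ⟨f, hf⟩ - algebraMap k Fb (R.r0 ⟨c, hcO⟩) := by
    have e : (⟨f - algebraMap K F c, hgV⟩ : R.V) = ⟨f, hf⟩ - ⟨algebraMap K F c, hcV⟩ := rfl
    rw [e, map_sub, R.comp c hcO]
  by_cases h0 : R.r ⟨f, hf⟩ = algebraMap k Fb (R.r0 ⟨c, hcO⟩)
  · exact Or.inl h0
  · right
    have hrg0 : R.r ⟨f - algebraMap K F c, hgV⟩ ≠ 0 := by
      rw [hrg]; exact sub_ne_zero.2 h0
    have hpos := s27r6_ord_red_pos R h red hdiv hgV hrg0 (red P) (fun P' hP' =>
      s27r6_ord_sub_const_nonneg P' (hreg P' hP') c) rfl hc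
    rwa [hrg] at hpos

end eval

end Fermat.Agent.S27

end
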