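/-
S27 / (RED) cell R2, function-field form: for a constant reduction `R : s27r_Red K F k Fb` and a
finite family `t` of elements of `V` with `k`-independent reductions (an "orthonormal family"),
every `K`-subspace `L` of `span K (range t)` (or of a `V`-unit multiple of it) satisfies
`finrank k (s27r_redSub R L) = finrank K L`; adapted bases.
-/
import Mathlib
import Fermat.Agent.S27.Red.Defs
import Fermat.Agent.S27.Red.LinRed

set_option autoImplicit false

namespace Fermat.Agent.S27

open Module

universe u v u' v'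
variable {K : Type u} {F : Type v} [Field K] [Field F] [Algebra K F]
variable {k : Type u'} {Fb : Type v'} [Field k] [Field Fb] [Algebra k Fb]
variable (R : s27r_Red K F k Fb)

/-- the inclusion `O → V`. -/
def s27l_incl : R.O →+* R.V where
  toFun a := ⟨algebraMap K F a, R.algebraMap_mem a.2⟩
  map_one' := Subtype.ext (map_one _)
  map_mul' _ _ := Subtype.ext (map_mul _ _ _)
  map_zero' := Subtype.ext (map_zero _)
  map_add' _ _ := Subtype.ext (map_add _ _ _)

@[simp] theorem s27l_incl_coe (a : R.O) : ((s27l_incl R a : R.V) : F) = algebraMap K F a := rfl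

theorem s27l_r_incl (a : R.O) : R.r (s27l_incl R a) = algebraMap k Fb (R.r0 a) :=
  R.comp a a.2

/-- reduction of an integral combination. -/
theorem s27l_r_sum {ι : Type*} [Fintype ι] (t : ι → F) (ht : ∀ i, t i ∈ R.V) (c : ι → R.O)
    (h : ∑ i, (c i : K) • t i ∈ R.V) :
    R.r ⟨∑ i, (c i : K) • t i, h⟩ = ∑ i, R.r0 (c i) • R.r ⟨t i, ht i⟩ := by
  have : (⟨∑ i, (c i : K) • t i, h⟩ : R.V) = ∑ i, s27l_incl R (c i) * ⟨t i, ht i⟩ := by
    apply Subtype.ext
    simp [Algebra.smul_def]
  rw [this, map_sum]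
  refine Finset.sum_congr rfl fun i _ => ?_
  rw [map_mul, s27l_r_incl, Algebra.smul_def]

theorem s27l_sum_mem {ι : Type*} [Fintype ι] (t : ι → F) (ht : ∀ i, t i ∈ R.V) (c : ι → R.O) :
    ∑ i, (c i : K) • t i ∈ R.V := by
  refine R.V.toSubring.sum_mem fun i _ => ?_
  rw [Algebra.smul_def]
  exact R.V.mul_mem _ _ (R.algebraMap_mem (c i).2) (ht i)

section lift

variable {ι : Type*} [Fintype ι] (t : ι → F) (ht : ∀ i, t i ∈ R.V)
  (hind : LinearIndependent k (fun i => R.r ⟨t i, ht i⟩))

include hind in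
/-- a primitive combination of an orthonormal family has nonzero reduction. -/
theorem s27l_F_primitive (c : ι → R.O) (j0 : ι) (hc : IsUnit (c j0)) :
    R.r ⟨∑ i, (c i : K) • t i, s27l_sum_mem R t ht c⟩ ≠ 0 := by
  intro h0
  rw [s27l_r_sum R t ht c] at h0
  have := (Fintype.linearIndependent_iff.1 hind) (fun i => R.r0 (c i)) h0 j0
  exact ((R.r0_eq_zero_iff _).1 this) hc

include hind in
/-- **orthonormality**: a `K`-combination of an orthonormal family lies in `V` iff all its
coefficients lie in `O`. -/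
theorem s27l_F_orthonormal (g : ι → K) (hg : ∑ i, g i • t i ∈ R.V) : ∀ i, g i ∈ R.O := by
  classical
  by_contra hcon
  push Not at hcon
  obtain ⟨j1, hj1⟩ := hcon
  have hg0 : g ≠ 0 := by
    intro h
    apply hj1
    rw [h]
    exact R.O.zero_mem
  obtain ⟨j0, hj0, hj⟩ := s27l_exists_pivot R.O g hg0
  have hj0O : g j0 ∉ R.O := by
    intro h
    apply hj1
    have : g j1 = g j1 / g j0 * g j0 := by field_simp
    rw [this]
    exact R.O.mul_mem _ _ (hj j1) h
  have hinv : (g j0)⁻¹ ∈ R.O := (R.O.mem_or_inv_mem (g j0)).resolve_left hj0O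
  have hnu : ¬ IsUnit (⟨(g j0)⁻¹, hinv⟩ : R.O) := by
    intro h
    obtain ⟨b, hb⟩ := h.exists_right_inv
    apply hj0O
    have hb' : (g j0)⁻¹ * (b : K) = 1 := by
      have := congrArg (Subtype.val) hb
      simpa using this
    have : (b : K) = g j0 := by
      field_simp at hb'
      exact hb'
    rw [← this]
    exact b.2
  have h1 := s27l_F_primitive R t ht hind (fun j => ⟨g j / g j0, hj j⟩) j0
    (by
      have : (⟨g j0 / g j0, hj j0⟩ : R.O) = 1 := Subtype.ext (by simp [div_self hj0])
      rw [this]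
      exact isUnit_one)
  apply h1
  have hz : (⟨∑ i, ((⟨g i / g j0, hj i⟩ : R.O) : K) • t i,
      s27l_sum_mem R t ht (fun j => ⟨g j / g j0, hj j⟩)⟩ : R.V) =
      s27l_incl R ⟨(g j0)⁻¹, hinv⟩ * ⟨∑ i, g i • t i, hg⟩ := by
    apply Subtype.ext
    simp only [MulMemClass.coe_mul, s27l_incl_coe]
    rw [← Algebra.smul_def, Finset.smul_sum]
    refine Finset.sum_congr rfl fun i _ => ?_
    rw [smul_smul]
    congr 1
    field_simp
  rw [hz, map_mul, s27l_r_incl, (R.r0_eq_zero_iff _).2 hnu, map_zero, zero_mul]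

include hind in
/-- an orthonormal family is `K`-linearly independent. -/
theorem s27l_F_linearIndependent : LinearIndependent K t := by
  classical
  rw [Fintype.linearIndependent_iff]
  intro g hg
  by_contra hcon
  have hg0 : g ≠ 0 := by
    intro h
    apply hcon
    intro j
    rw [h]
    rfl
  obtain ⟨j0, hj0, hj⟩ := s27l_exists_pivot R.O g hg0
  have h1 := s27l_F_primitive R t ht hind (fun j => ⟨g j / g j0, hj j⟩) j0
    (by
      have : (⟨g j0 / g j0, hj j0⟩ : R.O) = 1 := Subtype.ext (by simp [div_self hj0])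
      rw [this]
      exact isUnit_one)
  apply h1
  have hz : (⟨∑ i, ((⟨g i / g j0, hj i⟩ : R.O) : K) • t i,
      s27l_sum_mem R t ht (fun j => ⟨g j / g j0, hj j⟩)⟩ : R.V) = 0 := by
    apply Subtype.ext
    have : ∑ i, (g i / g j0) • t i = (g j0)⁻¹ • ∑ i, g i • t i := by
      rw [Finset.smul_sum]
      refine Finset.sum_congr rfl fun i _ => ?_
      rw [smul_smul]
      congr 1
      field_simp
    simp only [ZeroMemClass.coe_zero]
    rw [this, hg, smul_zero]
  rw [hz, map_zero]

include hind in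
/-- **(R2)** in `F`: subspaces of the span of an orthonormal family keep their dimension under
reduction. -/
theorem s27l_finrank_redSub_of_le_span (L : Submodule K F)
    (hL : L ≤ Submodule.span K (Set.range t)) :
    finrank k (s27r_redSub R L) = finrank K L := by
  classical
  have hK : LinearIndependent K t := s27l_F_linearIndependent R t ht hind
  set Φ : (ι → K) →ₗ[K] F := Fintype.linearCombination K t with hΦ
  set Φb : (ι → k) →ₗ[k] Fb := Fintype.linearCombination k (fun i => R.r ⟨t i, ht i⟩) with hΦb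
  have hΦinj : Function.Injective Φ := by
    rw [← LinearMap.ker_eq_bot, LinearMap.ker_eq_bot']
    intro g hg
    funext i
    exact (Fintype.linearIndependent_iff.1 hK) g (by simpa [hΦ, Fintype.linearCombination_apply] using hg) i
  have hΦbinj : Function.Injective Φb := by
    rw [← LinearMap.ker_eq_bot, LinearMap.ker_eq_bot']
    intro g hg
    funext i
    exact (Fintype.linearIndependent_iff.1 hind) g
      (by simpa [hΦb, Fintype.linearCombination_apply] using hg) i
  set W : Submodule K (ι → K) := L.comap Φ with hW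
  have hWL : W.map Φ = L := by
    rw [hW, Submodule.map_comap_eq]
    apply inf_eq_right.2
    intro f hf
    obtain ⟨c, hc⟩ := (Submodule.mem_span_range_iff_exists_fun K).1 (hL hf)
    exact ⟨c, by simpa [hΦ, Fintype.linearCombination_apply] using hc⟩
  have h1 : finrank K L = finrank K W := by
    rw [← hWL]
    exact (LinearEquiv.finrank_eq (Submodule.equivMapOfInjective Φ hΦinj W)).symm
  have h2 : s27r_redSub R L = (s27l_red R.O R.r0 R.r0_surj W).map Φb := by
    apply le_antisymm
    · rintro y ⟨f, hfV, hfL, rfl⟩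
      obtain ⟨c, hc⟩ := (Submodule.mem_span_range_iff_exists_fun K).1 (hL hfL)
      have hcO : ∀ i, c i ∈ R.O := s27l_F_orthonormal R t ht hind c (by rw [hc]; exact hfV)
      refine ⟨s27l_redv R.O R.r0 (fun i => ⟨c i, hcO i⟩), ⟨fun i => ⟨c i, hcO i⟩, ?_, rfl⟩, ?_⟩
      · rw [hW, Submodule.mem_comap]
        have : Φ (s27l_coe R.O fun i => ⟨c i, hcO i⟩) = f := by
          simpa [hΦ, Fintype.linearCombination_apply, s27l_coe] using hc
        rw [this]
        exact hfL
      · have := s27l_r_sum R t ht (fun i => ⟨c i, hcO i⟩)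
          (s27l_sum_mem R t ht (fun i => ⟨c i, hcO i⟩))
        simp only [hΦb, Fintype.linearCombination_apply, s27l_redv]
        rw [← this]
        congr 1
        exact Subtype.ext hc
    · rintro y ⟨z, ⟨u, hu, rfl⟩, rfl⟩
      rw [hW, Submodule.mem_comap] at hu
      have hΦu : Φ (s27l_coe R.O u) = ∑ i, (u i : K) • t i := by
        simp [hΦ, Fintype.linearCombination_apply, s27l_coe]
      refine ⟨∑ i, (u i : K) • t i, s27l_sum_mem R t ht u, by rw [← hΦu]; exact hu, ?_⟩
      rw [s27l_r_sum R t ht u]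
      simp [hΦb, Fintype.linearCombination_apply, s27l_redv]
  rw [h2, h1, ← s27l_finrank_red R.O R.r0 R.r0_surj W]
  exact LinearEquiv.finrank_eq (Submodule.equivMapOfInjective Φb hΦbinj _).symm

end lift

section scale

/-- multiplying a subspace by a unit of `V` multiplies its reduction by the reduction. -/
theorem s27l_redSub_mul (q : F) (hq : q ∈ R.V) (hq' : q⁻¹ ∈ R.V) (hq0 : q ≠ 0)
    (L : Submodule K F) :
    s27r_redSub R (L.map (LinearMap.mulLeft K q)) =
      (s27r_redSub R L).map (LinearMap.mulLeft k (R.r ⟨q, hq⟩)) := by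
  apply le_antisymm
  · rintro y ⟨f', hf'V, ⟨f, hfL, rfl⟩, rfl⟩
    have hfV : f ∈ R.V := by
      have : f = q⁻¹ * (q * f) := by field_simp
      rw [this]
      exact R.V.mul_mem _ _ hq' hf'V
    refine ⟨R.r ⟨f, hfV⟩, ⟨f, hfV, hfL, rfl⟩, ?_⟩
    simp only [LinearMap.mulLeft_apply]
    rw [← map_mul]
    rfl
  · rintro y ⟨z, ⟨f, hfV, hfL, rfl⟩, rfl⟩
    refine ⟨q * f, R.V.mul_mem _ _ hq hfV, ⟨f, hfL, rfl⟩, ?_⟩
    simp only [LinearMap.mulLeft_apply]
    rw [← map_mul]
    rfl

theorem s27l_finrank_redSub_mul (q : F) (hq : q ∈ R.V) (hq' : q⁻¹ ∈ R.V) (hq0 : q ≠ 0)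
    (L : Submodule K F) :
    finrank k (s27r_redSub R (L.map (LinearMap.mulLeft K q))) = finrank k (s27r_redSub R L) ∧
      finrank K (L.map (LinearMap.mulLeft K q)) = finrank K L := by
  have hrq : R.r ⟨q, hq⟩ ≠ 0 := by
    rw [R.r_ne_zero_iff, R.isUnit_iff]
    exact ⟨hq0, hq'⟩
  constructor
  · rw [s27l_redSub_mul R q hq hq' hq0 L]
    exact (LinearEquiv.finrank_eq (Submodule.equivMapOfInjective _
      (fun a b h => mul_left_cancel₀ hrq (by simpa using h)) _)).symm
  · exact (LinearEquiv.finrank_eq (Submodule.equivMapOfInjective _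
      (fun a b h => mul_left_cancel₀ hq0 (by simpa using h)) _)).symm

/-- unit-scaled version of `s27l_finrank_redSub_of_le_span`. -/
theorem s27l_finrank_redSub_of_mul_le_span {ι : Type*} [Fintype ι] (t : ι → F)
    (ht : ∀ i, t i ∈ R.V) (hind : LinearIndependent k (fun i => R.r ⟨t i, ht i⟩))
    (q : F) (hq : q ∈ R.V) (hq' : q⁻¹ ∈ R.V) (hq0 : q ≠ 0) (L : Submodule K F)
    (hL : ∀ f ∈ L, q * f ∈ Submodule.span K (Set.range t)) :
    finrank k (s27r_redSub R L) = finrank K L := by
  obtain ⟨h1, h2⟩ := s27l_finrank_redSub_mul R q hq hq' hq0 L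
  rw [← h1, ← h2]
  apply s27l_finrank_redSub_of_le_span R t ht hind
  rintro _ ⟨f, hf, rfl⟩
  exact hL f hf

end scale

end Fermat.Agent.S27
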