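import Mathlib
import Fermat.Agent.S27.Red.Defs

/-!
# S27 / (RED), Step 0: the Gauss ring

`R : s27r_Red K F k Fb`, `x ∈ V` with transcendental reduction `xb = r x`.

* `s27r_exists_primitive` : every nonzero `p ∈ K[X]` is `c • q` with `c ∈ Kˣ`, `q ∈ O[X]` having a
  unit coefficient (valuation rings only);
* `s27r_evalV` : evaluation `O[X] → V` at `x`, its coercion to `F` and its reduction;
* `s27r_isUnit_evalV` : primitive polynomials evaluate to units of `V`;
* `s27r_aeval_eq_const_mul_unit`, `s27r_aeval_mem_iff` : the Gauss valuation on `K[x]`;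
* `s27r_gaussRed` : `(K⟮x⟯, F, k⟮xb⟯, Fb)` with `V1 = V ∩ K⟮x⟯`, `r1 = r|V1` is again an `s27r_Red`.
-/

set_option autoImplicit false

namespace Fermat.Agent.S27

open AlgebraicCurve IntermediateField Polynomial Fermat.Agent.JT3

universe u v u' v'
variable {K : Type u} {F : Type v} [Field K] [Field F] [Algebra K F]
variable {k : Type u'} {Fb : Type v'} [Field k] [Field Fb] [Algebra k Fb]

/-! ### Primitive polynomials over a valuation ring -/

/-- Among finitely many elements of `K`, not all zero, one divides all the others in the valuation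
ring `O`. -/
theorem s27r_exists_max_val (O : ValuationSubring K) {ι : Type*} (s : Finset ι) (a : ι → K)
    (hs : ∃ i ∈ s, a i ≠ 0) :
    ∃ i₀ ∈ s, a i₀ ≠ 0 ∧ ∀ i ∈ s, a i / a i₀ ∈ O := by
  classical
  obtain ⟨j, hj, hj0⟩ := hs
  obtain ⟨i₀, hi₀, hmax⟩ := s.exists_max_image (fun i => O.valuation (a i)) ⟨j, hj⟩
  have h0 : a i₀ ≠ 0 := by
    intro h
    have := hmax j hj
    rw [h, map_zero] at this
    exact hj0 ((map_eq_zero O.valuation).1 (le_antisymm this zero_le))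
  refine ⟨i₀, hi₀, h0, fun i hi => ?_⟩
  rw [← O.valuation_le_one_iff, map_div₀]
  have hv : O.valuation (a i₀) ≠ 0 := (map_ne_zero O.valuation).2 h0
  exact div_le_one_of_le₀ (hmax i hi) zero_le

/-- **Gauss normal form**: a nonzero polynomial over `K` is a constant times a polynomial over the
valuation ring `O` with a unit coefficient. -/
theorem s27r_exists_primitive (O : ValuationSubring K) (p : K[X]) (hp : p ≠ 0) :
    ∃ (c : K) (q : (↥O)[X]), c ≠ 0 ∧ p = C c * q.map O.subtype ∧ ∃ i, IsUnit (q.coeff i) := by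
  classical
  have hsupp : ∃ i ∈ p.support, p.coeff i ≠ 0 := by
    obtain ⟨i, hi⟩ := Polynomial.support_nonempty.2 hp
    exact ⟨i, hi, Polynomial.mem_support_iff.1 hi⟩
  obtain ⟨i₀, hi₀, hc0, hdiv⟩ := s27r_exists_max_val O p.support (fun i => p.coeff i) hsupp
  set c := p.coeff i₀ with hc
  have hlift : C c⁻¹ * p ∈ Polynomial.lifts O.subtype := by
    rw [Polynomial.lifts_iff_coeff_lifts]
    intro n
    rw [Polynomial.coeff_C_mul]
    by_cases hn : n ∈ p.support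
    · refine ⟨⟨p.coeff n / c, hdiv n hn⟩, ?_⟩
      show p.coeff n / c = c⁻¹ * p.coeff n
      rw [div_eq_inv_mul]
    · rw [Polynomial.notMem_support_iff.1 hn, mul_zero]
      exact ⟨0, map_zero _⟩
  obtain ⟨q, hq⟩ := (Polynomial.mem_lifts _).1 hlift
  refine ⟨c, q, hc0, ?_, i₀, ?_⟩
  · rw [hq, ← mul_assoc, ← C_mul, mul_inv_cancel₀ hc0, C_1, one_mul]
  · have h1 : O.subtype (q.coeff i₀) = 1 := by
      rw [← Polynomial.coeff_map, hq, Polynomial.coeff_C_mul, ← hc, inv_mul_cancel₀ hc0]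
    have : q.coeff i₀ = 1 := Subtype.ext h1
    rw [this]
    exact isUnit_one

/-! ### Evaluation of integral polynomials at `x` -/

namespace s27r_Red

variable (R : s27r_Red K F k Fb)

/-- the inclusion `O → V` -/
def incl : R.O →+* R.V where
  toFun a := ⟨algebraMap K F a, R.algebraMap_mem a.2⟩
  map_one' := Subtype.ext (by simp)
  map_mul' a b := Subtype.ext (by simp)
  map_zero' := Subtype.ext (by simp)
  map_add' a b := Subtype.ext (by simp)

@[simp] theorem coe_incl (a : R.O) : ((R.incl a : R.V) : F) = algebraMap K F a := rfl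

theorem r_incl (a : R.O) : R.r (R.incl a) = algebraMap k Fb (R.r0 a) :=
  R.comp a a.2

theorem r_comp_incl : R.r.comp R.incl = (algebraMap k Fb).comp R.r0 :=
  RingHom.ext fun a => R.r_incl a

end s27r_Red

variable (R : s27r_Red K F k Fb) {x : F} (hx : x ∈ R.V)

/-- evaluation of an integral polynomial at `x ∈ V`, as an element of `V` -/
def s27r_evalV (q : (↥R.O)[X]) : R.V := Polynomial.eval₂ R.incl ⟨x, hx⟩ q

theorem s27r_coe_evalV (q : (↥R.O)[X]) :
    ((s27r_evalV R hx q : R.V) : F) = aeval x (q.map R.O.subtype) := by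
  have h := Polynomial.hom_eval₂ q R.incl R.V.subtype ⟨x, hx⟩
  rw [aeval_def, Polynomial.eval₂_map]
  exact h

theorem s27r_r_evalV (q : (↥R.O)[X]) :
    R.r (s27r_evalV R hx q) = aeval (R.r ⟨x, hx⟩) (q.map R.r0) := by
  rw [s27r_evalV, Polynomial.hom_eval₂, R.r_comp_incl, aeval_def, Polynomial.eval₂_map]

theorem s27r_evalV_mul (q q' : (↥R.O)[X]) :
    s27r_evalV R hx (q * q') = s27r_evalV R hx q * s27r_evalV R hx q' :=
  Polynomial.eval₂_mul _ _

theorem s27r_evalV_C (a : R.O) : s27r_evalV R hx (C a) = R.incl a :=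
  Polynomial.eval₂_C _ _

variable (hxb : Transcendental k (R.r ⟨x, hx⟩))

include hxb

/-- A polynomial over `O` with a unit coefficient evaluates to a unit of `V`. -/
theorem s27r_isUnit_evalV {q : (↥R.O)[X]} (hq : ∃ i, IsUnit (q.coeff i)) :
    IsUnit (s27r_evalV R hx q) := by
  rw [← R.r_ne_zero_iff, s27r_r_evalV]
  intro h
  have h0 := (transcendental_iff.1 hxb) _ h
  obtain ⟨i, hi⟩ := hq
  have : R.r0 (q.coeff i) = 0 := by
    rw [← Polynomial.coeff_map, h0, Polynomial.coeff_zero]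
  exact (R.r0_ne_zero_iff _).2 hi this

/-- **Gauss valuation**: a nonzero polynomial in `x` is a constant times a unit of `V`. -/
theorem s27r_aeval_eq_const_mul_unit (p : K[X]) (hp : p ≠ 0) :
    ∃ (c : K) (u : R.V), c ≠ 0 ∧ IsUnit u ∧ aeval x p = algebraMap K F c * (u : F) ∧
      ∃ q : (↥R.O)[X], p = C c * q.map R.O.subtype ∧ u = s27r_evalV R hx q ∧
        q.map R.r0 ≠ 0 := by
  obtain ⟨c, q, hc, hpq, hq⟩ := s27r_exists_primitive R.O p hp
  refine ⟨c, s27r_evalV R hx q, hc, s27r_isUnit_evalV R hx hxb hq, ?_, q, hpq, rfl, ?_⟩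
  · rw [s27r_coe_evalV, hpq, map_mul, aeval_C]
  · intro h0
    obtain ⟨i, hi⟩ := hq
    have : R.r0 (q.coeff i) = 0 := by
      rw [← Polynomial.coeff_map, h0, Polynomial.coeff_zero]
    exact (R.r0_ne_zero_iff _).2 hi this

/-- `p(x) ∈ V` iff all coefficients of `p` lie in `O`. -/
theorem s27r_aeval_mem_iff (p : K[X]) :
    aeval x p ∈ R.V ↔ ∀ i, p.coeff i ∈ R.O := by
  constructor
  · intro h i
    rcases eq_or_ne p 0 with rfl | hp
    · simp [R.O.zero_mem]
    obtain ⟨c, u, hc, hu, he, q, hpq, -, -⟩ := s27r_aeval_eq_const_mul_unit R hx hxb p hp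
    have hcV : algebraMap K F c ∈ R.V := by
      have hu' := (R.isUnit_iff u).1 hu
      have : algebraMap K F c = aeval x p * (u : F)⁻¹ := by
        rw [he, mul_assoc, mul_inv_cancel₀ hu'.1, mul_one]
      rw [this]
      exact R.V.mul_mem _ _ h hu'.2
    have hcO : c ∈ R.O := R.mem_of_algebraMap_mem hcV
    rw [hpq, Polynomial.coeff_C_mul, Polynomial.coeff_map]
    exact R.O.mul_mem _ _ hcO (q.coeff i).2
  · intro h
    have hlift : p ∈ Polynomial.lifts R.O.subtype := by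
      rw [Polynomial.lifts_iff_coeff_lifts]
      exact fun n => ⟨⟨p.coeff n, h n⟩, rfl⟩
    obtain ⟨q, rfl⟩ := (Polynomial.mem_lifts _).1 hlift
    rw [← s27r_coe_evalV R hx]
    exact Subtype.property _

/-! ### The Gauss reduction `(K⟮x⟯, F, k⟮xb⟯, Fb)` -/

/-- the valuation ring `V ∩ K⟮x⟯` of `K⟮x⟯` -/
def s27r_V1 (R : s27r_Red K F k Fb) (x : F) : ValuationSubring K⟮x⟯ :=
  R.V.comap (algebraMap K⟮x⟯ F)

omit hxb in
theorem s27r_mem_V1 {a : K⟮x⟯} : a ∈ s27r_V1 R x ↔ (a : F) ∈ R.V := Iff.rfl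

omit hxb in
theorem s27r_aeval_map_mem (q : k[X]) : aeval (R.r ⟨x, hx⟩) q ∈ k⟮R.r ⟨x, hx⟩⟯ := by
  rw [IntermediateField.mem_adjoin_simple_iff]
  exact ⟨q, 1, by simp⟩

/-- The reduction of an element of `K⟮x⟯ ∩ V` lies in `k⟮xb⟯`. -/
theorem s27r_r_mem_adjoin (a : K⟮x⟯) (ha : (a : F) ∈ R.V) :
    R.r ⟨(a : F), ha⟩ ∈ k⟮R.r ⟨x, hx⟩⟯ := by
  obtain ⟨P, Q, hPQ⟩ := (IntermediateField.mem_adjoin_simple_iff K (a : F)).1 a.2
  by_cases hQ0 : aeval x Q = 0
  · have h0 : (⟨(a : F), ha⟩ : R.V) = 0 := Subtype.ext (by rw [hPQ, hQ0, div_zero]; rfl)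
    rw [h0, map_zero]
    exact zero_mem _
  by_cases hP0 : aeval x P = 0
  · have h0 : (⟨(a : F), ha⟩ : R.V) = 0 := Subtype.ext (by rw [hPQ, hP0, zero_div]; rfl)
    rw [h0, map_zero]
    exact zero_mem _
  have hQ : Q ≠ 0 := fun h => hQ0 (by rw [h, map_zero])
  have hP : P ≠ 0 := fun h => hP0 (by rw [h, map_zero])
  obtain ⟨c, u, hc, hu, he, q, -, hq, -⟩ := s27r_aeval_eq_const_mul_unit R hx hxb P hP
  obtain ⟨c', u', hc', hu', he', q', -, hq', -⟩ := s27r_aeval_eq_const_mul_unit R hx hxb Q hQ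
  have hu0 := ((R.isUnit_iff u).1 hu)
  have hu0' := ((R.isUnit_iff u').1 hu')
  -- `c / c' ∈ O`
  have hd : algebraMap K F (c / c') ∈ R.V := by
    have : algebraMap K F (c / c') = (a : F) * (u' : F) * (u : F)⁻¹ := by
      rw [hPQ, he, he', map_div₀]
      have h1 : algebraMap K F c' ≠ 0 := (_root_.map_ne_zero _).2 hc'
      have h2 := hu0.1
      have h3 := hu0'.1
      field_simp
    rw [this]
    exact R.V.mul_mem _ _ (R.V.mul_mem _ _ ha u'.2) hu0.2
  have hdO : c / c' ∈ R.O := R.mem_of_algebraMap_mem hd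
  -- the identity `a * u' = (c/c') * u` in `V`
  have hid : (⟨(a : F), ha⟩ : R.V) * u' = R.incl ⟨c / c', hdO⟩ * u := by
    apply Subtype.ext
    show (a : F) * (u' : F) = algebraMap K F (c / c') * (u : F)
    rw [hPQ, he, he', map_div₀]
    have h1 : algebraMap K F c' ≠ 0 := (_root_.map_ne_zero _).2 hc'
    have h2 := hu0.1
    have h3 := hu0'.1
    field_simp
  have hr := congrArg R.r hid
  rw [map_mul, map_mul, R.r_incl] at hr
  have hru' : R.r u' ≠ 0 := (R.r_ne_zero_iff _).2 hu'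
  have : R.r ⟨(a : F), ha⟩ = algebraMap k Fb (R.r0 ⟨c / c', hdO⟩) * R.r u / R.r u' := by
    rw [eq_div_iff hru', hr]
  rw [this, hq, hq', s27r_r_evalV, s27r_r_evalV]
  exact div_mem (mul_mem (IntermediateField.algebraMap_mem _ _) (s27r_aeval_map_mem R hx _))
    (s27r_aeval_map_mem R hx _)

/-- the residue map `V ∩ K⟮x⟯ → k⟮xb⟯` -/
def s27r_r1 : s27r_V1 R x →+* k⟮R.r ⟨x, hx⟩⟯ :=
  RingHom.codRestrict
    (R.r.comp (show s27r_V1 R x →+* R.V from
      { toFun := fun a => ⟨((a : K⟮x⟯) : F), a.2⟩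
        map_one' := rfl
        map_mul' := fun _ _ => rfl
        map_zero' := rfl
        map_add' := fun _ _ => rfl }))
    k⟮R.r ⟨x, hx⟩⟯ (fun a => s27r_r_mem_adjoin R hx hxb a a.2)

theorem s27r_coe_r1 (a : s27r_V1 R x) :
    ((s27r_r1 R hx hxb a : k⟮R.r ⟨x, hx⟩⟯) : Fb) = R.r ⟨((a : K⟮x⟯) : F), a.2⟩ := rfl

theorem s27r_r1_surjective : Function.Surjective (s27r_r1 R hx hxb) := by
  rintro ⟨y, hy⟩
  obtain ⟨Pb, Qb, hPQ⟩ := (IntermediateField.mem_adjoin_simple_iff k y).1 hy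
  by_cases hQ0 : aeval (R.r ⟨x, hx⟩) Qb = 0
  · refine ⟨0, Subtype.ext ?_⟩
    rw [map_zero]
    show (0 : Fb) = y
    rw [hPQ, hQ0, div_zero]
  obtain ⟨P, rfl⟩ := Polynomial.map_surjective R.r0 R.r0_surj Pb
  obtain ⟨Q, rfl⟩ := Polynomial.map_surjective R.r0 R.r0_surj Qb
  have hu' : IsUnit (s27r_evalV R hx Q) := by
    rw [← R.r_ne_zero_iff, s27r_r_evalV]
    exact hQ0
  have hu0' := (R.isUnit_iff _).1 hu'
  -- the element `P(x) / Q(x)` of `K⟮x⟯`
  have hmem : aeval x (P.map R.O.subtype) / aeval x (Q.map R.O.subtype) ∈ K⟮x⟯ := by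
    rw [IntermediateField.mem_adjoin_simple_iff]
    exact ⟨_, _, rfl⟩
  have hV : aeval x (P.map R.O.subtype) / aeval x (Q.map R.O.subtype) ∈ R.V := by
    rw [← s27r_coe_evalV R hx, ← s27r_coe_evalV R hx, div_eq_mul_inv]
    exact R.V.mul_mem _ _ (Subtype.property _) hu0'.2
  refine ⟨⟨⟨_, hmem⟩, hV⟩, Subtype.ext ?_⟩
  rw [s27r_coe_r1]
  show R.r ⟨aeval x (P.map R.O.subtype) / aeval x (Q.map R.O.subtype), hV⟩ = y
  have hid : (⟨aeval x (P.map R.O.subtype) / aeval x (Q.map R.O.subtype), hV⟩ : R.V) *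
      s27r_evalV R hx Q = s27r_evalV R hx P := by
    apply Subtype.ext
    show aeval x (P.map R.O.subtype) / aeval x (Q.map R.O.subtype) *
      ((s27r_evalV R hx Q : R.V) : F) = ((s27r_evalV R hx P : R.V) : F)
    rw [s27r_coe_evalV, s27r_coe_evalV, div_mul_cancel₀]
    rw [← s27r_coe_evalV R hx]
    exact hu0'.1
  have hr := congrArg R.r hid
  rw [map_mul, s27r_r_evalV, s27r_r_evalV] at hr
  rw [hPQ, eq_div_iff hQ0, hr]

/-- **The Gauss reduction**: `(K⟮x⟯, F, k⟮xb⟯, Fb)` with `V1 = V ∩ K⟮x⟯` and `r1 = r|V1`. -/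
def s27r_gaussRed : s27r_Red K⟮x⟯ F k⟮R.r ⟨x, hx⟩⟯ Fb where
  O := s27r_V1 R x
  V := R.V
  r0 := s27r_r1 R hx hxb
  r := R.r
  r0_surj := s27r_r1_surjective R hx hxb
  r_surj := R.r_surj
  mem_iff := fun _ => Iff.rfl
  comp := fun _ _ => rfl

end Fermat.Agent.S27
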