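import Mathlib
import Fermat.Agent.S27.Red.Gauss

/-!
# S27 / (RED), Step 1: orthonormal bases

For ANY reduction datum `R : s27r_Red K F k Fb` with `[F : K] = [Fb : k]` finite (in the
application `K = K₀⟮x⟯`, `k = k₀⟮xb⟯` is the Gauss reduction `s27r_gaussRed`):

* `s27r_exists_orthoBasis` : lifts `ω i ∈ V` of a `k`-basis `ωb` of `Fb` form a `K`-basis of `F`
  which is ORTHONORMAL: `∑ c i • ω i ∈ V ↔ ∀ i, c i ∈ O`, and then
  `r (∑ c i • ω i) = ∑ r0 (c i) • ωb i`;
* `s27r_exists_base_mul_unit` : every `f ≠ 0` of `F` is (an element of `K`) times (a unit of `V`).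

Application to a constant reduction with a good generator `x`:

* `s27r_exists_const_mul_unit` : every `f ≠ 0` of `F` is (a CONSTANT of `K₀`) times (a unit of `V`).
-/

set_option autoImplicit false

namespace Fermat.Agent.S27

open AlgebraicCurve IntermediateField Polynomial Fermat.Agent.JT3

universe u v u' v'

section general

variable {K : Type u} {F : Type v} [Field K] [Field F] [Algebra K F]
variable {k : Type u'} {Fb : Type v'} [Field k] [Field Fb] [Algebra k Fb]
variable (R : s27r_Red K F k Fb)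

/-- **Normalisation**: if the reductions of `w i ∈ V` are `k`-linearly independent and the `c i ∈ K`
are not all zero, then `∑ c i • w i = c i₀ • u` with `u` a unit of `V` and all `c i / c i₀ ∈ O`. -/
theorem s27r_normalise {n : ℕ} (w : Fin n → R.V)
    (hw : LinearIndependent k (fun i => R.r (w i))) (c : Fin n → K) (hc : ∃ i, c i ≠ 0) :
    ∃ (i₀ : Fin n) (u : R.V), c i₀ ≠ 0 ∧ IsUnit u ∧ (∀ i, c i / c i₀ ∈ R.O) ∧
      ∑ i, c i • ((w i : R.V) : F) = algebraMap K F (c i₀) * (u : F) := by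
  classical
  obtain ⟨j, hj⟩ := hc
  obtain ⟨i₀, -, h0, hdiv⟩ := s27r_exists_max_val R.O Finset.univ c ⟨j, Finset.mem_univ j, hj⟩
  have hd : ∀ i, c i / c i₀ ∈ R.O := fun i => hdiv i (Finset.mem_univ i)
  set u : R.V := ∑ i, R.incl ⟨c i / c i₀, hd i⟩ * w i with hu
  have hru : R.r u = ∑ i, R.r0 ⟨c i / c i₀, hd i⟩ • R.r (w i) := by
    rw [hu, map_sum]
    refine Finset.sum_congr rfl fun i _ => ?_
    rw [map_mul, R.r_incl, Algebra.smul_def]
  have hunit : IsUnit u := by
    rw [← R.r_ne_zero_iff, hru]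
    intro hzero
    have := (Fintype.linearIndependent_iff.1 hw) _ hzero i₀
    have h1 : (⟨c i₀ / c i₀, hd i₀⟩ : R.O) = 1 := Subtype.ext (div_self h0)
    rw [h1, map_one] at this
    exact one_ne_zero this
  refine ⟨i₀, u, h0, hunit, hd, ?_⟩
  have hcoe : ((u : R.V) : F) = ∑ i, algebraMap K F (c i / c i₀) * ((w i : R.V) : F) := by
    rw [hu]
    simp only [AddSubmonoidClass.coe_finsetSum, MulMemClass.coe_mul, s27r_Red.coe_incl]
  rw [hcoe, Finset.mul_sum]
  refine Finset.sum_congr rfl fun i _ => ?_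
  rw [Algebra.smul_def, ← mul_assoc, ← map_mul, mul_div_cancel₀ _ h0]

variable [FiniteDimensional k Fb]

/-- **Orthonormal basis** when the residue degree equals the degree. -/
theorem s27r_exists_orthoBasis (hdeg : Module.finrank K F = Module.finrank k Fb) :
    ∃ (ω : Module.Basis (Fin (Module.finrank k Fb)) K F)
      (ωb : Module.Basis (Fin (Module.finrank k Fb)) k Fb),
      (∀ i, ∃ h : ω i ∈ R.V, R.r ⟨ω i, h⟩ = ωb i) ∧
      (∀ c : Fin (Module.finrank k Fb) → K, (∑ i, c i • ω i) ∈ R.V ↔ ∀ i, c i ∈ R.O) ∧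
      (∀ (c : Fin (Module.finrank k Fb) → K) (hc : ∀ i, c i ∈ R.O)
        (h : (∑ i, c i • ω i) ∈ R.V),
        R.r ⟨∑ i, c i • ω i, h⟩ = ∑ i, R.r0 ⟨c i, hc i⟩ • ωb i) := by
  classical
  set n := Module.finrank k Fb with hn
  have hnpos : 0 < n := Module.finrank_pos
  have : Nonempty (Fin n) := ⟨⟨0, hnpos⟩⟩
  set ωb : Module.Basis (Fin n) k Fb := Module.finBasis k Fb with hωb
  choose w hw using fun i => R.r_surj (ωb i)
  have hli : LinearIndependent k (fun i => R.r (w i)) := by
    have : (fun i => R.r (w i)) = ωb := funext hw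
    rw [this]
    exact ωb.linearIndependent
  -- independence of the lifts over `K`
  have hliK : LinearIndependent K (fun i => ((w i : R.V) : F)) := by
    rw [Fintype.linearIndependent_iff]
    intro c hsum
    by_contra hne
    push Not at hne
    obtain ⟨i₀, u, h0, hu, -, he⟩ := s27r_normalise R w hli c hne
    rw [hsum] at he
    have hu0 := ((R.isUnit_iff u).1 hu).1
    have : algebraMap K F (c i₀) * (u : F) ≠ 0 :=
      mul_ne_zero ((_root_.map_ne_zero _).2 h0) hu0
    exact this he.symm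
  have hcard : Fintype.card (Fin n) = Module.finrank K F := by
    rw [Fintype.card_fin, hdeg]
  set ω : Module.Basis (Fin n) K F := basisOfLinearIndependentOfCardEqFinrank hliK hcard with hω
  have hωw : ∀ i, ω i = ((w i : R.V) : F) := fun i => by
    rw [hω, coe_basisOfLinearIndependentOfCardEqFinrank]
  have hmem : ∀ i, ω i ∈ R.V := fun i => by rw [hωw]; exact (w i).2
  refine ⟨ω, ωb, fun i => ⟨hmem i, ?_⟩, fun c => ⟨fun h i => ?_, fun h => ?_⟩, fun c hc h => ?_⟩
  · have : (⟨ω i, hmem i⟩ : R.V) = w i := Subtype.ext (hωw i)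
    rw [this, hw]
  · -- orthonormality, hard direction
    by_cases hne : ∃ j, c j ≠ 0
    · obtain ⟨i₀, u, h0, hu, hd, he⟩ := s27r_normalise R w hli c hne
      have hsum : ∑ i, c i • ω i = algebraMap K F (c i₀) * (u : F) := by
        rw [← he]
        exact Finset.sum_congr rfl fun i _ => by rw [hωw]
      have hu' := (R.isUnit_iff u).1 hu
      have hcV : algebraMap K F (c i₀) ∈ R.V := by
        have : algebraMap K F (c i₀) = (∑ i, c i • ω i) * (u : F)⁻¹ := by
          rw [hsum, mul_assoc, mul_inv_cancel₀ hu'.1, mul_one]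
        rw [this]
        exact R.V.mul_mem _ _ h hu'.2
      have hcO : c i₀ ∈ R.O := R.mem_of_algebraMap_mem hcV
      have : c i = c i / c i₀ * c i₀ := by rw [div_mul_cancel₀ _ h0]
      rw [this]
      exact R.O.mul_mem _ _ (hd i) hcO
    · push Not at hne
      rw [hne i]
      exact R.O.zero_mem
  · -- easy direction
    refine R.V.sum_mem fun i _ => ?_
    rw [Algebra.smul_def]
    exact R.V.mul_mem _ _ (R.algebraMap_mem (h i)) (hmem i)
  · -- the reduction formula
    have hval : (⟨∑ i, c i • ω i, h⟩ : R.V) = ∑ i, R.incl ⟨c i, hc i⟩ * w i := by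
      apply Subtype.ext
      simp only [AddSubmonoidClass.coe_finsetSum, MulMemClass.coe_mul, s27r_Red.coe_incl]
      exact Finset.sum_congr rfl fun i _ => by rw [Algebra.smul_def, hωw]
    rw [hval, map_sum]
    refine Finset.sum_congr rfl fun i _ => ?_
    rw [map_mul, R.r_incl, hw, Algebra.smul_def]

/-- Every nonzero `f ∈ F` is (an element of the base field `K`) times (a unit of `V`). -/
theorem s27r_exists_base_mul_unit (hdeg : Module.finrank K F = Module.finrank k Fb)
    {f : F} (hf : f ≠ 0) :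
    ∃ (c : K) (u : R.V), c ≠ 0 ∧ IsUnit u ∧ f = algebraMap K F c * (u : F) := by
  classical
  obtain ⟨ω, ωb, hω, -, -⟩ := s27r_exists_orthoBasis R hdeg
  choose hmem hred using hω
  have hli : LinearIndependent k (fun i => R.r (⟨ω i, hmem i⟩ : R.V)) := by
    have : (fun i => R.r (⟨ω i, hmem i⟩ : R.V)) = ωb := funext hred
    rw [this]
    exact ωb.linearIndependent
  have hne : ∃ i, ω.repr f i ≠ 0 := by
    by_contra h
    push Not at h
    apply hf
    rw [← ω.sum_repr f]
    exact Finset.sum_eq_zero fun i _ => by rw [h i, zero_smul]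
  obtain ⟨i₀, u, h0, hu, -, he⟩ :=
    s27r_normalise R (fun i => (⟨ω i, hmem i⟩ : R.V)) hli (fun i => ω.repr f i) hne
  refine ⟨_, u, h0, hu, ?_⟩
  rw [← he]
  exact (ω.sum_repr f).symm

end general

/-! ### Application: a constant reduction with a good generator -/

section constant

variable {K : Type u} {F : Type v} [Field K] [Field F] [Algebra K F]
variable {k : Type u'} {Fb : Type v'} [Field k] [Field Fb] [Algebra k Fb]
variable (R : s27r_Red K F k Fb) {x : F}

/-- **(A)** every nonzero function is (a constant) times (a unit of `V`). -/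
theorem s27r_exists_const_mul_unit (h : s27r_Good R x) {f : F} (hf : f ≠ 0) :
    ∃ (c : K) (u : R.V), c ≠ 0 ∧ IsUnit u ∧ f = algebraMap K F c * (u : F) := by
  have hx := h.x_mem
  have hxb : Transcendental k (R.r ⟨x, hx⟩) := h.sepk.1
  have : FiniteDimensional k⟮R.r ⟨x, hx⟩⟯ Fb := h.sepk.2.1
  have hgauss : ∃ (c₁ : K⟮x⟯) (u₁ : R.V), c₁ ≠ 0 ∧ IsUnit u₁ ∧
      f = algebraMap K⟮x⟯ F c₁ * (u₁ : F) :=
    s27r_exists_base_mul_unit (s27r_gaussRed R hx hxb) h.deg_eq hf
  obtain ⟨c₁, u₁, hc₁, hu₁, he₁⟩ := hgauss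
  -- `c₁ ∈ K⟮x⟯` is a quotient of two polynomials in `x`
  obtain ⟨P, Q, hPQ⟩ := (IntermediateField.mem_adjoin_simple_iff K (c₁ : F)).1 c₁.2
  have hc₁F : (c₁ : F) ≠ 0 := fun h0 => hc₁ (Subtype.ext h0)
  have hQ0 : aeval x Q ≠ 0 := by
    intro h0
    rw [hPQ, h0, div_zero] at hc₁F
    exact hc₁F rfl
  have hP0 : aeval x P ≠ 0 := by
    intro h0
    rw [hPQ, h0, zero_div] at hc₁F
    exact hc₁F rfl
  have hQ : Q ≠ 0 := fun h => hQ0 (by rw [h, map_zero])
  have hP : P ≠ 0 := fun h => hP0 (by rw [h, map_zero])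
  obtain ⟨c, u, hc, hu, he, -⟩ := s27r_aeval_eq_const_mul_unit R hx hxb P hP
  obtain ⟨c', u', hc', hu', he', -⟩ := s27r_aeval_eq_const_mul_unit R hx hxb Q hQ
  obtain ⟨v', hv'⟩ := hu'.exists_right_inv
  have hv'F : (u' : F) * (v' : F) = 1 := by
    have := congrArg (fun z : R.V => (z : F)) hv'
    simpa only [MulMemClass.coe_mul, OneMemClass.coe_one] using this
  have hunit : IsUnit (u * v' * u₁) := by
    refine (hu.mul ?_).mul hu₁
    exact IsUnit.of_mul_eq_one u' (by rw [mul_comm]; exact hv')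
  refine ⟨c / c', u * v' * u₁, div_ne_zero hc hc', hunit, ?_⟩
  have hu'0 : (u' : F) ≠ 0 := ((R.isUnit_iff u').1 hu').1
  have hv'eq : (v' : F) = (u' : F)⁻¹ := (eq_inv_of_mul_eq_one_right hv'F)
  have h1 : algebraMap K F c' ≠ 0 := (_root_.map_ne_zero _).2 hc'
  rw [he₁]
  show ((c₁ : K⟮x⟯) : F) * (u₁ : F) = algebraMap K F (c / c') * ((u * v' * u₁ : R.V) : F)
  rw [hPQ, he, he', map_div₀]
  simp only [MulMemClass.coe_mul]
  rw [hv'eq]
  field_simp

end constant

end Fermat.Agent.S27
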