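/-
S27 / (RED) cell R2, final form: for a constant reduction with a good generator,
`finrank k (s27r_redSub R L) = finrank K L` for EVERY finite-dimensional `K`-subspace `L` of `F`.
-/
import Mathlib
import Fermat.Agent.S27.Red.OrthoBasis
import Fermat.Agent.S27.Red.LinRedF

set_option autoImplicit false

namespace Fermat.Agent.S27

open Module Polynomial IntermediateField Fermat.Agent.JT3

universe u v u' v'
variable {K : Type u} {F : Type v} [Field K] [Field F] [Algebra K F]
variable {k : Type u'} {Fb : Type v'} [Field k] [Field Fb] [Algebra k Fb]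

/-- common denominator: finitely many elements of `K⟮x⟯` (with `x` transcendental) become
polynomials in `x` after multiplication by one nonzero polynomial in `x`. -/
theorem s27l_exists_common_denom {x : F} (hx : Transcendental K x) {ι : Type*} [Fintype ι]
    (c : ι → K⟮x⟯) :
    ∃ q : K[X], q ≠ 0 ∧ ∀ i, ∃ P : K[X], aeval x q * (c i : F) = aeval x P := by
  classical
  have h1 : ∀ i, ∃ r s : K[X], s ≠ 0 ∧ (c i : F) = aeval x r / aeval x s := by
    intro i
    obtain ⟨r, s, hrs⟩ := (IntermediateField.mem_adjoin_simple_iff K (c i : F)).1 (c i).2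
    by_cases hs : s = 0
    · refine ⟨0, 1, one_ne_zero, ?_⟩
      simp [hrs, hs]
    · exact ⟨r, s, hs, hrs⟩
  choose r s hs hrs using h1
  refine ⟨∏ i, s i, Finset.prod_ne_zero_iff.2 fun i _ => hs i, fun i => ?_⟩
  refine ⟨r i * ∏ j ∈ Finset.univ.erase i, s j, ?_⟩
  have hsx : aeval x (s i) ≠ 0 := fun h0 => hs i ((transcendental_iff.1 hx) _ h0)
  rw [← Finset.mul_prod_erase Finset.univ s (Finset.mem_univ i), hrs i, map_mul, map_mul]
  field_simp

/-- the monomials `xb^l ωb_i` (`l ≤ d`) are `k`-independent when `xb` is transcendental and `ωb` is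
a `k⟮xb⟯`-basis. -/
theorem s27l_pow_mul_indep {xb : Fb} (hxb : Transcendental k xb) {n : ℕ}
    (ωb : Basis (Fin n) k⟮xb⟯ Fb) (d : ℕ) :
    LinearIndependent k (fun li : Fin (d + 1) × Fin n => xb ^ (li.1 : ℕ) * ωb li.2) := by
  classical
  rw [Fintype.linearIndependent_iff]
  intro γ hγ li
  rw [Fintype.sum_prod_type_right] at hγ
  set p : Fin n → k[X] := fun i => ∑ l : Fin (d + 1), monomial (l : ℕ) (γ (l, i)) with hp
  have h1 : ∑ i, (aeval (AdjoinSimple.gen k xb) (p i)) • ωb i = 0 := by
    rw [← hγ]
    refine Finset.sum_congr rfl fun i _ => ?_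
    rw [Algebra.smul_def, IntermediateField.algebraMap_apply, AdjoinSimple.coe_aeval_gen_apply,
      hp, map_sum, Finset.sum_mul]
    refine Finset.sum_congr rfl fun l _ => ?_
    rw [aeval_monomial, Algebra.smul_def, mul_assoc]
  have h2 := Fintype.linearIndependent_iff.1 ωb.linearIndependent _ h1 li.2
  have h3 : p li.2 = 0 := by
    have : aeval xb (p li.2) = 0 := by
      rw [← AdjoinSimple.coe_aeval_gen_apply, h2]
      rfl
    exact (transcendental_iff.1 hxb) _ this
  have h4 := congrArg (fun q : k[X] => q.coeff (li.1 : ℕ)) h3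
  simp only [hp, Polynomial.finsetSum_coeff, Polynomial.coeff_monomial, Polynomial.coeff_zero]
    at h4
  rw [Finset.sum_eq_single li.1] at h4
  · simpa using h4
  · intro l _ hl
    rw [if_neg]
    intro h
    exact hl (Fin.ext h)
  · intro h
    exact (h (Finset.mem_univ _)).elim

/-- **(R2)** for a constant reduction with a good generator, reduction preserves the dimension of
every finite-dimensional space of functions. -/
theorem s27l_finrank_redSub (R : s27r_Red K F k Fb) {x : F} (h : s27r_Good R x)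
    (L : Submodule K F) [Module.Finite K L] :
    Module.finrank k ↥(s27r_redSub R L) = Module.finrank K ↥L := by
  classical
  have hx := h.x_mem
  have hxb : Transcendental k (R.r ⟨x, hx⟩) := h.sepk.1
  have hxK : Transcendental K x := h.sepK.1
  have : FiniteDimensional k⟮R.r ⟨x, hx⟩⟯ Fb := h.sepk.2.1
  obtain ⟨ω, ωb, hω, -, -⟩ := s27r_exists_orthoBasis (s27r_gaussRed R hx hxb) h.deg_eq
  choose hωV hωr using hω
  -- a `K`-basis of `L`
  set b := Module.finBasis K L with hb
  -- common denominator
  obtain ⟨q, hq0, hq⟩ := s27l_exists_common_denom hxK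
    (fun si : Fin (Module.finrank K L) × Fin (Module.finrank k⟮R.r ⟨x, hx⟩⟯ Fb) =>
      ω.repr (b si.1 : F) si.2)
  choose P hP using hq
  -- degree bound
  set d := Finset.univ.sup (fun si => (P si).natDegree) with hd
  -- the orthonormal family
  set t : Fin (d + 1) × Fin (Module.finrank k⟮R.r ⟨x, hx⟩⟯ Fb) → F :=
    fun li => x ^ (li.1 : ℕ) * ω li.2 with ht_def
  have ht : ∀ li, t li ∈ R.V := fun li => R.V.mul_mem _ _ (R.V.pow_mem hx _) (hωV li.2)
  have hrt : ∀ li, R.r ⟨t li, ht li⟩ = (R.r ⟨x, hx⟩) ^ (li.1 : ℕ) * ωb li.2 := by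
    intro li
    have : (⟨t li, ht li⟩ : R.V) = ⟨x, hx⟩ ^ (li.1 : ℕ) * ⟨ω li.2, hωV li.2⟩ :=
      Subtype.ext (by simp [ht_def])
    rw [this, map_mul, map_pow]
    congr 1
    exact hωr li.2
  have hind : LinearIndependent k (fun li => R.r ⟨t li, ht li⟩) := by
    rw [show (fun li => R.r ⟨t li, ht li⟩) = _ from funext hrt]
    exact s27l_pow_mul_indep hxb ωb d
  -- unit normalisation
  obtain ⟨c, u, hc, hu, he, -⟩ := s27r_aeval_eq_const_mul_unit R hx hxb q hq0
  have hu' := (R.isUnit_iff u).1 hu
  apply s27l_finrank_redSub_of_mul_le_span R t ht hind (u : F) u.2 hu'.2 hu'.1 L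
  intro f hf
  have h1 : (u : F) * f = c⁻¹ • (aeval x q * f) := by
    rw [he, Algebra.smul_def, map_inv₀]
    have : algebraMap K F c ≠ 0 := (_root_.map_ne_zero _).2 hc
    field_simp
  rw [h1]
  apply Submodule.smul_mem
  have hmulmem : ∀ s, aeval x q * (b s : F) ∈ Submodule.span K (Set.range t) := by
    intro s
    have hrepr : (b s : F) = ∑ i, ω.repr (b s : F) i • ω i := (ω.sum_repr _).symm
    rw [hrepr, Finset.mul_sum]
    refine Submodule.sum_mem _ fun i _ => ?_
    have h2 : aeval x q * (ω.repr (b s : F) i • ω i) = aeval x (P (s, i)) * ω i := by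
      rw [Algebra.smul_def, IntermediateField.algebraMap_apply, ← mul_assoc, hP (s, i)]
    rw [h2]
    have hdeg : (P (s, i)).natDegree < d + 1 := by
      have : (P (s, i)).natDegree ≤ d :=
        Finset.le_sup (f := fun si => (P si).natDegree) (Finset.mem_univ (s, i))
      omega
    rw [Polynomial.aeval_eq_sum_range' hdeg, Finset.sum_mul]
    refine Submodule.sum_mem _ fun l hl => ?_
    rw [smul_mul_assoc]
    apply Submodule.smul_mem
    apply Submodule.subset_span
    exact ⟨(⟨l, Finset.mem_range.1 hl⟩, i), rfl⟩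
  have hfsum : f = ∑ s, b.repr ⟨f, hf⟩ s • (b s : F) := by
    have := congrArg (Subtype.val) (b.sum_repr ⟨f, hf⟩)
    simp only [AddSubmonoidClass.coe_finsetSum, SetLike.val_smul] at this
    exact this.symm
  rw [hfsum, Finset.mul_sum]
  refine Submodule.sum_mem _ fun s _ => ?_
  rw [mul_smul_comm]
  exact Submodule.smul_mem _ _ (hmulmem s)

end Fermat.Agent.S27
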