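/-
Project S27, cell (RED) R3 (helper1): THE DIVISOR OF A FINITE-DIMENSIONAL SPACE OF FUNCTIONS.
Prefix `s27dv_`.  Namespace `Fermat.Agent.S27`.

`k` algebraically closed, `Fb / k` a function field with a separating generator.  For a finite-dimensional
`k`-subspace `M ≠ 0` of `Fb`, `dv M` is the LEAST divisor `B` with `M ≤ L(B)`:
`(dv M) Q = - min { ord_Q f | f ∈ M, f ≠ 0 }`.

* `s27dv_spec`      : `∀ f ∈ M, |f|_Q ≤ exp ((dv M) Q)` and equality for some `f ∈ M`;
* `s27dv_eq_of_spec`: uniqueness;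
* `s27dv_le_iff`    : `M ≤ L(B) ↔ dv M ≤ B`;   `s27dv_le_L : M ≤ L(dv M)`;
* `s27dv_mono`      : `M ≤ M' → dv M ≤ dv M'`;
* `s27dv_mul_le`    : `M · M' ⊆ M'' → dv M + dv M' ≤ dv M''`;
* `s27dv_smul`      : `dv (h M) = dv M - div h`;
* `s27dv_ord_le`, `s27dv_exists_ord_eq` : the same in terms of `ord`.
-/
import Mathlib
import Fermat.Agent.JT3.Riemann.Main

set_option autoImplicit false
set_option linter.unusedSectionVars false
set_option linter.style.haveILetI false
set_option linter.unusedVariables false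

noncomputable section

namespace Fermat.Agent.S27

open AlgebraicCurve Fermat.Agent.JT3 Fermat.Agent.S24 WithZero

universe u v
variable {k : Type u} {Fb : Type v} [Field k] [Field Fb] [Algebra k Fb]

/-- `n` is the logarithm of the maximum of `|f|_Q`, `f ∈ M`. -/
def s27dv_IsMax (M : Submodule k Fb) (Q : Place k Fb) (n : ℤ) : Prop :=
  (∀ f ∈ M, Q.adicValuation f ≤ exp n) ∧ ∃ f ∈ M, Q.adicValuation f = exp n

theorem s27dv_isMax_unique {M : Submodule k Fb} {Q : Place k Fb} {n n' : ℤ}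
    (h : s27dv_IsMax M Q n) (h' : s27dv_IsMax M Q n') : n = n' := by
  obtain ⟨f, hf, hfn⟩ := h.2
  obtain ⟨f', hf', hfn'⟩ := h'.2
  have h1 := h'.1 f hf
  have h2 := h.1 f' hf'
  rw [hfn, exp_le_exp] at h1
  rw [hfn', exp_le_exp] at h2
  omega

open Classical in
/-- the value of `dv M` at `Q`. -/
def s27dv_fun (M : Submodule k Fb) (Q : Place k Fb) : ℤ :=
  if h : ∃ n : ℤ, s27dv_IsMax M Q n then Classical.choose h else 0

open Classical in
/-- **`dv M`**: the least divisor `B` with `M ≤ L(B)`. -/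
def s27dv_dv (M : Submodule k Fb) : Divisor k Fb :=
  if h : (Function.support (s27dv_fun M)).Finite then Finsupp.ofSupportFinite _ h else 0

theorem s27dv_fun_eq {M : Submodule k Fb} {Q : Place k Fb} {n : ℤ} (h : s27dv_IsMax M Q n) :
    s27dv_fun M Q = n := by
  have hex : ∃ n : ℤ, s27dv_IsMax M Q n := ⟨n, h⟩
  rw [s27dv_fun, dif_pos hex]
  exact s27dv_isMax_unique (Classical.choose_spec hex) h

/-- the valuation of an element of a span is bounded by the maximum over the generators. -/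
theorem s27dv_val_le_of_span (Q : Place k Fb) (S : Set Fb) {b : ℤᵐ⁰}
    (hS : ∀ f ∈ S, Q.adicValuation f ≤ b) {f : Fb} (hf : f ∈ Submodule.span k S) :
    Q.adicValuation f ≤ b := by
  induction hf using Submodule.span_induction with
  | mem f hf => exact hS f hf
  | zero => rw [map_zero]; exact zero_le
  | add f g _ _ hf hg => exact (Valuation.map_add _ _ _).trans (max_le hf hg)
  | smul c f _ hf =>
    rw [Algebra.smul_def, map_mul]
    exact (mul_le_of_le_one_left' (Q.adicValuation_algebraMap_le_one c)).trans hf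

section main

variable [IsAlgClosed k] {x : Fb} (hx : rt_IsSepGen k x)

/-- the maximum exists at every place. -/
theorem s27dv_exists_isMax (M : Submodule k Fb) [Module.Finite k M] (hM : M ≠ ⊥) (Q : Place k Fb) :
    ∃ n : ℤ, s27dv_IsMax M Q n := by
  classical
  obtain ⟨S, hS⟩ : M.FG := Module.Finite.iff_fg.1 inferInstance
  have hSne : S.Nonempty := by
    rw [Finset.nonempty_iff_ne_empty]
    rintro rfl
    apply hM
    rw [← hS]
    simp
  obtain ⟨f0, hf0S, hf0⟩ := Finset.exists_max_image S (fun f => Q.adicValuation f) hSne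
  have hf0M : f0 ∈ M := by rw [← hS]; exact Submodule.subset_span hf0S
  have hne : Q.adicValuation f0 ≠ 0 := by
    intro h0
    apply hM
    rw [eq_bot_iff, ← hS, Submodule.span_le]
    intro f hf
    have h1 := hf0 f hf
    rw [h0] at h1
    have h2 : Q.adicValuation f = 0 := le_antisymm h1 zero_le
    rw [SetLike.mem_coe, Submodule.mem_bot]
    exact (Valuation.zero_iff _).1 h2
  refine ⟨log (Q.adicValuation f0), fun f hf => ?_, f0, hf0M, (exp_log hne).symm⟩
  rw [exp_log hne]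
  rw [← hS] at hf
  exact s27dv_val_le_of_span Q (↑S) (fun g hg => hf0 g hg) hf

include hx in
/-- `dv M` has finite support. -/
theorem s27dv_finite_support (M : Submodule k Fb) [Module.Finite k M] (hM : M ≠ ⊥) :
    (Function.support (s27dv_fun M)).Finite := by
  classical
  obtain ⟨S, hS⟩ : M.FG := Module.Finite.iff_fg.1 inferInstance
  have hfin : (⋃ f ∈ S, {Q : Place k Fb | Q.ord f ≠ 0}).Finite :=
    Set.Finite.biUnion S.finite_toSet fun f _ => rt_finite_support hx f
  refine hfin.subset fun Q hQ => ?_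
  by_contra hcon
  simp only [Set.mem_iUnion, Set.mem_ofPred_eq, not_exists, not_not] at hcon
  apply hQ
  -- all generators have `|f|_Q ∈ {0, 1}` and one of them is nonzero
  have hle : ∀ f ∈ (↑S : Set Fb), Q.adicValuation f ≤ 1 := by
    intro f hf
    rw [Q.adicValuation_le_one_iff]
    exact Or.inr (le_of_eq (hcon f hf).symm)
  obtain ⟨f1, hf1S, hf10⟩ : ∃ f ∈ S, f ≠ 0 := by
    by_contra hall
    push Not at hall
    apply hM
    rw [eq_bot_iff, ← hS, Submodule.span_le]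
    intro f hf
    rw [SetLike.mem_coe, Submodule.mem_bot]
    exact hall f hf
  have hf1M : f1 ∈ M := by rw [← hS]; exact Submodule.subset_span hf1S
  have hf1v : Q.adicValuation f1 = exp (0 : ℤ) := by
    rw [Q.adicValuation_eq_exp_neg_ord hf10, hcon f1 hf1S, neg_zero]
  refine s27dv_fun_eq ⟨fun f hf => ?_, f1, hf1M, hf1v⟩
  rw [exp_zero]
  rw [← hS] at hf
  exact s27dv_val_le_of_span Q (↑S) hle hf

include hx in
theorem s27dv_apply (M : Submodule k Fb) [Module.Finite k M] (hM : M ≠ ⊥) (Q : Place k Fb) :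
    s27dv_dv M Q = s27dv_fun M Q := by
  rw [s27dv_dv, dif_pos (s27dv_finite_support hx M hM)]
  rfl

include hx in
/-- **the defining property of `dv M`.** -/
theorem s27dv_spec (M : Submodule k Fb) [Module.Finite k M] (hM : M ≠ ⊥) (Q : Place k Fb) :
    s27dv_IsMax M Q (s27dv_dv M Q) := by
  obtain ⟨n, hn⟩ := s27dv_exists_isMax M hM Q
  rw [s27dv_apply hx M hM, s27dv_fun_eq hn]
  exact hn

include hx in
theorem s27dv_eq_of_spec (M : Submodule k Fb) [Module.Finite k M] (hM : M ≠ ⊥) {Q : Place k Fb}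
    {n : ℤ} (h : s27dv_IsMax M Q n) : s27dv_dv M Q = n :=
  s27dv_isMax_unique (s27dv_spec hx M hM Q) h

include hx in
/-- **`M ≤ L(B) ↔ dv M ≤ B`.** -/
theorem s27dv_le_iff (M : Submodule k Fb) [Module.Finite k M] (hM : M ≠ ⊥) (B : Divisor k Fb) :
    M ≤ riemannRochSpace B ↔ s27dv_dv M ≤ B := by
  constructor
  · intro h
    rw [Finsupp.le_def]
    intro Q
    obtain ⟨f, hf, hfv⟩ := (s27dv_spec hx M hM Q).2
    have h1 : Q.adicValuation f ≤ exp (B Q) := h hf Q
    rw [hfv, exp_le_exp] at h1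
    exact h1
  · intro h f hf Q
    exact ((s27dv_spec hx M hM Q).1 f hf).trans (exp_le_exp.2 (Finsupp.le_def.1 h Q))

include hx in
theorem s27dv_le_L (M : Submodule k Fb) [Module.Finite k M] (hM : M ≠ ⊥) :
    M ≤ riemannRochSpace (s27dv_dv M) :=
  (s27dv_le_iff hx M hM _).2 le_rfl

include hx in
theorem s27dv_mono {M M' : Submodule k Fb} [Module.Finite k M] [Module.Finite k M']
    (hM : M ≠ ⊥) (hM' : M' ≠ ⊥) (h : M ≤ M') : s27dv_dv M ≤ s27dv_dv M' :=
  (s27dv_le_iff hx M hM _).1 (h.trans (s27dv_le_L hx M' hM'))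

include hx in
/-- **superadditivity**: `M · M' ⊆ M'' ⟹ dv M + dv M' ≤ dv M''`. -/
theorem s27dv_mul_le {M M' M'' : Submodule k Fb} [Module.Finite k M] [Module.Finite k M']
    [Module.Finite k M''] (hM : M ≠ ⊥) (hM' : M' ≠ ⊥) (hM'' : M'' ≠ ⊥)
    (h : ∀ f ∈ M, ∀ f' ∈ M', f * f' ∈ M'') :
    s27dv_dv M + s27dv_dv M' ≤ s27dv_dv M'' := by
  rw [Finsupp.le_def]
  intro Q
  obtain ⟨f, hf, hfv⟩ := (s27dv_spec hx M hM Q).2
  obtain ⟨f', hf', hfv'⟩ := (s27dv_spec hx M' hM' Q).2
  have h1 := (s27dv_spec hx M'' hM'' Q).1 (f * f') (h f hf f' hf')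
  rw [map_mul, hfv, hfv', ← exp_add, exp_le_exp] at h1
  rw [Finsupp.add_apply]
  exact h1

/-- `h M`. -/
abbrev s27dv_smulSub (h : Fb) (M : Submodule k Fb) : Submodule k Fb :=
  M.map (LinearMap.mulLeft k h)

theorem s27dv_mem_smulSub {h : Fb} {M : Submodule k Fb} {y : Fb} :
    y ∈ s27dv_smulSub h M ↔ ∃ f ∈ M, h * f = y := by
  simp [s27dv_smulSub, Submodule.mem_map]

theorem s27dv_smulSub_ne_bot {h : Fb} (h0 : h ≠ 0) {M : Submodule k Fb} (hM : M ≠ ⊥) :
    s27dv_smulSub h M ≠ ⊥ := by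
  obtain ⟨f, hf, hf0⟩ := (Submodule.ne_bot_iff _).1 hM
  rw [Submodule.ne_bot_iff]
  exact ⟨h * f, s27dv_mem_smulSub.2 ⟨f, hf, rfl⟩, mul_ne_zero h0 hf0⟩

include hx in
/-- **`dv (h M) = dv M - div h`.** -/
theorem s27dv_smul {h : Fb} (h0 : h ≠ 0) (M : Submodule k Fb) [Module.Finite k M] (hM : M ≠ ⊥) :
    haveI : Module.Finite k (s27dv_smulSub h M) := Module.Finite.map M _
    s27dv_dv (s27dv_smulSub h M) = s27dv_dv M - rt_div hx h := by
  haveI : Module.Finite k (s27dv_smulSub h M) := Module.Finite.map M _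
  ext Q
  rw [Finsupp.sub_apply, rt_div_apply]
  apply s27dv_eq_of_spec hx _ (s27dv_smulSub_ne_bot h0 hM)
  have hval : Q.adicValuation h = exp (-Q.ord h) := Q.adicValuation_eq_exp_neg_ord h0
  refine ⟨fun y hy => ?_, ?_⟩
  · obtain ⟨f, hf, rfl⟩ := s27dv_mem_smulSub.1 hy
    rw [map_mul, hval, sub_eq_neg_add, exp_add]
    exact mul_le_mul_right ((s27dv_spec hx M hM Q).1 f hf) _
  · obtain ⟨f, hf, hfv⟩ := (s27dv_spec hx M hM Q).2
    refine ⟨h * f, s27dv_mem_smulSub.2 ⟨f, hf, rfl⟩, ?_⟩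
    rw [map_mul, hval, hfv, ← exp_add]
    congr 1
    ring

include hx in
/-- `ord` form of `s27dv_spec`, lower bound. -/
theorem s27dv_ord_le (M : Submodule k Fb) [Module.Finite k M] (hM : M ≠ ⊥) (Q : Place k Fb)
    {f : Fb} (hf : f ∈ M) (hf0 : f ≠ 0) : -(s27dv_dv M Q) ≤ Q.ord f := by
  have h1 := (s27dv_spec hx M hM Q).1 f hf
  rw [Q.adicValuation_eq_exp_neg_ord hf0, exp_le_exp] at h1
  omega

include hx in
/-- `ord` form of `s27dv_spec`, the minimum is attained. -/
theorem s27dv_exists_ord_eq (M : Submodule k Fb) [Module.Finite k M] (hM : M ≠ ⊥)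
    (Q : Place k Fb) : ∃ f ∈ M, f ≠ 0 ∧ Q.ord f = -(s27dv_dv M Q) := by
  obtain ⟨f, hf, hfv⟩ := (s27dv_spec hx M hM Q).2
  have hf0 : f ≠ 0 := by
    rintro rfl
    rw [map_zero] at hfv
    exact exp_ne_zero hfv.symm
  refine ⟨f, hf, hf0, ?_⟩
  rw [Q.adicValuation_eq_exp_neg_ord hf0] at hfv
  have := exp_injective hfv
  omega

include hx in
/-- `dv L(B) ≤ B`. -/
theorem s27dv_L_le (B : Divisor k Fb) (hB : riemannRochSpace B ≠ ⊥) :
    haveI := rt_L_finite hx B
    s27dv_dv (riemannRochSpace B) ≤ B := by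
  haveI := rt_L_finite hx B
  exact (s27dv_le_iff hx _ hB B).1 le_rfl

end main

end Fermat.Agent.S27
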