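import Mathlib
import Fermat.Agent.S27.Red.Defs
import Fermat.Agent.S27.Red.Dv
import Fermat.Agent.S27.Hens.NonSpecial
import Fermat.Agent.S27.Genus.Dim

/-!
# S27 / (RED), Step 4: the divisor `D* = dv (red L(D))`

`R : s27r_Red K F k Fb`, `h : s27r_Good R x`, and the two inputs

* `hdim`  (cell R2): reduction preserves the dimension of finite-dimensional subspaces;
* `hpole` (cell R4): `red L(m (x)∞) ≤ L(m (xb)∞)`.

For `D` of degree `≥ c₁` the divisor `D* := dv (red L(D))` has the degree of `D`, is additive,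
monotone, and `(D + div u)* = D* + div (r u)` for units `u` of `V`.
-/

set_option autoImplicit false
set_option linter.unusedSectionVars false
set_option linter.style.haveILetI false

namespace Fermat.Agent.S27

open AlgebraicCurve IntermediateField Polynomial Fermat.Agent.JT3 WithZero

universe u v u' v'
variable {K : Type u} {F : Type v} [Field K] [Field F] [Algebra K F]
variable {k : Type u'} {Fb : Type v'} [Field k] [Field Fb] [Algebra k Fb]

/-- `L(D) · L(E) ⊆ L(D + E)`. -/
theorem s27r_mul_mem_L {D E : Divisor K F} {a b : F} (ha : a ∈ riemannRochSpace D)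
    (hb : b ∈ riemannRochSpace E) : a * b ∈ riemannRochSpace (D + E) := by
  intro v
  have h1 := ha v
  have h2 := hb v
  rw [map_mul, Finsupp.add_apply, WithZero.exp_add]
  exact mul_le_mul' h1 h2

/-- the input of cell R2 -/
def s27r_HDim (R : s27r_Red K F k Fb) : Prop :=
  ∀ L : Submodule K F, Module.Finite K L →
    Module.Finite k ↥(s27r_redSub R L) ∧
      Module.finrank k ↥(s27r_redSub R L) = Module.finrank K ↥L

variable [IsAlgClosed K] [IsAlgClosed k]

/-- the input of cell R4 -/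
def s27r_HPole (R : s27r_Red K F k Fb) {x : F} (h : s27r_Good R x) : Prop :=
  ∀ m : ℕ, s27r_redSub R (riemannRochSpace (m • rt_poleDiv h.sepK x)) ≤
    riemannRochSpace (m • rt_poleDiv h.sepk (R.r ⟨x, h.x_mem⟩))

variable (R : s27r_Red K F k Fb) {x : F} (h : s27r_Good R x)

/-- `M_D := red L(D)` -/
def s27r_M (D : Divisor K F) : Submodule k Fb := s27r_redSub R (riemannRochSpace D)

/-- `D* := dv (red L(D))` -/
noncomputable def s27r_star (D : Divisor K F) : Divisor k Fb := s27dv_dv (s27r_M R D)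

variable (hdim : s27r_HDim R)

include h hdim

theorem s27r_M_finite (D : Divisor K F) : Module.Finite k ↥(s27r_M R D) :=
  (hdim _ (rt_L_finite h.sepK D)).1

theorem s27r_finrank_M (D : Divisor K F) :
    Module.finrank k ↥(s27r_M R D) = Module.finrank K ↥(riemannRochSpace D) :=
  (hdim _ (rt_L_finite h.sepK D)).2

theorem s27r_M_ne_bot {D : Divisor K F}
    (hD : 0 < Module.finrank K ↥(riemannRochSpace D)) : s27r_M R D ≠ ⊥ := by
  intro hbot
  have := s27r_finrank_M R h hdim D
  rw [hbot, finrank_bot] at this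
  omega

omit hdim in
theorem s27r_M_mono {D D' : Divisor K F} (hDD : D ≤ D') : s27r_M R D ≤ s27r_M R D' :=
  s27r_redSub_mono R (rt_L_mono hDD)

omit h hdim in
theorem s27r_M_mul {D E : Divisor K F} {f f' : Fb} (hf : f ∈ s27r_M R D)
    (hf' : f' ∈ s27r_M R E) : f * f' ∈ s27r_M R (D + E) := by
  obtain ⟨a, ha, haL, rfl⟩ := hf
  obtain ⟨b, hb, hbL, rfl⟩ := hf'
  refine ⟨a * b, R.V.mul_mem _ _ ha hb, s27r_mul_mem_L haL hbL, ?_⟩
  rw [← map_mul]
  rfl

/-! ### The genus data and the threshold -/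

/-- The numerical data used in Step 4. -/
structure s27r_Num (gK gk : ℕ) (A₀ : Divisor k Fb) : Prop where
  hgK : s27r_IsGenus K F gK
  hgk1 : ∀ A : Divisor k Fb,
    Divisor.degree A + 1 - gk ≤ (Module.finrank k ↥(riemannRochSpace A) : ℤ)
  hA₀ : Divisor.degree A₀ + 1 - gk = (Module.finrank k ↥(riemannRochSpace A₀) : ℤ)
  hle : gK ≤ gk

omit hdim in
theorem s27r_exists_num : ∃ (gK gk : ℕ) (A₀ : Divisor k Fb), s27r_Num (K := K) (F := F) gK gk A₀ := by
  obtain ⟨gK, hgK⟩ := s27r_exists_isGenus h.sepK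
  obtain ⟨gk, hgk⟩ := s27r_exists_isGenus h.sepk
  obtain ⟨hgk1, A₀, hA₀⟩ := hgk
  exact ⟨gK, gk, A₀, hgK, hgk1, hA₀, h.genus_le gK gk hgK ⟨hgk1, A₀, hA₀⟩⟩

variable {gK gk : ℕ} {A₀ : Divisor k Fb} (hnum : s27r_Num (K := K) (F := F) gK gk A₀)

include hnum

/-- the threshold -/
noncomputable def s27r_c1 (_hnum : s27r_Num (K := K) (F := F) gK gk A₀) : ℤ :=
  max (gK : ℤ) (Divisor.degree A₀ + gk + 1)

omit h hdim in
theorem s27r_c1_nonneg : 0 ≤ s27r_c1 hnum :=
  le_max_of_le_left (Int.natCast_nonneg gK)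

omit hdim in
theorem s27r_l_pos {D : Divisor K F} (hD : s27r_c1 hnum ≤ Divisor.degree D) :
    0 < Module.finrank K ↥(riemannRochSpace D) := by
  have h1 := hnum.hgK.1 D
  have h2 : (gK : ℤ) ≤ s27r_c1 hnum := le_max_left _ _
  have : (0 : ℤ) < (Module.finrank K ↥(riemannRochSpace D) : ℤ) := by linarith
  exact_mod_cast this

theorem s27r_M_ne_bot' {D : Divisor K F} (hD : s27r_c1 hnum ≤ Divisor.degree D) :
    s27r_M R D ≠ ⊥ :=
  s27r_M_ne_bot R h hdim (s27r_l_pos R h hnum hD)

/-- **(4.1)** `deg D ≤ deg D*`. -/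
theorem s27r_degree_le_star {D : Divisor K F} (hD : s27r_c1 hnum ≤ Divisor.degree D) :
    Divisor.degree D ≤ Divisor.degree (s27r_star R D) := by
  classical
  by_contra hlt
  push Not at hlt
  haveI := s27r_M_finite R h hdim D
  have hMne := s27r_M_ne_bot' R h hdim hnum hD
  obtain ⟨Q₀⟩ := s27gen_nonempty_place h.sepk
  set e : ℤ := Divisor.degree D - 1 - Divisor.degree (s27r_star R D) with he
  have he0 : 0 ≤ e := by omega
  set B : Divisor k Fb := s27r_star R D + e • Finsupp.single Q₀ 1 with hB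
  have hBdeg : Divisor.degree B = Divisor.degree D - 1 := by
    rw [hB, map_add, map_zsmul, rt_degree_single h.sepk, smul_eq_mul, mul_one, he]
    ring
  have hsingle : (0 : Divisor k Fb) ≤ Finsupp.single Q₀ 1 := by
    rw [Finsupp.le_def]
    intro v
    rw [Finsupp.zero_apply]
    by_cases hv : v = Q₀
    · subst hv; rw [Finsupp.single_eq_same]; exact zero_le_one
    · rw [Finsupp.single_eq_of_ne (Ne.symm (Ne.symm hv))]
  have hle : s27r_star R D ≤ B := by
    rw [hB]
    exact le_add_of_nonneg_right (zsmul_nonneg hsingle he0)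
  have hML : s27r_M R D ≤ riemannRochSpace B :=
    (s27dv_le_L h.sepk (s27r_M R D) hMne).trans (rt_L_mono hle)
  haveI := rt_L_finite h.sepk B
  have h1 : Module.finrank k ↥(s27r_M R D) ≤ Module.finrank k ↥(riemannRochSpace B) :=
    Submodule.finrank_mono hML
  have h2 : (gK : ℤ) ≤ s27r_c1 hnum := le_max_left _ _
  have h3 : Divisor.degree A₀ + gk + 1 ≤ s27r_c1 hnum := le_max_right _ _
  have h4 := s27h_riemann_eq h.sepk hnum.hgk1 hnum.hA₀ (D := B) (by rw [hBdeg]; linarith)
  have h5 := hnum.hgK.1 D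
  have h6 := s27r_finrank_M R h hdim D
  have h7 : (gK : ℤ) ≤ gk := by exact_mod_cast hnum.hle
  have h8 : (Module.finrank k ↥(s27r_M R D) : ℤ) ≤ Module.finrank k ↥(riemannRochSpace B) := by
    exact_mod_cast h1
  rw [h6, h4, hBdeg] at h8
  linarith

/-- **(4.2)** superadditivity. -/
theorem s27r_star_add_le {D E : Divisor K F} (hD : s27r_c1 hnum ≤ Divisor.degree D)
    (hE : s27r_c1 hnum ≤ Divisor.degree E) :
    s27r_star R D + s27r_star R E ≤ s27r_star R (D + E) := by
  haveI := s27r_M_finite R h hdim D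
  haveI := s27r_M_finite R h hdim E
  haveI := s27r_M_finite R h hdim (D + E)
  have hDE : s27r_c1 hnum ≤ Divisor.degree (D + E) := by
    rw [map_add]
    have := s27r_c1_nonneg hnum
    linarith
  exact s27dv_mul_le h.sepk (s27r_M_ne_bot' R h hdim hnum hD) (s27r_M_ne_bot' R h hdim hnum hE)
    (s27r_M_ne_bot' R h hdim hnum hDE) (fun f hf f' hf' => s27r_M_mul R hf hf')

/-- **(4.6)** monotonicity. -/
theorem s27r_star_mono {D D' : Divisor K F} (hD : s27r_c1 hnum ≤ Divisor.degree D)
    (hDD : D ≤ D') : s27r_star R D ≤ s27r_star R D' := by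
  haveI := s27r_M_finite R h hdim D
  haveI := s27r_M_finite R h hdim D'
  have hD' : s27r_c1 hnum ≤ Divisor.degree D' := hD.trans (rt_degree_mono h.sepK hDD)
  exact s27dv_mono h.sepk (s27r_M_ne_bot' R h hdim hnum hD) (s27r_M_ne_bot' R h hdim hnum hD')
    (s27r_M_mono R h hDD)

variable (hpole : s27r_HPole R h)

include hpole

/-- **(4.3)** the multiples of the pole divisor of `x`. -/
theorem s27r_star_pole_le {m : ℕ}
    (hm : s27r_c1 hnum ≤ Divisor.degree (m • rt_poleDiv h.sepK x)) :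
    s27r_star R (m • rt_poleDiv h.sepK x) ≤ m • rt_poleDiv h.sepk (R.r ⟨x, h.x_mem⟩) := by
  haveI := s27r_M_finite R h hdim (m • rt_poleDiv h.sepK x)
  exact (s27dv_le_iff h.sepk _ (s27r_M_ne_bot' R h hdim hnum hm) _).1 (hpole m)

/-- **(4.4)** `deg D* = deg D`. -/
theorem s27r_degree_star {D : Divisor K F} (hD : s27r_c1 hnum ≤ Divisor.degree D) :
    Divisor.degree (s27r_star R D) = Divisor.degree D := by
  apply le_antisymm _ (s27r_degree_le_star R h hdim hnum hD)
  have hxK := h.sepK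
  have hxk := h.sepk
  haveI : FiniteDimensional K⟮x⟯ F := hxK.2.1
  set n := Module.finrank K⟮x⟯ F with hn
  have hnpos : 0 < n := Module.finrank_pos
  have hdK : Divisor.degree (rt_poleDiv hxK x) = n := rt_degree_poleDiv hxK hxK.1
  have hdk : Divisor.degree (rt_poleDiv hxk (R.r ⟨x, h.x_mem⟩)) = n := by
    rw [rt_degree_poleDiv hxk hxk.1, ← h.deg_eq]
  -- choose `m` with `m n - deg D ≥ c₁`
  obtain ⟨m, hm⟩ : ∃ m : ℕ, s27r_c1 hnum + Divisor.degree D ≤ (m : ℤ) * n := by
    refine ⟨(s27r_c1 hnum + Divisor.degree D).toNat, ?_⟩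
    have h1 : s27r_c1 hnum + Divisor.degree D ≤ ((s27r_c1 hnum + Divisor.degree D).toNat : ℤ) :=
      Int.self_le_toNat _
    have h2 : (1 : ℤ) ≤ n := by exact_mod_cast hnpos
    have h3 : (0 : ℤ) ≤ ((s27r_c1 hnum + Divisor.degree D).toNat : ℤ) := Int.natCast_nonneg _
    nlinarith
  set D' : Divisor K F := m • rt_poleDiv hxK x - D with hD'
  have hsum : D + D' = m • rt_poleDiv hxK x := by rw [hD']; abel
  have hdm : Divisor.degree (m • rt_poleDiv hxK x) = (m : ℤ) * n := by
    rw [map_nsmul, hdK, nsmul_eq_mul]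
  have hdD' : Divisor.degree D' = (m : ℤ) * n - Divisor.degree D := by
    rw [hD', map_sub, hdm]
  have hD'c : s27r_c1 hnum ≤ Divisor.degree D' := by rw [hdD']; linarith
  have hmc : s27r_c1 hnum ≤ Divisor.degree (m • rt_poleDiv hxK x) := by
    rw [hdm]
    have := s27r_c1_nonneg hnum
    linarith
  have e1 := s27r_star_add_le R h hdim hnum hD hD'c
  rw [hsum] at e1
  have e2 := s27r_star_pole_le R h hdim hnum hpole hmc
  have e3 := rt_degree_mono hxk (e1.trans e2)
  rw [map_add, map_nsmul, hdk, nsmul_eq_mul] at e3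
  have e4 := s27r_degree_le_star R h hdim hnum hD'c
  rw [hdD'] at e4
  linarith

/-- **(4.5)** additivity. -/
theorem s27r_star_add {D E : Divisor K F} (hD : s27r_c1 hnum ≤ Divisor.degree D)
    (hE : s27r_c1 hnum ≤ Divisor.degree E) :
    s27r_star R (D + E) = s27r_star R D + s27r_star R E := by
  have hDE : s27r_c1 hnum ≤ Divisor.degree (D + E) := by
    rw [map_add]
    have := s27r_c1_nonneg hnum
    linarith
  have hle := s27r_star_add_le R h hdim hnum hD hE
  by_contra hne
  have hlt := rt_degree_lt_of_lt h.sepk hle (Ne.symm hne)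
  rw [map_add, s27r_degree_star R h hdim hnum hpole hD, s27r_degree_star R h hdim hnum hpole hE,
    s27r_degree_star R h hdim hnum hpole hDE, map_add] at hlt
  exact lt_irrefl _ hlt

end Fermat.Agent.S27
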