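/-
S27 / (RED) cell R2': the hypothesis `s27r_HDim R` of the main reduction theorem, from (GOOD).
-/
import Mathlib
import Fermat.Agent.S27.Red.Star
import Fermat.Agent.S27.Red.LinRedG

set_option autoImplicit false

namespace Fermat.Agent.S27

open Module

universe u v u' v'
variable {K : Type u} {F : Type v} [Field K] [Field F] [Algebra K F]
variable {k : Type u'} {Fb : Type v'} [Field k] [Field Fb] [Algebra k Fb]

/-- **(R2')** reduction preserves finiteness and dimension of every finite-dimensional space. -/
theorem s27l_hdim (R : s27r_Red K F k Fb) {x : F} (h : s27r_Good R x) : s27r_HDim R := by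
  intro L hL
  have heq := s27l_finrank_redSub R h L
  refine ⟨?_, heq⟩
  by_cases h0 : finrank K L = 0
  · have hbot : L = ⊥ := Submodule.finrank_eq_zero.1 h0
    have : s27r_redSub R L = ⊥ := by
      rw [Submodule.eq_bot_iff]
      rintro y ⟨f, hfV, hfL, rfl⟩
      rw [hbot, Submodule.mem_bot] at hfL
      have : (⟨f, hfV⟩ : R.V) = 0 := Subtype.ext hfL
      rw [this, map_zero]
    rw [this]
    infer_instance
  · exact Module.finite_of_finrank_pos (by omega)

end Fermat.Agent.S27
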