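import Mathlib
import Fermat.Agent.JT3.Riemann.Main

/-!
# S27 / (RED), Step 6 (combinatorial part)

A map `star : Div(F/K) → Div(Fb/k)` which, on divisors of degree `≥ c₁`, is additive, monotone and
degree preserving, is `A ↦ star A + (mapDomain red) E` on `A + E`, `E ≥ 0`, for a unique map
`red` on places.

* `s27r_eq_single_of_nonneg_of_degree_one` : an effective divisor of degree one is a place;
* `s27r_star_comb` : the statement above.
-/

set_option autoImplicit false

namespace Fermat.Agent.S27

open AlgebraicCurve IntermediateField Polynomial Fermat.Agent.JT3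

universe u v u' v'
variable {K : Type u} {F : Type v} [Field K] [Field F] [Algebra K F]
variable {k : Type u'} {Fb : Type v'} [Field k] [Field Fb] [Algebra k Fb]

section single

variable [IsAlgClosed k] {xb : Fb} (hxk : rt_IsSepGen k xb)

include hxk

/-- An effective divisor of degree `0` is `0`. -/
theorem s27r_eq_zero_of_nonneg_of_degree_zero {E : Divisor k Fb} (hE : 0 ≤ E)
    (hdeg : Divisor.degree E = 0) : E = 0 := by
  by_contra hne
  have := rt_degree_lt_of_lt hxk hE (Ne.symm hne)
  rw [map_zero, hdeg] at this
  exact lt_irrefl _ this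

/-- An effective divisor of degree one is a single place. -/
theorem s27r_eq_single_of_nonneg_of_degree_one {E : Divisor k Fb} (hE : 0 ≤ E)
    (hdeg : Divisor.degree E = 1) : ∃ Q : Place k Fb, E = Finsupp.single Q 1 := by
  classical
  have hne : E ≠ 0 := by
    rintro rfl
    rw [map_zero] at hdeg
    exact zero_ne_one hdeg
  obtain ⟨Q, hQ⟩ := Finsupp.support_nonempty_iff.2 hne
  have hQ0 : E Q ≠ 0 := Finsupp.mem_support_iff.1 hQ
  have hQ1 : 1 ≤ E Q := by
    have := Finsupp.le_def.1 hE Q
    rw [Finsupp.zero_apply] at this
    omega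
  refine ⟨Q, ?_⟩
  have hle : Finsupp.single Q 1 ≤ E := by
    rw [Finsupp.le_def]
    intro v
    by_cases hv : v = Q
    · subst hv
      rw [Finsupp.single_eq_same]
      exact hQ1
    · rw [Finsupp.single_eq_of_ne (Ne.symm (Ne.symm hv))]
      exact Finsupp.le_def.1 hE v
  have h0 : 0 ≤ E - Finsupp.single Q 1 := sub_nonneg.2 hle
  have hd : Divisor.degree (E - Finsupp.single Q 1) = 0 := by
    rw [map_sub, hdeg, rt_degree_single hxk]
    norm_num
  have := s27r_eq_zero_of_nonneg_of_degree_zero hxk h0 hd
  exact (sub_eq_zero.1 this)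

end single

section comb

variable [IsAlgClosed K] [IsAlgClosed k] {x : F} (hxK : rt_IsSepGen K x) {xb : Fb}
  (hxk : rt_IsSepGen k xb)

include hxK hxk

/-- **The combinatorial core of Step 6.** -/
theorem s27r_star_comb (star : Divisor K F → Divisor k Fb) (c₁ : ℤ)
    (hadd : ∀ D E, c₁ ≤ Divisor.degree D → c₁ ≤ Divisor.degree E →
      star (D + E) = star D + star E)
    (hmono : ∀ D D', c₁ ≤ Divisor.degree D → D ≤ D' → star D ≤ star D')
    (hdeg : ∀ D, c₁ ≤ Divisor.degree D → Divisor.degree (star D) = Divisor.degree D)
    (A₁ : Divisor K F) (hA₁ : c₁ ≤ Divisor.degree A₁) :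
    ∃ red : Place K F → Place k Fb, ∀ A E, c₁ ≤ Divisor.degree A → 0 ≤ E →
      star (A + E) = star A + Finsupp.mapDomain red E := by
  classical
  -- the image of one place
  have hone : ∀ P : Place K F, ∃ Q : Place k Fb,
      star (A₁ + Finsupp.single P 1) = star A₁ + Finsupp.single Q 1 := by
    intro P
    have hle : A₁ ≤ A₁ + Finsupp.single P 1 := by
      rw [le_add_iff_nonneg_right, Finsupp.le_def]
      intro v
      rw [Finsupp.zero_apply]
      by_cases hv : v = P
      · subst hv; rw [Finsupp.single_eq_same]; exact zero_le_one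
      · rw [Finsupp.single_eq_of_ne (Ne.symm (Ne.symm hv))]
    have hd1 : Divisor.degree (A₁ + Finsupp.single P 1) = Divisor.degree A₁ + 1 := by
      rw [map_add, rt_degree_single hxK]
    have h1 := hmono A₁ _ hA₁ hle
    have h2 := hdeg A₁ hA₁
    have h3 := hdeg (A₁ + Finsupp.single P 1) (by rw [hd1]; linarith)
    have h0 : 0 ≤ star (A₁ + Finsupp.single P 1) - star A₁ := sub_nonneg.2 h1
    have hd : Divisor.degree (star (A₁ + Finsupp.single P 1) - star A₁) = 1 := by
      rw [map_sub, h3, h2, hd1]; ring
    obtain ⟨Q, hQ⟩ := s27r_eq_single_of_nonneg_of_degree_one hxk h0 hd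
    exact ⟨Q, by rw [← hQ]; abel⟩
  choose red hred using hone
  refine ⟨red, ?_⟩
  -- one place on top of an arbitrary large divisor
  have hstep : ∀ A P, c₁ ≤ Divisor.degree A →
      star (A + Finsupp.single P 1) = star A + Finsupp.single (red P) 1 := by
    intro A P hA
    have hd1 : Divisor.degree (A + Finsupp.single P 1) = Divisor.degree A + 1 := by
      rw [map_add, rt_degree_single hxK]
    have hd2 : Divisor.degree (A₁ + Finsupp.single P 1) = Divisor.degree A₁ + 1 := by
      rw [map_add, rt_degree_single hxK]
    have e1 := hadd (A + Finsupp.single P 1) A₁ (by rw [hd1]; linarith) hA₁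
    have e2 := hadd A (A₁ + Finsupp.single P 1) hA (by rw [hd2]; linarith)
    have e3 : A + Finsupp.single P 1 + A₁ = A + (A₁ + Finsupp.single P 1) := by abel
    rw [e3, e2, hred P] at e1
    have : star (A + Finsupp.single P 1) + star A₁
        = star A + Finsupp.single (red P) 1 + star A₁ := by
      rw [← e1]; abel
    exact add_right_cancel this
  -- induction on the degree of `E`
  have key : ∀ n : ℕ, ∀ A E, c₁ ≤ Divisor.degree A → 0 ≤ E → Divisor.degree E = n →
      star (A + E) = star A + Finsupp.mapDomain red E := by
    intro n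
    induction n with
    | zero =>
      intro A E hA hE hn
      have : E = 0 := s27r_eq_zero_of_nonneg_of_degree_zero hxK hE (by simpa using hn)
      subst this
      simp
    | succ n ih =>
      intro A E hA hE hn
      have hne : E ≠ 0 := by
        rintro rfl
        rw [map_zero] at hn
        have : (0 : ℤ) < ((n + 1 : ℕ) : ℤ) := by exact_mod_cast Nat.succ_pos n
        omega
      obtain ⟨P, hP⟩ := Finsupp.support_nonempty_iff.2 hne
      have hP0 : E P ≠ 0 := Finsupp.mem_support_iff.1 hP
      have hP1 : 1 ≤ E P := by
        have := Finsupp.le_def.1 hE P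
        rw [Finsupp.zero_apply] at this
        omega
      have hle : Finsupp.single P 1 ≤ E := by
        rw [Finsupp.le_def]
        intro v
        by_cases hv : v = P
        · subst hv
          rw [Finsupp.single_eq_same]
          exact hP1
        · rw [Finsupp.single_eq_of_ne (Ne.symm (Ne.symm hv))]
          exact Finsupp.le_def.1 hE v
      set E' := E - Finsupp.single P 1 with hE'
      have hE'0 : 0 ≤ E' := sub_nonneg.2 hle
      have hE'd : Divisor.degree E' = n := by
        rw [hE', map_sub, hn, rt_degree_single hxK]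
        push_cast
        ring
      have hEeq : E = E' + Finsupp.single P 1 := by rw [hE']; abel
      have hA' : c₁ ≤ Divisor.degree (A + E') := by
        rw [map_add]
        have := rt_degree_nonneg hxK hE'0
        linarith
      have e1 : A + E = (A + E') + Finsupp.single P 1 := by rw [hEeq]; abel
      rw [e1, hstep (A + E') P hA', ih A E' hA hE'0 hE'd]
      conv_rhs => rw [hEeq, Finsupp.mapDomain_add, Finsupp.mapDomain_single]
      abel
  intro A E hA hE
  have hnn := rt_degree_nonneg hxK hE
  exact key (Divisor.degree E).toNat A E hA hE (Int.toNat_of_nonneg hnn).symm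

end comb

end Fermat.Agent.S27
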