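import Mathlib
import Fermat.Agent.S27.Red.Star
import Fermat.Agent.S27.Red.StarComb

/-!
# S27 / (RED), Steps 4.7 + 6: the reduction map on places

With the inputs `hdim` (cell R2) and `hpole` (cell R4):

* `s27r_star_add_div` : `(D + div u)* = D* + div (r u)` for units `u` of `V`;
* `s27r_red_of` : there is a SURJECTIVE map `red : Place K F → Place k Fb` with
  `mapDomain red (div f) = div (r f)` for every `f ∈ V` with `r f ≠ 0`.
-/

set_option autoImplicit false
set_option linter.unusedSectionVars false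
set_option linter.style.haveILetI false

namespace Fermat.Agent.S27

open AlgebraicCurve IntermediateField Polynomial Fermat.Agent.JT3 WithZero

universe u v u' v'
variable {K : Type u} {F : Type v} [Field K] [Field F] [Algebra K F]
variable {k : Type u'} {Fb : Type v'} [Field k] [Field Fb] [Algebra k Fb]
variable [IsAlgClosed K] [IsAlgClosed k]
variable (R : s27r_Red K F k Fb) {x : F} (h : s27r_Good R x)

/-- `red L(D + div u) = (r u)⁻¹ · red L(D)` for a unit `u` of `V`. -/
theorem s27r_M_add_div (D : Divisor K F) (u : R.V) (hu : IsUnit u) :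
    s27r_M R (D + rt_div h.sepK (u : F)) = s27dv_smulSub (R.r u)⁻¹ (s27r_M R D) := by
  have hu' := (R.isUnit_iff u).1 hu
  have hru : R.r u ≠ 0 := (R.r_ne_zero_iff u).2 hu
  ext y
  rw [s27dv_mem_smulSub]
  constructor
  · rintro ⟨f, hf, hfL, rfl⟩
    have hfu : f * (u : F) ∈ riemannRochSpace D :=
      (rt_mem_L_add_div_iff h.sepK D hu'.1).1 hfL
    refine ⟨R.r (⟨f, hf⟩ * u), ⟨f * (u : F), R.V.mul_mem _ _ hf u.2, hfu, rfl⟩, ?_⟩
    rw [map_mul]
    field_simp
  · rintro ⟨z, ⟨g, hg, hgL, rfl⟩, rfl⟩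
    have hmem : g * (u : F)⁻¹ ∈ R.V := R.V.mul_mem _ _ hg hu'.2
    refine ⟨g * (u : F)⁻¹, hmem, ?_, ?_⟩
    · rw [rt_mem_L_add_div_iff h.sepK D hu'.1, mul_assoc, inv_mul_cancel₀ hu'.1, mul_one]
      exact hgL
    · have hid : (⟨g * (u : F)⁻¹, hmem⟩ : R.V) * u = ⟨g, hg⟩ := by
        apply Subtype.ext
        show g * (u : F)⁻¹ * (u : F) = g
        rw [mul_assoc, inv_mul_cancel₀ hu'.1, mul_one]
      have := congrArg R.r hid
      rw [map_mul] at this
      rw [← this]
      field_simp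

variable (hdim : s27r_HDim R) {gK gk : ℕ} {A₀ : Divisor k Fb}
  (hnum : s27r_Num (K := K) (F := F) gK gk A₀)

include hdim hnum

/-- **(4.7)** `(D + div u)* = D* + div (r u)`. -/
theorem s27r_star_add_div {D : Divisor K F} (hD : s27r_c1 hnum ≤ Divisor.degree D)
    (u : R.V) (hu : IsUnit u) :
    s27r_star R (D + rt_div h.sepK (u : F)) = s27r_star R D + rt_div h.sepk (R.r u) := by
  haveI := s27r_M_finite R h hdim D
  have hru : R.r u ≠ 0 := (R.r_ne_zero_iff u).2 hu
  have hMne := s27r_M_ne_bot' R h hdim hnum hD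
  have e := s27dv_smul h.sepk (inv_ne_zero hru) (s27r_M R D) hMne
  rw [s27r_star, s27r_M_add_div R h D u hu, e, rt_div_inv, sub_neg_eq_add]
  rfl

variable (hpole : s27r_HPole R h)

include hpole

/-- **(RED), from the inputs of cells R2 and R4.** -/
theorem s27r_red_of_aux :
    ∃ red : Place K F → Place k Fb, Function.Surjective red ∧
      ∀ (f : F) (hf : f ∈ R.V), R.r ⟨f, hf⟩ ≠ 0 →
        Finsupp.mapDomain red (rt_div h.sepK f) = rt_div h.sepk (R.r ⟨f, hf⟩) := by
  classical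
  have hxK := h.sepK
  have hxk := h.sepk
  obtain ⟨P₀⟩ := s27gen_nonempty_place hxK
  set c₁ := s27r_c1 hnum with hc₁
  set A₁ : Divisor K F := c₁ • Finsupp.single P₀ 1 with hA₁
  have hA₁d : c₁ ≤ Divisor.degree A₁ := by
    rw [hA₁, map_zsmul, rt_degree_single hxK, smul_eq_mul, mul_one]
  obtain ⟨red, hred⟩ := s27r_star_comb hxK hxk (s27r_star R) c₁
    (fun D E hD hE => s27r_star_add R h hdim hnum hpole hD hE)
    (fun D D' hD hDD => s27r_star_mono R h hdim hnum hD hDD)
    (fun D hD => s27r_degree_star R h hdim hnum hpole hD) A₁ hA₁d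
  -- the divisor formula
  have hdiv : ∀ (f : F) (hf : f ∈ R.V), R.r ⟨f, hf⟩ ≠ 0 →
      Finsupp.mapDomain red (rt_div hxK f) = rt_div hxk (R.r ⟨f, hf⟩) := by
    intro f hf hrf
    have hu : IsUnit (⟨f, hf⟩ : R.V) := (R.r_ne_zero_iff _).1 hrf
    have hZ := rt_zeroDiv_nonneg hxK f
    have hP := rt_poleDiv_nonneg hxK f
    have hdP : c₁ ≤ Divisor.degree (A₁ + rt_poleDiv hxK f) := by
      rw [map_add]
      have := rt_degree_nonneg hxK hP
      linarith
    have e1 := s27r_star_add_div R h hdim hnum hdP ⟨f, hf⟩ hu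
    have e2 : A₁ + rt_poleDiv hxK f + rt_div hxK f = A₁ + rt_zeroDiv hxK f := by
      rw [rt_div_eq_sub]; abel
    have e3 := hred A₁ (rt_zeroDiv hxK f) hA₁d hZ
    have e4 := hred A₁ (rt_poleDiv hxK f) hA₁d hP
    have e5 : ((⟨f, hf⟩ : R.V) : F) = f := rfl
    rw [e5, e2, e3, e4] at e1
    have e6 : Finsupp.mapDomain red (rt_zeroDiv hxK f)
        = Finsupp.mapDomain red (rt_poleDiv hxK f) + rt_div hxk (R.r ⟨f, hf⟩) := by
      have := add_left_cancel (a := s27r_star R A₁) (by rw [e1]; abel :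
        s27r_star R A₁ + Finsupp.mapDomain red (rt_zeroDiv hxK f) =
          s27r_star R A₁ + (Finsupp.mapDomain red (rt_poleDiv hxK f) +
            rt_div hxk (R.r ⟨f, hf⟩)))
      exact this
    have e7 : Finsupp.mapDomain red (rt_div hxK f)
        = Finsupp.mapDomain red (rt_zeroDiv hxK f) - Finsupp.mapDomain red (rt_poleDiv hxK f) := by
      rw [rt_div_eq_sub]
      exact map_sub (Finsupp.mapDomain.addMonoidHom red) _ _
    rw [e7, e6]
    abel
  refine ⟨red, ?_, hdiv⟩
  -- surjectivity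
  intro Q
  by_contra hQ
  have hQ' : Q ∉ Set.range red := fun ⟨P, hP⟩ => hQ ⟨P, hP⟩
  obtain ⟨tb, htb0, htb⟩ := rt_exists_ord_eq_one (K := k) Q
  obtain ⟨t, ht⟩ := R.r_surj tb
  have hrt : R.r ⟨(t : F), t.2⟩ ≠ 0 := by
    have : (⟨(t : F), t.2⟩ : R.V) = t := rfl
    rw [this, ht]
    exact htb0
  have e := hdiv (t : F) t.2 hrt
  have e' := DFunLike.congr_fun e Q
  rw [Finsupp.mapDomain_of_notMem_range _ _ hQ', rt_div_apply] at e'
  have : (⟨(t : F), t.2⟩ : R.V) = t := rfl
  rw [this, ht, htb] at e'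
  exact zero_ne_one e'

omit hnum in
/-- **(RED), from the inputs `hdim` (cell R2) and `hpole` (cell R4).** -/
theorem s27r_red_of :
    ∃ red : Place K F → Place k Fb, Function.Surjective red ∧
      ∀ (f : F) (hf : f ∈ R.V), R.r ⟨f, hf⟩ ≠ 0 →
        Finsupp.mapDomain red (rt_div h.sepK f) = rt_div h.sepk (R.r ⟨f, hf⟩) := by
  obtain ⟨gK, gk, A₀, hnum⟩ := s27r_exists_num (K := K) (F := F) R h
  exact s27r_red_of_aux R h hdim hnum hpole

end Fermat.Agent.S27
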