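/-
Project S27, cell (RED) R4 (helper1): REDUCTION OF `L(m (x)∞)` (Step 5 of helper12's #4295).
Prefix `s27rp_`.  Namespace `Fermat.Agent.S27`.

`R : s27r_Red K F k Fb` a constant reduction, `x ∈ V` good (`s27r_Good R x`).  With the two outputs of
cell R1 as hypotheses,

  `hgauss : ∀ p : K[X], aeval x p ∈ V → ∀ i, p.coeff i ∈ O`            (`V ∩ K[x] = O[x]`),
  `hint   : every f ∈ V is integral over V1 = V ∩ K(x)`,

we prove INTEGRALITY TRANSFER (`s27rp_red_mem`): `f ∈ V` integral over `K[y]`, `Q` a place of `Fb` at which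
`ȳ` is regular ⟹ `f̄` is regular at `Q`; and the main statement

  `s27rp_red_L_pole : f ∈ L(m (x)∞) ∩ V ⟹ f̄ ∈ L(m (x̄)∞)`,   `s27rp_redSub_le`.
-/
import Mathlib
import Fermat.Agent.S27.Red.Defs

set_option autoImplicit false
set_option linter.unusedSectionVars false
set_option linter.style.haveILetI false
set_option linter.unusedVariables false

noncomputable section

namespace Fermat.Agent.S27

open AlgebraicCurve IntermediateField Polynomial Fermat.Agent.JT3 Fermat.Agent.S24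
open scoped IntermediateField.algebraAdjoinAdjoin

universe u v u' v'
variable {K : Type u} {F : Type v} [Field K] [Field F] [Algebra K F]
variable {k : Type u'} {Fb : Type v'} [Field k] [Field Fb] [Algebra k Fb]

/-! ### roots of monic polynomials over a valuation ring -/

/-- a root of a monic polynomial with coefficients in a valuation ring `A` lies in `A`. -/
theorem s27rp_mem_of_monic_root {L : Type*} [Field L] (A : ValuationSubring L) {p : L[X]}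
    (hp : p.Monic) (hc : ∀ i, p.coeff i ∈ A) {z : L} (hz : p.eval z = 0) : z ∈ A := by
  have hsub : (↑p.coeffs : Set L) ⊆ A.toSubring := by
    intro c hc'
    obtain ⟨i, -, rfl⟩ := Polynomial.mem_coeffs_iff.1 (Finset.mem_coe.1 hc')
    exact hc i
  set q : (↥A.toSubring)[X] := p.toSubring A.toSubring hsub with hq
  have hqm : q.Monic := (Polynomial.monic_toSubring p A.toSubring hsub).2 hp
  have hint : IsIntegral ↥A z := by
    refine ⟨q, hqm, ?_⟩
    have : Polynomial.eval₂ (algebraMap ↥A L) z q = (q.map (Subring.subtype A.toSubring)).eval z := by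
      rw [Polynomial.eval_map]
      rfl
    rw [this, hq, Polynomial.map_toSubring]
    exact hz
  obtain ⟨y, rfl⟩ := IsIntegrallyClosed.isIntegral_iff.1 hint
  exact y.2

/-! ### reduction of polynomial expressions -/

/-- for `p ∈ O[X]` and `y ∈ V` with `ȳ` regular at `Q`: `p(y) ∈ V` and its reduction is regular at
`Q`. -/
theorem s27rp_r_aeval_mem (R : s27r_Red K F k Fb) {y : F} (hyV : y ∈ R.V) (p : K[X])
    (hp : ∀ i, p.coeff i ∈ R.O) (Q : Place k Fb)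
    (hQ : R.r ⟨y, hyV⟩ ∈ Q.toValuationSubring) :
    ∃ h : aeval y p ∈ R.V, R.r ⟨aeval y p, h⟩ ∈ Q.toValuationSubring := by
  set z : ↥R.V := ∑ i ∈ Finset.range (p.natDegree + 1),
    (⟨algebraMap K F (p.coeff i), R.algebraMap_mem (hp i)⟩ : ↥R.V) * (⟨y, hyV⟩ : ↥R.V) ^ i with hz
  have hzc : ((z : ↥R.V) : F) = aeval y p := by
    rw [Polynomial.aeval_eq_sum_range, hz, AddSubmonoidClass.coe_finsetSum]
    refine Finset.sum_congr rfl fun i _ => ?_
    rw [Algebra.smul_def]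
    rfl
  have hmem : aeval y p ∈ R.V := hzc ▸ z.2
  refine ⟨hmem, ?_⟩
  have heq : (⟨aeval y p, hmem⟩ : ↥R.V) = z := Subtype.ext hzc.symm
  rw [heq, hz, map_sum]
  refine Subring.sum_mem _ fun i _ => ?_
  rw [map_mul, map_pow, R.comp _ (hp i)]
  exact Q.toValuationSubring.mul_mem _ _ (Q.algebraMap_mem' _) (pow_mem hQ i)

/-! ### `V ∩ K[x⁻¹] = O[x⁻¹]` from `V ∩ K[x] = O[x]` -/

theorem s27rp_gauss_inv (R : s27r_Red K F k Fb) {x : F} (hx0 : x ≠ 0) (hxV : x ∈ R.V)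
    (hgauss : ∀ p : K[X], aeval x p ∈ R.V → ∀ i, p.coeff i ∈ R.O) :
    ∀ p : K[X], aeval x⁻¹ p ∈ R.V → ∀ i, p.coeff i ∈ R.O := by
  intro p hp i
  letI : Invertible x := invertibleOfNonzero hx0
  set N := p.natDegree with hN
  have hdeg : (reflect N p).natDegree ≤ N := by
    have := natDegree_reflect_le (N := N) (p := p)
    rwa [max_self] at this
  have h3 : eval₂ (algebraMap K F) (⅟x) (reflect N (reflect N p)) * x ^ N =
      eval₂ (algebraMap K F) x (reflect N p) :=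
    eval₂_reflect_mul_pow (algebraMap K F) x N (reflect N p) hdeg
  rw [reflect_reflect, invOf_eq_inv] at h3
  have h4 : aeval x (reflect N p) ∈ R.V := by
    rw [aeval_def, ← h3]
    exact R.V.mul_mem _ _ hp (pow_mem hxV N)
  have h5 := hgauss (reflect N p) h4 (revAt N i)
  rwa [coeff_reflect, revAt_invol] at h5

/-! ### the minimal polynomial of an element of `V` integral over `K[y]` -/

section minpoly

variable (R : s27r_Red K F k Fb) {y : F} (hy : Transcendental K y)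
  (hgauss : ∀ p : K[X], aeval y p ∈ R.V → ∀ i, p.coeff i ∈ R.O)
  (hint : ∀ f ∈ R.V, ((algebraMap ↥K⟮y⟯ F).comp
    (R.V.comap (algebraMap ↥K⟮y⟯ F)).subtype).IsIntegralElem f)

include hy hgauss hint in
/-- `f ∈ V` integral over `K[y]` is a root of a monic polynomial with coefficients in `O[y]`. -/
theorem s27rp_minpoly_coeff {f : F} (hfV : f ∈ R.V)
    (hfint : IsIntegral (Algebra.adjoin K ({y} : Set F)) f) :
    ∃ μ : F[X], μ.Monic ∧ μ.eval f = 0 ∧
      ∀ i, ∃ α : K[X], (∀ j, α.coeff j ∈ R.O) ∧ μ.coeff i = aeval y α := by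
  have hP1 := hw_isPrincipalIdealRing_adjoin hy
  have hfint' : IsIntegral ↥K⟮y⟯ f := hfint.tower_top (A := ↥K⟮y⟯)
  have e1 : minpoly ↥K⟮y⟯ f =
      (minpoly (Algebra.adjoin K ({y} : Set F)) f).map
        (algebraMap (Algebra.adjoin K ({y} : Set F)) ↥K⟮y⟯) :=
    minpoly.isIntegrallyClosed_eq_field_fractions' ↥K⟮y⟯ hfint
  refine ⟨(minpoly ↥K⟮y⟯ f).map (algebraMap ↥K⟮y⟯ F), (minpoly.monic hfint').map _, ?_, fun i => ?_⟩
  · rw [Polynomial.eval_map, ← Polynomial.aeval_def, minpoly.aeval]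
  -- (a) the coefficient is a polynomial in `y`
  have ha : ∃ α : K[X], algebraMap ↥K⟮y⟯ F ((minpoly ↥K⟮y⟯ f).coeff i) = aeval y α := by
    have hmem : algebraMap ↥K⟮y⟯ F ((minpoly ↥K⟮y⟯ f).coeff i) ∈
        Algebra.adjoin K ({y} : Set F) := by
      rw [e1, coeff_map]
      exact ((minpoly (Algebra.adjoin K ({y} : Set F)) f).coeff i).2
    rw [Algebra.adjoin_singleton_eq_range_aeval] at hmem
    obtain ⟨α, hα⟩ := hmem
    exact ⟨α, hα.symm⟩
  obtain ⟨α, hα⟩ := ha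
  -- (b) the coefficient lies in `V`
  have hb : algebraMap ↥K⟮y⟯ F ((minpoly ↥K⟮y⟯ f).coeff i) ∈ R.V := by
    obtain ⟨P1, hP1m, hP1e⟩ := hint f hfV
    have hdvd : minpoly ↥K⟮y⟯ f ∣
        P1.map (algebraMap ↥(R.V.comap (algebraMap ↥K⟮y⟯ F)) ↥K⟮y⟯) := by
      apply minpoly.dvd
      rw [Polynomial.aeval_def, Polynomial.eval₂_map]
      exact hP1e
    obtain ⟨g', hg'⟩ := IsIntegrallyClosed.eq_map_mul_C_of_dvd ↥K⟮y⟯ hP1m hdvd
    rw [(minpoly.monic hfint').leadingCoeff, map_one, mul_one] at hg'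
    rw [← hg', coeff_map]
    exact (g'.coeff i).2
  refine ⟨α, hgauss α (hα ▸ hb), ?_⟩
  rw [coeff_map, hα]

include hy hgauss hint in
/-- **INTEGRALITY TRANSFER**: `f ∈ V` integral over `K[y]`, `ȳ` regular at `Q` ⟹ `f̄` regular at
`Q`. -/
theorem s27rp_red_mem (hyV : y ∈ R.V) {f : F} (hfV : f ∈ R.V)
    (hfint : IsIntegral (Algebra.adjoin K ({y} : Set F)) f) (Q : Place k Fb)
    (hQ : R.r ⟨y, hyV⟩ ∈ Q.toValuationSubring) :
    R.r ⟨f, hfV⟩ ∈ Q.toValuationSubring := by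
  obtain ⟨μ, hμm, hμe, hμc⟩ := s27rp_minpoly_coeff R hy hgauss hint hfV hfint
  have hcV : ∀ i, μ.coeff i ∈ R.V := by
    intro i
    obtain ⟨α, hαO, hα⟩ := hμc i
    obtain ⟨h, -⟩ := s27rp_r_aeval_mem R hyV α hαO Q hQ
    rw [hα]
    exact h
  have hsub : (↑μ.coeffs : Set F) ⊆ R.V.toSubring := by
    intro c hc'
    obtain ⟨i, -, rfl⟩ := Polynomial.mem_coeffs_iff.1 (Finset.mem_coe.1 hc')
    exact hcV i
  set μV : (↥R.V.toSubring)[X] := μ.toSubring R.V.toSubring hsub with hμV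
  have hμVm : μV.Monic := (Polynomial.monic_toSubring μ R.V.toSubring hsub).2 hμm
  -- `μV(f) = 0` in `V`
  have h0 : μV.eval (⟨f, hfV⟩ : ↥R.V.toSubring) = 0 := by
    apply Subtype.ext
    have h1 : ((μV.eval (⟨f, hfV⟩ : ↥R.V.toSubring) : ↥R.V.toSubring) : F) =
        (μV.map (Subring.subtype R.V.toSubring)).eval f := by
      rw [Polynomial.eval_map]
      exact (Polynomial.eval₂_at_apply (Subring.subtype R.V.toSubring) ⟨f, hfV⟩).symm
    rw [h1, hμV, Polynomial.map_toSubring, hμe]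
    rfl
  -- reduce
  have hr : (μV.map R.r).eval (R.r ⟨f, hfV⟩) = 0 := by
    rw [Polynomial.eval_map]
    have h2 := Polynomial.eval₂_at_apply (p := μV) R.r (⟨f, hfV⟩ : ↥R.V)
    rw [h2]
    have h3 : μV.eval (⟨f, hfV⟩ : ↥R.V) = 0 := h0
    rw [h3, map_zero]
  refine s27rp_mem_of_monic_root Q.toValuationSubring (hμVm.map R.r) (fun i => ?_) hr
  rw [coeff_map]
  obtain ⟨α, hαO, hα⟩ := hμc i
  obtain ⟨h, hmemQ⟩ := s27rp_r_aeval_mem R hyV α hαO Q hQ
  have heq : μV.coeff i = (⟨aeval y α, h⟩ : ↥R.V) := by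
    apply Subtype.ext
    rw [hμV, Polynomial.coeff_toSubring, hα]
  rw [heq]
  exact hmemQ

end minpoly

/-! ### the main statement -/

section main

variable [IsAlgClosed K] [IsAlgClosed k] (R : s27r_Red K F k Fb) {x : F} (h : s27r_Good R x)
  (hgauss : ∀ p : K[X], aeval x p ∈ R.V → ∀ i, p.coeff i ∈ R.O)
  (hint : ∀ L : IntermediateField K F, L = K⟮x⟯ → ∀ f ∈ R.V,
    ((algebraMap ↥L F).comp (R.V.comap (algebraMap ↥L F)).subtype).IsIntegralElem f)

include h in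
/-- `x` is a unit of `V`. -/
theorem s27rp_x_unit : x ≠ 0 ∧ x⁻¹ ∈ R.V := by
  have hxb : R.r ⟨x, h.x_mem⟩ ≠ 0 := by
    intro h0
    exact h.sepk.1 (h0 ▸ isAlgebraic_zero)
  exact (R.isUnit_iff _).1 ((R.r_ne_zero_iff _).1 hxb)

include h in
theorem s27rp_r_inv (hxi : x⁻¹ ∈ R.V) : R.r ⟨x⁻¹, hxi⟩ = (R.r ⟨x, h.x_mem⟩)⁻¹ := by
  have hx0 := (s27rp_x_unit R h).1
  have h1 : (⟨x, h.x_mem⟩ : ↥R.V) * ⟨x⁻¹, hxi⟩ = 1 := Subtype.ext (mul_inv_cancel₀ hx0)
  have h2 := congrArg R.r h1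
  rw [map_mul, map_one] at h2
  exact eq_inv_of_mul_eq_one_right h2

include h hgauss hint in
/-- **(RED) Step 5**: `f ∈ L(m (x)∞) ∩ V ⟹ f̄ ∈ L(m (x̄)∞)`. -/
theorem s27rp_red_L_pole (m : ℕ) {f : F} (hfV : f ∈ R.V)
    (hfL : f ∈ riemannRochSpace (m • rt_poleDiv h.sepK x)) :
    R.r ⟨f, hfV⟩ ∈ riemannRochSpace (m • rt_poleDiv h.sepk (R.r ⟨x, h.x_mem⟩)) := by
  rcases eq_or_ne (R.r ⟨f, hfV⟩) 0 with hfb0 | hfb0
  · rw [hfb0]; exact zero_mem _
  have hf0 : f ≠ 0 := by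
    rintro rfl
    apply hfb0
    have : (⟨0, hfV⟩ : ↥R.V) = 0 := rfl
    rw [this, map_zero]
  obtain ⟨hx0, hxi⟩ := s27rp_x_unit R h
  have hxb0 : R.r ⟨x, h.x_mem⟩ ≠ 0 := fun h0 => h.sepk.1 (h0 ▸ isAlgebraic_zero)
  have hfL' := (rt_mem_L_iff hf0).1 hfL
  have happ : ∀ v : Place K F, (m • rt_poleDiv h.sepK x) v = m * max (-v.ord x) 0 := by
    intro v
    rw [Finsupp.smul_apply, rt_poleDiv_apply, nsmul_eq_mul]
  -- (i) `f` is integral over `K[x]`
  have hfint : IsIntegral (Algebra.adjoin K ({x} : Set F)) f := by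
    refine rt_isIntegral_of_forall_mem h.sepK f fun v hv => ?_
    rw [hw_mem_iff_ord_nonneg v hf0]
    have h1 := hfL' v
    rw [happ] at h1
    have h2 : 0 ≤ v.ord x := (hw_mem_iff_ord_nonneg v hx0).1 hv
    rw [max_eq_right (by omega)] at h1
    omega
  -- (ii) `g := f / x ^ m` is integral over `K[x⁻¹]`
  set g : F := f * (x⁻¹) ^ m with hg
  have hg0 : g ≠ 0 := mul_ne_zero hf0 (pow_ne_zero _ (inv_ne_zero hx0))
  have hordg : ∀ v : Place K F, v.ord g = v.ord f - m * v.ord x := by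
    intro v
    rw [hg, v.ord_mul hf0 (pow_ne_zero _ (inv_ne_zero hx0)), rt_ord_pow, v.ord_inv]
    ring
  have hgint : IsIntegral (Algebra.adjoin K ({x⁻¹} : Set F)) g := by
    refine rt_isIntegral_of_forall_mem h.sepK.inv g fun v hv => ?_
    rw [hw_mem_iff_ord_nonneg v hg0, hordg]
    have h1 := hfL' v
    rw [happ] at h1
    have h2 : 0 ≤ v.ord x⁻¹ := (hw_mem_iff_ord_nonneg v (inv_ne_zero hx0)).1 hv
    rw [v.ord_inv] at h2
    rw [max_eq_left (by omega)] at h1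
    have : (m : ℤ) * (-v.ord x) = -(m * v.ord x) := by ring
    rw [this] at h1
    omega
  have hgV : g ∈ R.V := R.V.mul_mem _ _ hfV (pow_mem hxi m)
  have hrg : R.r ⟨g, hgV⟩ = R.r ⟨f, hfV⟩ * ((R.r ⟨x, h.x_mem⟩)⁻¹) ^ m := by
    have : (⟨g, hgV⟩ : ↥R.V) = ⟨f, hfV⟩ * (⟨x⁻¹, hxi⟩ : ↥R.V) ^ m := Subtype.ext rfl
    rw [this, map_mul, map_pow, s27rp_r_inv R h hxi]
  -- the two transfers
  have hT1 : ∀ Q : Place k Fb, R.r ⟨x, h.x_mem⟩ ∈ Q.toValuationSubring → R.r ⟨f, hfV⟩ ∈ Q.toValuationSubring :=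
    fun Q hQ => s27rp_red_mem R h.sepK.1 hgauss (hint K⟮x⟯ rfl) h.x_mem hfV hfint Q hQ
  have hT2 : ∀ Q : Place k Fb, (R.r ⟨x, h.x_mem⟩)⁻¹ ∈ Q.toValuationSubring →
      R.r ⟨g, hgV⟩ ∈ Q.toValuationSubring := by
    intro Q hQ
    refine s27rp_red_mem R h.sepK.inv.1 (s27rp_gauss_inv R hx0 h.x_mem hgauss)
      (hint K⟮x⁻¹⟯ (rt_adjoin_inv x)) hxi hgV hgint Q ?_
    rw [s27rp_r_inv R h hxi]
    exact hQ
  -- conclusion
  rw [rt_mem_L_iff hfb0]
  intro Q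
  rw [Finsupp.smul_apply, rt_poleDiv_apply, nsmul_eq_mul]
  by_cases hQ : R.r ⟨x, h.x_mem⟩ ∈ Q.toValuationSubring
  · have h1 := (hw_mem_iff_ord_nonneg Q hfb0).1 (hT1 Q hQ)
    have h2 : (0 : ℤ) ≤ m * max (-Q.ord (R.r ⟨x, h.x_mem⟩)) 0 :=
      mul_nonneg (Int.natCast_nonneg _) (le_max_right _ _)
    omega
  · have hQi : (R.r ⟨x, h.x_mem⟩)⁻¹ ∈ Q.toValuationSubring :=
      (Q.toValuationSubring.mem_or_inv_mem (R.r ⟨x, h.x_mem⟩)).resolve_left hQ
    have hgb0 : R.r ⟨g, hgV⟩ ≠ 0 := by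
      rw [hrg]
      exact mul_ne_zero hfb0 (pow_ne_zero _ (inv_ne_zero hxb0))
    have h1 := (hw_mem_iff_ord_nonneg Q hgb0).1 (hT2 Q hQi)
    rw [hrg, Q.ord_mul hfb0 (pow_ne_zero _ (inv_ne_zero hxb0)), rt_ord_pow, Q.ord_inv] at h1
    have h3 : Q.ord (R.r ⟨x, h.x_mem⟩) < 0 := by
      by_contra hcon
      push Not at hcon
      exact hQ ((hw_mem_iff_ord_nonneg Q hxb0).2 hcon)
    rw [max_eq_left (by omega)]
    have : (m : ℤ) * (-Q.ord (R.r ⟨x, h.x_mem⟩)) = -(m * Q.ord (R.r ⟨x, h.x_mem⟩)) := by ring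
    rw [this]
    have h4 : (m : ℤ) * (-Q.ord (R.r ⟨x, h.x_mem⟩)) = -(m * Q.ord (R.r ⟨x, h.x_mem⟩)) := by ring
    rw [h4] at h1
    omega

include h hgauss hint in
/-- `red L(m (x)∞) ≤ L(m (x̄)∞)`. -/
theorem s27rp_redSub_le (m : ℕ) :
    s27r_redSub R (riemannRochSpace (m • rt_poleDiv h.sepK x)) ≤
      riemannRochSpace (m • rt_poleDiv h.sepk (R.r ⟨x, h.x_mem⟩)) := by
  rintro _ ⟨f, hfV, hfL, rfl⟩
  exact s27rp_red_L_pole R h hgauss hint m hfV hfL

end main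

end Fermat.Agent.S27
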