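/-
Project S27, cell (RED) R4, unconditional form (helper1).  Prefix `s27rp_`.  Namespace `Fermat.Agent.S27`.

The two hypotheses `hgauss`, `hint` of `Red/Pole.lean` are discharged by helper12's R1
(`s27r_aeval_mem_iff`, `s27r_exists_orthoBasis` on the Gauss reduction) and helper5's `s27h_mulMat`
(Cayley–Hamilton for the multiplication matrix in an orthonormal basis):

  `s27rp_redSub_poleDiv_le (h : s27r_Good R x) (m : ℕ) :
      s27r_redSub R L(m (x)∞) ≤ L(m (x̄)∞)`                      [Step 5 / (4.3) of #4295]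
  `s27rp_red_mem_of_integral` : integrality transfer, unconditional.
-/
import Mathlib
import Fermat.Agent.S27.Red.Pole
import Fermat.Agent.S27.Red.Gauss
import Fermat.Agent.S27.Red.OrthoBasis
import Fermat.Agent.S27.Hens.NormRed

set_option autoImplicit false
set_option linter.unusedSectionVars false
set_option linter.style.haveILetI false
set_option linter.unusedVariables false

noncomputable section

namespace Fermat.Agent.S27

open AlgebraicCurve IntermediateField Polynomial Fermat.Agent.JT3 Fermat.Agent.S24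

universe u v u' v'
variable {K : Type u} {F : Type v} [Field K] [Field F] [Algebra K F]
variable {k : Type u'} {Fb : Type v'} [Field k] [Field Fb] [Algebra k Fb]

/-- every `f ∈ V` is integral over `V1 = V ∩ K(x)` (Cayley–Hamilton in an orthonormal basis). -/
theorem s27rp_isIntegralElem (R : s27r_Red K F k Fb) {x : F} (h : s27r_Good R x) {f : F}
    (hf : f ∈ R.V) :
    ((algebraMap ↥K⟮x⟯ F).comp (R.V.comap (algebraMap ↥K⟮x⟯ F)).subtype).IsIntegralElem f := by
  haveI : FiniteDimensional ↥k⟮R.r ⟨x, h.x_mem⟩⟯ Fb := h.sepk.2.1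
  obtain ⟨ω, ωb, hωr, hω, -⟩ :=
    s27r_exists_orthoBasis (s27r_gaussRed R h.x_mem h.sepk.1) h.deg_eq
  have hωV : ∀ i, ω i ∈ R.V := fun i => (hωr i).1
  have hω' : ∀ c : Fin (Module.finrank ↥k⟮R.r ⟨x, h.x_mem⟩⟯ Fb) → ↥K⟮x⟯,
      (∑ i, c i • ω i) ∈ R.V ↔ ∀ i, c i ∈ R.V.comap (algebraMap ↥K⟮x⟯ F) := hω
  set M := s27h_mulMat R.V (R.V.comap (algebraMap ↥K⟮x⟯ F)) ω hωV hω' hf with hM
  refine ⟨M.charpoly, Matrix.charpoly_monic M, ?_⟩
  have h1 : M.charpoly.map (R.V.comap (algebraMap ↥K⟮x⟯ F)).subtype =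
      (Algebra.leftMulMatrix ω f).charpoly := by
    rw [← s27h_mulMat_coe R.V (R.V.comap (algebraMap ↥K⟮x⟯ F)) ω hωV hω' hf]
    exact (Matrix.charpoly_map M _).symm
  have h2 : aeval f (Algebra.leftMulMatrix ω f).charpoly = 0 := by
    apply Algebra.leftMulMatrix_injective ω
    rw [← Polynomial.aeval_algHom_apply, map_zero]
    exact Matrix.aeval_self_charpoly _
  rw [← Polynomial.eval₂_map, h1, ← Polynomial.aeval_def]
  exact h2

theorem s27rp_hint (R : s27r_Red K F k Fb) {x : F} (h : s27r_Good R x) :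
    ∀ L : IntermediateField K F, L = K⟮x⟯ → ∀ f ∈ R.V,
      ((algebraMap ↥L F).comp (R.V.comap (algebraMap ↥L F)).subtype).IsIntegralElem f := by
  rintro L rfl f hf
  exact s27rp_isIntegralElem R h hf

theorem s27rp_hgauss (R : s27r_Red K F k Fb) {x : F} (h : s27r_Good R x) :
    ∀ p : K[X], aeval x p ∈ R.V → ∀ i, p.coeff i ∈ R.O :=
  fun p hp => (s27r_aeval_mem_iff R h.x_mem h.sepk.1 p).1 hp

section main

variable [IsAlgClosed K] [IsAlgClosed k] (R : s27r_Red K F k Fb) {x : F} (h : s27r_Good R x)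

/-- **(RED) Step 5, unconditional**: `f ∈ L(m (x)∞) ∩ V ⟹ f̄ ∈ L(m (x̄)∞)`. -/
theorem s27rp_red_mem_L_poleDiv (m : ℕ) {f : F} (hfV : f ∈ R.V)
    (hfL : f ∈ riemannRochSpace (m • rt_poleDiv h.sepK x)) :
    R.r ⟨f, hfV⟩ ∈ riemannRochSpace (m • rt_poleDiv h.sepk (R.r ⟨x, h.x_mem⟩)) :=
  s27rp_red_L_pole R h (s27rp_hgauss R h) (s27rp_hint R h) m hfV hfL

/-- **`red L(m (x)∞) ≤ L(m (x̄)∞)`** (the key upper bound (4.3) of (RED)). -/
theorem s27rp_redSub_poleDiv_le (m : ℕ) :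
    s27r_redSub R (riemannRochSpace (m • rt_poleDiv h.sepK x)) ≤
      riemannRochSpace (m • rt_poleDiv h.sepk (R.r ⟨x, h.x_mem⟩)) :=
  s27rp_redSub_le R h (s27rp_hgauss R h) (s27rp_hint R h) m

omit [IsAlgClosed K] [IsAlgClosed k] in
/-- **integrality transfer, unconditional**: `f ∈ V` integral over `K[x]` ⟹ `f̄` is regular at
every place of `Fb` at which `x̄` is regular. -/
theorem s27rp_red_mem_of_integral {f : F} (hfV : f ∈ R.V)
    (hfint : IsIntegral (Algebra.adjoin K ({x} : Set F)) f) (Q : Place k Fb)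
    (hQ : R.r ⟨x, h.x_mem⟩ ∈ Q.toValuationSubring) :
    R.r ⟨f, hfV⟩ ∈ Q.toValuationSubring :=
  s27rp_red_mem R h.sepK.1 (s27rp_hgauss R h) (s27rp_hint R h K⟮x⟯ rfl) h.x_mem hfV hfint Q hQ

end main

end Fermat.Agent.S27
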