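import Mathlib
import Fermat.Agent.S27.Red.Main
import Fermat.Agent.S27.Red.PoleMain
import Fermat.Agent.S27.Red.LinRedH
import Fermat.Agent.S27.Red.Cor

/-!
# S27 / (RED): the reduction theorem, unconditional

`R : s27r_Red K F k Fb` a constant reduction, `h : s27r_Good R x` the (GOOD) hypotheses
(`K`, `k` algebraically closed).

* `s27r_red` : there is a SURJECTIVE map `red : Place K F → Place k Fb` with
  `mapDomain red (div f) = div (r f)` for every `f ∈ V` with `r f ≠ 0`
  (cells R1 helper12, R2 helper8, R3 + R4 helper1, R5 helper12);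
* `s27r_hcu` : every `f ≠ 0` is (constant) × (unit of `V`), in the shape consumed by `Red/Cor.lean`;
* `s27r_red_pic0` : the same together with the induced SURJECTIVE homomorphism
  `φ : Pic0 K F →+ Pic0 k Fb`, `φ [D] = [mapDomain red D]` (cell R6 helper5) — the binders
  `(red, hsurj, hdiv, φ, hφ)` of the (HENS) theorem `s27h_hens`.
-/

set_option autoImplicit false

namespace Fermat.Agent.S27

open AlgebraicCurve IntermediateField Polynomial Fermat.Agent.JT3

universe u v u' v'
variable {K : Type u} {F : Type v} [Field K] [Field F] [Algebra K F]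
variable {k : Type u'} {Fb : Type v'} [Field k] [Field Fb] [Algebra k Fb]
variable [IsAlgClosed K] [IsAlgClosed k] (R : s27r_Red K F k Fb) {x : F} (h : s27r_Good R x)

/-- **(RED)**: the reduction map on places. -/
theorem s27r_red :
    ∃ red : Place K F → Place k Fb, Function.Surjective red ∧
      ∀ (f : F) (hf : f ∈ R.V), R.r ⟨f, hf⟩ ≠ 0 →
        Finsupp.mapDomain red (rt_div h.sepK f) = rt_div h.sepk (R.r ⟨f, hf⟩) :=
  s27r_red_of R h (s27l_hdim R h) (s27rp_redSub_poleDiv_le R h)

include h in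
omit [IsAlgClosed K] [IsAlgClosed k] in
/-- `s27r_exists_const_mul_unit` in the shape `hcu` consumed by `Red/Cor.lean`. -/
theorem s27r_hcu : ∀ f : F, f ≠ 0 → ∃ c : K, c ≠ 0 ∧ ∃ (u : F) (hu : u ∈ R.V),
    R.r ⟨u, hu⟩ ≠ 0 ∧ f = algebraMap K F c * u := by
  intro f hf
  obtain ⟨c, u, hc, hu, he⟩ := s27r_exists_const_mul_unit R h hf
  exact ⟨c, hc, (u : F), u.2, (R.r_ne_zero_iff u).2 hu, he⟩

/-- **(RED), packaged**: the reduction map on places together with the induced surjective
homomorphism on `Pic0` (the binders `red, hsurj, hdiv, φ, hφ` of `s27h_hens`). -/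
theorem s27r_red_pic0 :
    ∃ (red : Place K F → Place k Fb) (φ : Pic0 K F →+ Pic0 k Fb),
      Function.Surjective red ∧
      (∀ (f : F) (hf : f ∈ R.V), R.r ⟨f, hf⟩ ≠ 0 →
        Finsupp.mapDomain red (rt_div h.sepK f) = rt_div h.sepk (R.r ⟨f, hf⟩)) ∧
      (∀ (D : Divisor K F) (hD : D ∈ Divisor.degZero (K := K) (F := F)),
        ∃ hD' : Finsupp.mapDomain red D ∈ Divisor.degZero (K := k) (F := Fb),
          φ (Pic0.mk ⟨D, hD⟩) = Pic0.mk ⟨Finsupp.mapDomain red D, hD'⟩) ∧
      Function.Surjective φ := by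
  obtain ⟨red, hsurj, hdiv⟩ := s27r_red R h
  refine ⟨red, s27r6_pic0Hom R h red hdiv (s27r_hcu R h), hsurj, hdiv, fun D hD => ?_, ?_⟩
  · exact ⟨(s27r6_degZeroHom h.sepK h.sepk red ⟨D, hD⟩).2, rfl⟩
  · exact s27r6_pic0Hom_surjective R h red hdiv (s27r_hcu R h) hsurj

end Fermat.Agent.S27
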