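/-
S27 / (RED): adapted (orthonormal) bases of a finite-dimensional space of functions with respect
to a constant reduction, and the free inequality `dim red L ≤ dim L`.
-/
import Mathlib
import Fermat.Agent.S27.Red.LinRedF

set_option autoImplicit false

namespace Fermat.Agent.S27

open Module

universe u v u' v'
variable {K : Type u} {F : Type v} [Field K] [Field F] [Algebra K F]
variable {k : Type u'} {Fb : Type v'} [Field k] [Field Fb] [Algebra k Fb]
variable (R : s27r_Red K F k Fb)

/-- For ANY reduction datum: the reduction of a finite-dimensional space is finite-dimensional of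
at most the same dimension (lifts of independent elements are independent). -/
theorem s27l_finrank_redSub_le (L : Submodule K F) [Module.Finite K L] :
    Module.Finite k ↥(s27r_redSub R L) ∧ finrank k ↥(s27r_redSub R L) ≤ finrank K ↥L := by
  classical
  have hrank : Module.rank k ↥(s27r_redSub R L) ≤ (finrank K ↥L : ℕ) := by
    apply rank_le
    intro s hs
    have hmem : ∀ i : s, ∃ f : F, ∃ hf : f ∈ R.V, f ∈ L ∧
        R.r ⟨f, hf⟩ = ((i : ↥(s27r_redSub R L)) : Fb) := fun i => (i : ↥(s27r_redSub R L)).2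
    choose t htV htL htr using hmem
    have hind : LinearIndependent k (fun i : s => R.r ⟨t i, htV i⟩) := by
      rw [show (fun i : s => R.r ⟨t i, htV i⟩) =
        (Submodule.subtype _) ∘ (fun i : s => (i : ↥(s27r_redSub R L))) from funext htr]
      exact hs.map' _ (Submodule.ker_subtype _)
    have hK : LinearIndependent K t := s27l_F_linearIndependent R t htV hind
    have hK' : LinearIndependent K (fun i : s => (⟨t i, htL i⟩ : L)) :=
      LinearIndependent.of_comp L.subtype hK
    have := hK'.fintype_card_le_finrank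
    simpa using this
  have hfin : Module.Finite k ↥(s27r_redSub R L) := by
    rw [← Module.rank_lt_aleph0_iff]
    exact lt_of_le_of_lt hrank (Cardinal.natCast_lt_aleph0)
  exact ⟨hfin, finrank_le_of_rank_le hrank⟩

/-- **Adapted basis from a basis of the reduction**: lifts (inside `L ∩ V`) of a `k`-basis of
`red L` form an orthonormal `K`-basis of `L`, as soon as `dim red L = dim L`. -/
theorem s27l_adapted_of_basis (L : Submodule K F) [Module.Finite K L]
    (hdim : finrank k ↥(s27r_redSub R L) = finrank K ↥L)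
    {ι : Type*} [Fintype ι] (β : Basis ι k ↥(s27r_redSub R L)) (u : ι → F)
    (huV : ∀ i, u i ∈ R.V) (huL : ∀ i, u i ∈ L) (hu : ∀ i, R.r ⟨u i, huV i⟩ = (β i : Fb)) :
    LinearIndependent k (fun i => R.r ⟨u i, huV i⟩) ∧
      LinearIndependent K u ∧ Submodule.span K (Set.range u) = L ∧
      ∀ g : ι → K, ∑ i, g i • u i ∈ R.V ↔ ∀ i, g i ∈ R.O := by
  classical
  have hind : LinearIndependent k (fun i => R.r ⟨u i, huV i⟩) := by
    rw [show (fun i => R.r ⟨u i, huV i⟩) = (Submodule.subtype _) ∘ β from funext hu]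
    exact β.linearIndependent.map' _ (Submodule.ker_subtype _)
  have hK : LinearIndependent K u := s27l_F_linearIndependent R u huV hind
  refine ⟨hind, hK, ?_, fun g => ⟨s27l_F_orthonormal R u huV hind g, fun hg => ?_⟩⟩
  · let b' : ι → L := fun i => ⟨u i, huL i⟩
    have hb' : LinearIndependent K b' := LinearIndependent.of_comp L.subtype hK
    have hcard : Fintype.card ι = finrank K ↥L := by
      rw [← hdim, finrank_eq_card_basis β]
    have htop := hb'.span_eq_top_of_card_eq_finrank' hcard
    have hfam : u = L.subtype ∘ b' := rfl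
    rw [hfam, Set.range_comp, ← Submodule.map_span, htop, Submodule.map_top,
      Submodule.range_subtype]
  · exact s27l_sum_mem R u huV (fun i => ⟨g i, hg i⟩)

/-- **Adapted basis**: if `dim red L = dim L` then `L` has a `K`-basis of elements of `L ∩ V` whose
reductions are a `k`-basis of `red L`, and which is orthonormal. -/
theorem s27l_exists_adapted_F (L : Submodule K F) [Module.Finite K L]
    (hdim : finrank k ↥(s27r_redSub R L) = finrank K ↥L) :
    ∃ (u : Fin (finrank K ↥L) → F) (huV : ∀ j, u j ∈ R.V), (∀ j, u j ∈ L) ∧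
      LinearIndependent k (fun j => R.r ⟨u j, huV j⟩) ∧
      Submodule.span k (Set.range fun j => R.r ⟨u j, huV j⟩) = s27r_redSub R L ∧
      LinearIndependent K u ∧ Submodule.span K (Set.range u) = L ∧
      ∀ g : Fin (finrank K ↥L) → K, ∑ j, g j • u j ∈ R.V ↔ ∀ j, g j ∈ R.O := by
  classical
  have hfin := (s27l_finrank_redSub_le R L).1
  let β : Basis (Fin (finrank K ↥L)) k ↥(s27r_redSub R L) :=
    (Module.finBasis k ↥(s27r_redSub R L)).reindex (finCongr hdim)
  have hβ : ∀ j, ∃ f : F, ∃ hf : f ∈ R.V, f ∈ L ∧ R.r ⟨f, hf⟩ = (β j : Fb) := fun j => (β j).2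
  choose u huV huL hu using hβ
  obtain ⟨h1, h2, h3, h4⟩ := s27l_adapted_of_basis R L hdim β u huV huL hu
  refine ⟨u, huV, huL, h1, ?_, h2, h3, h4⟩
  rw [show (fun j => R.r ⟨u j, huV j⟩) = (Submodule.subtype _) ∘ β from funext hu,
    Set.range_comp, ← Submodule.map_span, β.span_eq, Submodule.map_top, Submodule.range_subtype]

/-- the kernel of reduction on `L ∩ V` is `𝔪 (L ∩ V)`: an element of `L ∩ V` with zero reduction is
a non-unit of `O` times an element of `L ∩ V`. -/
theorem s27l_exists_smul_of_r_eq_zero (L : Submodule K F) [Module.Finite K L]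
    (hdim : finrank k ↥(s27r_redSub R L) = finrank K ↥L) (f : F) (hfV : f ∈ R.V) (hfL : f ∈ L)
    (hf0 : R.r ⟨f, hfV⟩ = 0) :
    ∃ (a : R.O) (f' : F), ¬ IsUnit a ∧ f' ∈ R.V ∧ f' ∈ L ∧ f = (a : K) • f' := by
  classical
  obtain ⟨u, huV, huL, hindk, -, hindK, hspan, horth⟩ := s27l_exists_adapted_F R L hdim
  have hfs : f ∈ Submodule.span K (Set.range u) := by rw [hspan]; exact hfL
  obtain ⟨g, hg⟩ := (Submodule.mem_span_range_iff_exists_fun K).1 hfs
  have hgO : ∀ j, g j ∈ R.O := (horth g).1 (by rw [hg]; exact hfV)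
  have hr := s27l_r_sum R u huV (fun j => ⟨g j, hgO j⟩) (by simpa [hg] using hfV)
  have hr0 : ∑ j, R.r0 ⟨g j, hgO j⟩ • R.r ⟨u j, huV j⟩ = 0 := by
    rw [← hr, ← hf0]
    congr 1
    exact Subtype.ext hg
  have hnu : ∀ j, ¬ IsUnit (⟨g j, hgO j⟩ : R.O) := fun j =>
    (R.r0_eq_zero_iff _).1 ((Fintype.linearIndependent_iff.1 hindk) _ hr0 j)
  by_cases hg0 : g = 0
  · refine ⟨0, 0, not_isUnit_zero, R.V.zero_mem, L.zero_mem, ?_⟩
    rw [← hg, hg0]
    simp
  · obtain ⟨j0, hj0, hj⟩ := s27l_exists_pivot R.O g hg0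
    refine ⟨⟨g j0, hgO j0⟩, ∑ j, (g j / g j0) • u j, hnu j0,
      s27l_sum_mem R u huV (fun j => ⟨g j / g j0, hj j⟩),
      L.sum_mem fun j _ => L.smul_mem _ (huL j), ?_⟩
    rw [← hg, Finset.smul_sum]
    refine Finset.sum_congr rfl fun j _ => ?_
    rw [smul_smul]
    congr 1
    field_simp

end Fermat.Agent.S27
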