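import Mathlib
import Fermat.Agent.S27.Red.Star
import Fermat.Agent.S27.Red.Gauss
import Fermat.Agent.S27.Red.OrthoBasis
import Fermat.Agent.S27.Red.LinRed

/-!
# S27 / (RED), cell R2': reduction preserves dimensions

`R : s27r_Red K F k Fb`, `h : s27r_Good R x`.  For every finite-dimensional `K`-subspace `L` of
`F` the reduction `s27r_redSub R L = r (L ∩ V)` is a finite-dimensional `k`-subspace of `Fb` of
the same dimension: `s27r_hdim R h : s27r_HDim R`.

* `s27rd_IsOrtho R e eb` : a finite family `e : ι → F` is ORTHONORMAL with reduction `eb`;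
* `s27rd_coord` : `HDim` for the subspaces of the span of an orthonormal family (helper8's
  `s27l_finrank_red` in coordinates);
* `s27rd_isOrtho_mul` : scaling an orthonormal family by a unit of `V`;
* `s27rd_isOrtho_pow` : `x ^ l * ω i` (`l ≤ d`) is orthonormal, `ω` the basis of
  `s27r_exists_orthoBasis` for the Gauss reduction;
* `s27rd_exists_denom` : clearing denominators.
-/

set_option autoImplicit false

namespace Fermat.Agent.S27

open AlgebraicCurve IntermediateField Polynomial Fermat.Agent.JT3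

universe u v u' v'
variable {K : Type u} {F : Type v} [Field K] [Field F] [Algebra K F]
variable {k : Type u'} {Fb : Type v'} [Field k] [Field Fb] [Algebra k Fb]

/-- A finite family `e` of `F` is orthonormal for the reduction `R`, with reduction `eb`. -/
structure s27rd_IsOrtho (R : s27r_Red K F k Fb) {ι : Type*} [Fintype ι] (e : ι → F)
    (eb : ι → Fb) : Prop where
  indep : LinearIndependent k eb
  mem_iff : ∀ a : ι → K, (∑ j, a j • e j) ∈ R.V ↔ ∀ j, a j ∈ R.O
  red_eq : ∀ (w : ι → R.O) (hw : (∑ j, (w j : K) • e j) ∈ R.V),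
    R.r ⟨∑ j, (w j : K) • e j, hw⟩ = ∑ j, R.r0 (w j) • eb j

section coord

variable (R : s27r_Red K F k Fb) {ι : Type*} [Fintype ι] {e : ι → F} {eb : ι → Fb}

/-- An orthonormal family is linearly independent. -/
theorem s27rd_IsOrtho.injective (he : s27rd_IsOrtho R e eb) :
    Function.Injective (Fintype.linearCombination K e) := by
  classical
  rw [← LinearMap.ker_eq_bot, Submodule.eq_bot_iff]
  intro a ha
  rw [LinearMap.mem_ker, Fintype.linearCombination_apply] at ha
  by_contra hne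
  obtain ⟨s, hs0, hs⟩ := s27l_exists_pivot R.O a hne
  set w : ι → R.O := fun i => ⟨a i / a s, hs i⟩ with hwdef
  have hsum : ∑ j, ((w j : R.O) : K) • e j = 0 := by
    have : ∑ j, ((w j : R.O) : K) • e j = (a s)⁻¹ • ∑ j, a j • e j := by
      rw [Finset.smul_sum]
      refine Finset.sum_congr rfl fun j _ => ?_
      rw [smul_smul, hwdef]
      congr 1
      show a j / a s = (a s)⁻¹ * a j
      rw [div_eq_inv_mul]
    rw [this, ha, smul_zero]
  have hmem : (∑ j, ((w j : R.O) : K) • e j) ∈ R.V := by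
    rw [hsum]; exact R.V.zero_mem
  have hred := he.red_eq w hmem
  have hz : (⟨∑ j, ((w j : R.O) : K) • e j, hmem⟩ : R.V) = 0 := Subtype.ext hsum
  rw [hz, map_zero] at hred
  have := (Fintype.linearIndependent_iff.1 he.indep) (fun j => R.r0 (w j)) hred.symm s
  have h1 : w s = 1 := Subtype.ext (by simp [hwdef, div_self hs0])
  rw [h1, map_one] at this
  exact one_ne_zero this

/-- **Coordinates**: `HDim` for subspaces of the span of an orthonormal family. -/
theorem s27rd_coord (he : s27rd_IsOrtho R e eb) (L : Submodule K F)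
    (hL : L ≤ Submodule.span K (Set.range e)) :
    Module.Finite k ↥(s27r_redSub R L) ∧
      Module.finrank k ↥(s27r_redSub R L) = Module.finrank K ↥L := by
  classical
  set Φ : (ι → K) →ₗ[K] F := Fintype.linearCombination K e with hΦ
  set Φb : (ι → k) →ₗ[k] Fb := Fintype.linearCombination k eb with hΦb
  have hΦinj : Function.Injective Φ := he.injective R
  have hΦbinj : Function.Injective Φb := by
    rw [← LinearMap.ker_eq_bot, Submodule.eq_bot_iff]
    intro b hb
    rw [LinearMap.mem_ker, hΦb, Fintype.linearCombination_apply] at hb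
    funext j
    exact Fintype.linearIndependent_iff.1 he.indep b hb j
  have hrange : LinearMap.range Φ = Submodule.span K (Set.range e) :=
    Fintype.range_linearCombination K e
  set W : Submodule K (ι → K) := L.comap Φ with hW
  have hWL : W.map Φ = L := by
    rw [hW, Submodule.map_comap_eq, hrange]
    exact inf_eq_right.2 hL
  -- the reduction in coordinates
  have hred : s27r_redSub R L = (s27l_red R.O R.r0 R.r0_surj W).map Φb := by
    ext y
    constructor
    · rintro ⟨f, hf, hfL, rfl⟩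
      have hfr : f ∈ LinearMap.range Φ := by rw [hrange]; exact hL hfL
      obtain ⟨a, rfl⟩ := hfr
      have haO : ∀ j, a j ∈ R.O := by
        rw [hΦ, Fintype.linearCombination_apply] at hf
        exact (he.mem_iff a).1 hf
      set w : ι → R.O := fun j => ⟨a j, haO j⟩ with hwdef
      have hwa : s27l_coe R.O w = a := rfl
      refine ⟨s27l_redv R.O R.r0 w, ⟨w, ?_, rfl⟩, ?_⟩
      · rw [hwa]; exact hfL
      · rw [hΦb, Fintype.linearCombination_apply]
        have hmem : (∑ j, ((w j : R.O) : K) • e j) ∈ R.V := by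
          have := hf
          rw [hΦ, Fintype.linearCombination_apply] at this
          exact this
        have := he.red_eq w hmem
        refine Eq.trans ?_ (Eq.trans this.symm ?_)
        · rfl
        · congr 1
    · rintro ⟨z, ⟨w, hwW, rfl⟩, rfl⟩
      have hmem : (∑ j, ((w j : R.O) : K) • e j) ∈ R.V :=
        (he.mem_iff _).2 fun j => (w j).2
      refine ⟨∑ j, ((w j : R.O) : K) • e j, hmem, ?_, ?_⟩
      · have : Φ (s27l_coe R.O w) ∈ L := hwW
        rw [hΦ, Fintype.linearCombination_apply] at this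
        exact this
      · rw [he.red_eq w hmem, hΦb, Fintype.linearCombination_apply]
        rfl
  have hfin : Module.Finite k ↥(s27l_red R.O R.r0 R.r0_surj W) := inferInstance
  rw [hred]
  refine ⟨Module.Finite.map _ _, ?_⟩
  rw [LinearEquiv.finrank_eq (Submodule.equivMapOfInjective Φb hΦbinj _).symm,
    s27l_finrank_red, ← hWL, LinearEquiv.finrank_eq (Submodule.equivMapOfInjective Φ hΦinj _).symm]

end coord

section scale

variable (R : s27r_Red K F k Fb) {ι : Type*} [Fintype ι] {e : ι → F} {eb : ι → Fb}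

/-- Scaling an orthonormal family by the inverse of a unit of `V`. -/
theorem s27rd_isOrtho_mul (he : s27rd_IsOrtho R e eb) (q : R.V) (hq : IsUnit q) :
    s27rd_IsOrtho R (fun j => (q : F)⁻¹ * e j) (fun j => (R.r q)⁻¹ * eb j) := by
  have hq' := (R.isUnit_iff q).1 hq
  have hrq : R.r q ≠ 0 := (R.r_ne_zero_iff q).2 hq
  have hsum : ∀ a : ι → K, ∑ j, a j • ((q : F)⁻¹ * e j) = (q : F)⁻¹ * ∑ j, a j • e j := by
    intro a
    rw [Finset.mul_sum]
    exact Finset.sum_congr rfl fun j _ => by rw [mul_smul_comm]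
  refine ⟨?_, ?_, ?_⟩
  · have : (fun j => (R.r q)⁻¹ * eb j) = (LinearMap.mulLeft k (R.r q)⁻¹) ∘ eb := rfl
    rw [this]
    refine he.indep.map' _ ?_
    rw [LinearMap.ker_eq_bot]
    intro y z hyz
    exact mul_left_cancel₀ (inv_ne_zero hrq) hyz
  · intro a
    rw [hsum, ← he.mem_iff a]
    constructor
    · intro hmem
      have : ∑ j, a j • e j = (q : F) * ((q : F)⁻¹ * ∑ j, a j • e j) := by
        rw [← mul_assoc, mul_inv_cancel₀ hq'.1, one_mul]
      rw [this]
      exact R.V.mul_mem _ _ q.2 hmem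
    · intro hmem
      exact R.V.mul_mem _ _ hq'.2 hmem
  · intro w hw
    have hw' : (∑ j, ((w j : R.O) : K) • e j) ∈ R.V := (he.mem_iff _).2 fun j => (w j).2
    have hid : (⟨∑ j, ((w j : R.O) : K) • ((q : F)⁻¹ * e j), hw⟩ : R.V) * q =
        ⟨∑ j, ((w j : R.O) : K) • e j, hw'⟩ := by
      apply Subtype.ext
      show (∑ j, ((w j : R.O) : K) • ((q : F)⁻¹ * e j)) * (q : F) = ∑ j, ((w j : R.O) : K) • e j
      rw [hsum, mul_comm, ← mul_assoc, mul_inv_cancel₀ hq'.1, one_mul]
    have h1 := congrArg R.r hid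
    rw [map_mul, he.red_eq w hw'] at h1
    have h2 : R.r ⟨∑ j, ((w j : R.O) : K) • ((q : F)⁻¹ * e j), hw⟩ =
        (R.r q)⁻¹ * ∑ j, R.r0 (w j) • eb j := by
      rw [← h1]
      field_simp
    rw [h2, Finset.mul_sum]
    exact Finset.sum_congr rfl fun j _ => by rw [mul_smul_comm]

end scale

/-! ### Polynomial coordinates -/

section poly

variable {A : Type*} [Semiring A] {n d : ℕ}

/-- the polynomial with coefficients `a (i, ·)` -/
noncomputable def s27rd_poly (a : Fin n × Fin (d + 1) → A) (i : Fin n) : A[X] :=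
  ∑ l : Fin (d + 1), monomial (l : ℕ) (a (i, l))

theorem s27rd_poly_coeff (a : Fin n × Fin (d + 1) → A) (i : Fin n) (l : Fin (d + 1)) :
    (s27rd_poly a i).coeff (l : ℕ) = a (i, l) := by
  classical
  rw [s27rd_poly, Polynomial.finsetSum_coeff]
  rw [Finset.sum_eq_single l]
  · rw [Polynomial.coeff_monomial, if_pos rfl]
  · intro l' _ hl'
    rw [Polynomial.coeff_monomial, if_neg]
    intro h
    exact hl' (Fin.ext h)
  · intro h
    exact absurd (Finset.mem_univ l) h

theorem s27rd_poly_map {B : Type*} [Semiring B] (f : A →+* B) (a : Fin n × Fin (d + 1) → A)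
    (i : Fin n) : (s27rd_poly a i).map f = s27rd_poly (fun j => f (a j)) i := by
  rw [s27rd_poly, s27rd_poly, Polynomial.map_sum]
  exact Finset.sum_congr rfl fun l _ => Polynomial.map_monomial f

end poly

section polyField

variable {K' : Type*} {F' : Type*} [Field K'] [Field F'] [Algebra K' F'] {n d : ℕ}

theorem s27rd_aeval_poly (y : F') (a : Fin n × Fin (d + 1) → K') (i : Fin n) :
    aeval y (s27rd_poly a i) = ∑ l : Fin (d + 1), a (i, l) • y ^ (l : ℕ) := by
  rw [s27rd_poly, map_sum]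
  exact Finset.sum_congr rfl fun l _ => by rw [Polynomial.aeval_monomial, Algebra.smul_def]

theorem s27rd_aeval_mem (y : F') (p : K'[X]) : aeval y p ∈ K'⟮y⟯ := by
  rw [IntermediateField.mem_adjoin_simple_iff]
  exact ⟨p, 1, by simp⟩

/-- regrouping a combination of the `y ^ l * ω i` -/
theorem s27rd_sum_eq (y : F') (ω : Fin n → F') (a : Fin n × Fin (d + 1) → K') :
    ∑ j, a j • (y ^ (j.2 : ℕ) * ω j.1) =
      ∑ i, (⟨aeval y (s27rd_poly a i), s27rd_aeval_mem y _⟩ : K'⟮y⟯) • ω i := by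
  rw [Fintype.sum_prod_type]
  refine Finset.sum_congr rfl fun i _ => ?_
  have : (⟨aeval y (s27rd_poly a i), s27rd_aeval_mem y _⟩ : K'⟮y⟯) • ω i =
      aeval y (s27rd_poly a i) * ω i := rfl
  rw [this, s27rd_aeval_poly, Finset.sum_mul]
  exact Finset.sum_congr rfl fun l _ => by rw [smul_mul_assoc]

end polyField

/-! ### The family `x ^ l * ω i` -/

section pow

variable (R : s27r_Red K F k Fb) {x : F} (hx : x ∈ R.V)
  (hxb : Transcendental k (R.r ⟨x, hx⟩)) {n : ℕ} (d : ℕ) (ω : Fin n → F) (ωb : Fin n → Fb)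

include hxb in
/-- If `ω` is orthonormal over `K⟮x⟯` (for the Gauss reduction) with reduction `ωb`, then the
`x ^ l * ω i`, `l ≤ d`, are orthonormal over `K` with reductions `xb ^ l * ωb i`. -/
theorem s27rd_isOrtho_pow
    (hωb : LinearIndependent k⟮R.r ⟨x, hx⟩⟯ ωb)
    (h2 : ∀ c : Fin n → K⟮x⟯, (∑ i, c i • ω i) ∈ R.V ↔ ∀ i, (c i : F) ∈ R.V)
    (h3 : ∀ (c : Fin n → K⟮x⟯) (hc : ∀ i, (c i : F) ∈ R.V) (h : (∑ i, c i • ω i) ∈ R.V),
        R.r ⟨∑ i, c i • ω i, h⟩ = ∑ i, R.r ⟨(c i : F), hc i⟩ * ωb i) :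
    s27rd_IsOrtho R (fun j : Fin n × Fin (d + 1) => x ^ (j.2 : ℕ) * ω j.1)
      (fun j : Fin n × Fin (d + 1) => (R.r ⟨x, hx⟩) ^ (j.2 : ℕ) * ωb j.1) := by
  classical
  refine ⟨?_, ?_, ?_⟩
  · rw [Fintype.linearIndependent_iff]
    intro b hb j
    rw [s27rd_sum_eq (R.r ⟨x, hx⟩) ωb b] at hb
    have h0 := Fintype.linearIndependent_iff.1 hωb _ hb
    obtain ⟨i, l⟩ := j
    have h1 : aeval (R.r ⟨x, hx⟩) (s27rd_poly b i) = 0 := congrArg Subtype.val (h0 i)
    have hp := (transcendental_iff.1 hxb) _ h1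
    have h2 := s27rd_poly_coeff b i l
    rw [hp, coeff_zero] at h2
    exact h2.symm
  · intro a
    rw [s27rd_sum_eq x ω a, h2]
    constructor
    · intro hmem j
      obtain ⟨i, l⟩ := j
      have := (s27r_aeval_mem_iff R hx hxb (s27rd_poly a i)).1 (hmem i) (l : ℕ)
      rwa [s27rd_poly_coeff] at this
    · intro ha i
      show aeval x (s27rd_poly a i) ∈ R.V
      rw [s27r_aeval_mem_iff R hx hxb]
      intro m
      rw [s27rd_poly, Polynomial.finsetSum_coeff]
      refine sum_mem fun l _ => ?_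
      rw [Polynomial.coeff_monomial]
      split_ifs
      · exact ha _
      · exact R.O.zero_mem
  · intro w hw
    set a : Fin n × Fin (d + 1) → K := fun j => ((w j : R.O) : K) with ha
    have hpoly : ∀ i, s27rd_poly a i = (s27rd_poly w i).map R.O.subtype := fun i => by
      rw [s27rd_poly_map]; rfl
    have hcoe : ∀ i, aeval x (s27rd_poly a i) =
        ((s27r_evalV R hx (s27rd_poly w i) : R.V) : F) := fun i => by
      rw [s27r_coe_evalV, hpoly]
    have hc : ∀ i, ((⟨aeval x (s27rd_poly a i), s27rd_aeval_mem x _⟩ : K⟮x⟯) : F) ∈ R.V :=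
      fun i => by
        show aeval x (s27rd_poly a i) ∈ R.V
        rw [hcoe]; exact Subtype.property _
    have hsum := s27rd_sum_eq x ω a
    have hw' : (∑ i, (⟨aeval x (s27rd_poly a i), s27rd_aeval_mem x _⟩ : K⟮x⟯) • ω i) ∈ R.V := by
      rw [← hsum]; exact hw
    have h3' := h3 _ hc hw'
    have hval : (⟨∑ j, ((w j : R.O) : K) • (x ^ (j.2 : ℕ) * ω j.1), hw⟩ : R.V) =
        ⟨_, hw'⟩ := Subtype.ext hsum
    rw [hval, h3', s27rd_sum_eq (R.r ⟨x, hx⟩) ωb (fun j => R.r0 (w j))]
    refine Finset.sum_congr rfl fun i _ => ?_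
    show _ = aeval (R.r ⟨x, hx⟩) (s27rd_poly (fun j => R.r0 (w j)) i) * ωb i
    congr 1
    have hev : (⟨aeval x (s27rd_poly a i), hc i⟩ : R.V) = s27r_evalV R hx (s27rd_poly w i) :=
      Subtype.ext (hcoe i)
    rw [hev, s27r_r_evalV, s27rd_poly_map]

end pow

/-! ### Clearing denominators -/

section denom

variable {n : ℕ} (x : F) (ω : Fin n → F)

/-- `Q(x) · L` lies in the `K`-span of the `x ^ l * ω i`, `l ≤ d`. -/
def s27rd_Cleared (L : Submodule K F) : Prop :=
  ∃ (Q : K[X]) (d : ℕ), aeval x Q ≠ 0 ∧ ∀ f ∈ L, ∃ p : Fin n → K[X],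
    (∀ i, (p i).natDegree ≤ d) ∧ aeval x Q * f = ∑ i, aeval x (p i) * ω i

theorem s27rd_cleared_mono {L L' : Submodule K F} (h : L ≤ L')
    (hL' : s27rd_Cleared x ω L') : s27rd_Cleared x ω L := by
  obtain ⟨Q, d, hQ, hf⟩ := hL'
  exact ⟨Q, d, hQ, fun f hfL => hf f (h hfL)⟩

theorem s27rd_cleared_bot : s27rd_Cleared x ω (⊥ : Submodule K F) := by
  refine ⟨1, 0, by simp, fun f hf => ⟨fun _ => 0, fun _ => by simp, ?_⟩⟩
  rw [(Submodule.mem_bot K).1 hf]
  simp

theorem s27rd_cleared_sup {L₁ L₂ : Submodule K F} (h₁ : s27rd_Cleared x ω L₁)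
    (h₂ : s27rd_Cleared x ω L₂) : s27rd_Cleared x ω (L₁ ⊔ L₂) := by
  obtain ⟨Q₁, d₁, hQ₁, hf₁⟩ := h₁
  obtain ⟨Q₂, d₂, hQ₂, hf₂⟩ := h₂
  refine ⟨Q₁ * Q₂, max (d₁ + Q₂.natDegree) (d₂ + Q₁.natDegree),
    by rw [map_mul]; exact mul_ne_zero hQ₁ hQ₂, ?_⟩
  intro f hf
  obtain ⟨f₁, hf₁L, f₂, hf₂L, rfl⟩ := Submodule.mem_sup.1 hf
  obtain ⟨p₁, hp₁, e₁⟩ := hf₁ f₁ hf₁L
  obtain ⟨p₂, hp₂, e₂⟩ := hf₂ f₂ hf₂L
  refine ⟨fun i => Q₂ * p₁ i + Q₁ * p₂ i, fun i => ?_, ?_⟩
  · refine (natDegree_add_le _ _).trans (max_le_max ?_ ?_)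
    · refine natDegree_mul_le.trans ?_
      have := hp₁ i
      omega
    · refine natDegree_mul_le.trans ?_
      have := hp₂ i
      omega
  · simp only [map_add, map_mul, add_mul, Finset.sum_add_distrib]
    have e₁' : ∑ i, aeval x Q₂ * aeval x (p₁ i) * ω i = aeval x Q₂ * (aeval x Q₁ * f₁) := by
      rw [e₁, Finset.mul_sum]
      exact Finset.sum_congr rfl fun i _ => by ring
    have e₂' : ∑ i, aeval x Q₁ * aeval x (p₂ i) * ω i = aeval x Q₁ * (aeval x Q₂ * f₂) := by
      rw [e₂, Finset.mul_sum]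
      exact Finset.sum_congr rfl fun i _ => by ring
    rw [e₁', e₂']
    ring

theorem s27rd_cleared_smul (c : K⟮x⟯) (i : Fin n) :
    s27rd_Cleared x ω (Submodule.span K {c • ω i}) := by
  classical
  obtain ⟨P, Q, hPQ⟩ := (IntermediateField.mem_adjoin_simple_iff K (c : F)).1 c.2
  by_cases hQ0 : aeval x Q = 0
  · have hc : (c : F) = 0 := by rw [hPQ, hQ0, div_zero]
    have h0 : c • ω i = 0 := by
      show (c : F) * ω i = 0
      rw [hc, zero_mul]
    rw [h0, Submodule.span_singleton_eq_bot.2 rfl]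
    exact s27rd_cleared_bot x ω
  refine ⟨Q, P.natDegree, hQ0, ?_⟩
  intro f hf
  obtain ⟨a, rfl⟩ := Submodule.mem_span_singleton.1 hf
  refine ⟨Pi.single i (C a * P), fun i' => ?_, ?_⟩
  · by_cases h : i' = i
    · subst h
      rw [Pi.single_eq_same]
      exact natDegree_C_mul_le _ _
    · rw [Pi.single_eq_of_ne h]
      simp
  · rw [Finset.sum_eq_single i]
    · rw [Pi.single_eq_same, map_mul, aeval_C]
      show aeval x Q * (a • ((c : F) * ω i)) = _
      rw [hPQ, Algebra.smul_def]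
      field_simp
    · intro i' _ h
      rw [Pi.single_eq_of_ne h, map_zero, zero_mul]
    · intro h
      exact absurd (Finset.mem_univ i) h

theorem s27rd_cleared_singleton (ω : Module.Basis (Fin n) K⟮x⟯ F) (f : F) :
    s27rd_Cleared x ω (Submodule.span K {f}) := by
  classical
  have key : ∀ s : Finset (Fin n),
      s27rd_Cleared x ω (Submodule.span K {∑ i ∈ s, ω.repr f i • ω i}) := by
    intro s
    induction s using Finset.induction_on with
    | empty =>
      rw [Finset.sum_empty, Submodule.span_singleton_eq_bot.2 rfl]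
      exact s27rd_cleared_bot x ω
    | insert i s hi ih =>
      rw [Finset.sum_insert hi]
      refine s27rd_cleared_mono x ω ?_
        (s27rd_cleared_sup x ω (s27rd_cleared_smul x ω (ω.repr f i) i) ih)
      rw [Submodule.span_singleton_le_iff_mem]
      exact Submodule.add_mem_sup (Submodule.mem_span_singleton_self _)
        (Submodule.mem_span_singleton_self _)
  have := key Finset.univ
  rwa [ω.sum_repr] at this

theorem s27rd_cleared_of_finite (ω : Module.Basis (Fin n) K⟮x⟯ F) (L : Submodule K F)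
    (hL : Module.Finite K L) : s27rd_Cleared x ω L :=
  Submodule.fg_induction (motive := fun N _ => s27rd_Cleared x ω N)
    (s27rd_cleared_singleton x ω) (fun _ _ _ _ => s27rd_cleared_sup x ω) L
    (Module.Finite.iff_fg.1 hL)

end denom

/-! ### The main statement -/

/-- **(R2')** Reduction preserves the dimension of finite-dimensional `K`-subspaces of `F`. -/
theorem s27r_hdim (R : s27r_Red K F k Fb) {x : F} (h : s27r_Good R x) : s27r_HDim R := by
  classical
  intro L hLfin
  have hx := h.x_mem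
  have hxb : Transcendental k (R.r ⟨x, hx⟩) := h.sepk.1
  have : FiniteDimensional k⟮R.r ⟨x, hx⟩⟯ Fb := h.sepk.2.1
  obtain ⟨ω, ωb, -, hω2, hω3⟩ := s27r_exists_orthoBasis (s27r_gaussRed R hx hxb) h.deg_eq
  obtain ⟨Q, d, hQ, hcl⟩ := s27rd_cleared_of_finite x ω L hLfin
  have hQ0 : Q ≠ 0 := fun h0 => hQ (by rw [h0, map_zero])
  obtain ⟨c, q, hc, hq, he, -⟩ := s27r_aeval_eq_const_mul_unit R hx hxb Q hQ0
  have hq' := (R.isUnit_iff q).1 hq
  have hpow := s27rd_isOrtho_pow R hx hxb d ω ωb ωb.linearIndependent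
    (fun c => hω2 c) (fun c hc h => hω3 c hc h)
  have hort := s27rd_isOrtho_mul R hpow q hq
  refine s27rd_coord R hort L ?_
  intro f hf
  obtain ⟨p, hp, e⟩ := hcl f hf
  set a : Fin (Module.finrank k⟮R.r ⟨x, hx⟩⟯ Fb) × Fin (d + 1) → K :=
    fun j => c⁻¹ * (p j.1).coeff (j.2 : ℕ) with ha
  have hcF : algebraMap K F c ≠ 0 := (_root_.map_ne_zero _).2 hc
  have hsum : f = ∑ j, a j • ((q : F)⁻¹ * (x ^ (j.2 : ℕ) * ω j.1)) := by
    have h1 : ∀ i, aeval x (p i) = ∑ l : Fin (d + 1), (p i).coeff (l : ℕ) • x ^ (l : ℕ) := by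
      intro i
      rw [Polynomial.aeval_eq_sum_range' (Nat.lt_succ_of_le (hp i)),
        ← Fin.sum_univ_eq_sum_range (fun l => (p i).coeff l • x ^ l) (d + 1)]
    have h2 : ∑ j, a j • ((q : F)⁻¹ * (x ^ (j.2 : ℕ) * ω j.1)) =
        (q : F)⁻¹ * ((algebraMap K F c)⁻¹ * ∑ i, aeval x (p i) * ω i) := by
      rw [Fintype.sum_prod_type, Finset.mul_sum, Finset.mul_sum]
      refine Finset.sum_congr rfl fun i _ => ?_
      rw [h1 i, Finset.sum_mul, Finset.mul_sum, Finset.mul_sum]
      refine Finset.sum_congr rfl fun l _ => ?_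
      rw [ha]
      simp only [Algebra.smul_def, map_mul, map_inv₀]
      ring
    have hqF : (q : F) ≠ 0 := hq'.1
    rw [h2, ← e, he]
    field_simp
  rw [hsum]
  exact Submodule.sum_mem _ fun j _ =>
    Submodule.smul_mem _ _ (Submodule.subset_span ⟨j, rfl⟩)

end Fermat.Agent.S27
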