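import Mathlib
import Fermat.Agent.JT3.Riemann.Main
import Fermat.Agent.S27.Good.SepGen
import Fermat.Prelude.Def_AlgebraicCurve_IsCurveOver

/-!
# S27: a function field with a separating generator over an algebraically closed field is a curve

`s27r_isCurveOver_of_sepGen [IsAlgClosed k] (hx : rt_IsSepGen k x) : IsCurveOver k E`, in ANY
characteristic: principal divisors have degree `0` (`rt_hasPrincipalDivisors`), residue fields
are `k` (`rt_deg_eq_one`), and `Ω[E⁄k]` is free of rank one because `E / k⟮x⟯` is separable
(`s27f_finrank_kaehler`).
-/

set_option autoImplicit false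

namespace Fermat.Agent.S27

open AlgebraicCurve IntermediateField Fermat.Agent.JT3 KaehlerDifferential

universe u v
variable {k : Type u} {E : Type v} [Field k] [Field E] [Algebra k E]

/-- The rank of `Ω[E⁄k]` is one when `E / k⟮x⟯` is separable, `x` transcendental. -/
theorem s27r_finrank_kaehler_of_sepGen {x : E} (hx : rt_IsSepGen k x) :
    Module.finrank E Ω[E⁄k] = 1 := by
  have hsep : Algebra.IsSeparable k⟮x⟯ E := hx.2.2
  have hrange : Set.range (fun _ : Unit => x) = {x} := by
    ext y
    simp [eq_comm]
  have : Algebra.IsSeparable (IntermediateField.adjoin k (Set.range fun _ : Unit => x)) E := by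
    rw [hrange]
    exact hsep
  have hind : AlgebraicIndependent k (fun _ : Unit => x) := by
    rw [algebraicIndependent_unique_type_iff]
    exact hx.1
  have := s27f_finrank_kaehler k E hind
  rw [this, Fintype.card_unit]

/-- **A function field with a separating generator over an algebraically closed field is a curve
in the sense of the Prelude.** -/
theorem s27r_isCurveOver_of_sepGen [IsAlgClosed k] {x : E} (hx : rt_IsSepGen k x) :
    IsCurveOver k E where
  toHasPrincipalDivisors := rt_hasPrincipalDivisors hx
  finiteResidue := fun v => by
    have h1 : v.deg = 1 := rt_deg_eq_one hx v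
    have h2 : 0 < Module.finrank k v.ResidueField := by
      show 0 < v.deg
      rw [h1]
      exact zero_lt_one
    exact Module.finite_of_finrank_pos h2
  kaehler_free_rank_one := ⟨Module.Free.of_divisionRing E _, s27r_finrank_kaehler_of_sepGen hx⟩

end Fermat.Agent.S27
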